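import Fermat.Agent.Lib.CFT.Duality.DevissageRep

/-!
# Additivity for the devissage base case

* `bijective_of_sum` (abstract): if an object `C` is a finite direct sum of objects `A j`
  (inclusions `i j`, projections `p j` with `∑ j, i j ∘ p j = id`, seen through two additive
  functors `F`, `G`) and a natural comparison map is bijective on every `A j`, then it is
  bijective on `C`.
* concrete decomposition: if the finite index subgroup `V` acts trivially on `M` and `b` is a
  finite basis of `M`, then `Coind_V (M|_V)` is the direct sum of copies of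
  `PV V := Coind_V (trivial)`: morphisms `incl b hV j : PV V ⟶ P V M`,
  `projn b hV j : P V M ⟶ PV V` with `incl_projn` and `sum_projn_incl`.
-/

set_option autoImplicit false

universe u

open CategoryTheory Fermat.Agent.Lib.CFT.Duality.DevissageRep

namespace Fermat.Agent.Lib.CFT.Duality.Additivity

section Abstract

variable {ι : Type*} [Fintype ι] {FA GA : ι → Type*} {FC GC : Type*}
  [∀ j, AddCommGroup (FA j)] [∀ j, AddCommGroup (GA j)] [AddCommGroup FC] [AddCommGroup GC]

/-- A comparison map which is bijective on every summand is bijective on a finite direct sum. -/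
theorem bijective_of_sum (Fi : ∀ j, FA j →+ FC) (Fp : ∀ j, FC →+ FA j)
    (Gi : ∀ j, GA j →+ GC) (Gp : ∀ j, GC →+ GA j)
    (βA : ∀ j, FA j →+ GA j) (βC : FC →+ GC)
    (hF : ∀ x, ∑ j, Fi j (Fp j x) = x) (hG : ∀ y, ∑ j, Gi j (Gp j y) = y)
    (hi : ∀ j a, βC (Fi j a) = Gi j (βA j a)) (hp : ∀ j x, βA j (Fp j x) = Gp j (βC x))
    (hβ : ∀ j, Function.Bijective (βA j)) : Function.Bijective βC := by
  constructor
  · rw [injective_iff_map_eq_zero]
    intro x hx
    rw [← hF x]
    refine Finset.sum_eq_zero fun j _ => ?_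
    have : Fp j x = 0 := by
      apply (hβ j).1
      rw [hp, hx, map_zero, map_zero]
    rw [this, map_zero]
  · intro y
    choose a ha using fun j => (hβ j).2 (Gp j y)
    refine ⟨∑ j, Fi j (a j), ?_⟩
    rw [map_sum]
    conv_rhs => rw [← hG y]
    refine Finset.sum_congr rfl fun j _ => ?_
    rw [hi, ha]

end Abstract

section Concrete

variable {k G : Type u} [CommRing k] [Group G] (V : Subgroup G) {M : Rep.{u} k G}

/-- The module coinduced from the trivial representation of `V` on `k`. -/
noncomputable abbrev PV : Rep.{u} k G := Rep.coind V.subtype (Rep.trivial k V k)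

variable {V} {ι : Type*} (b : Module.Basis ι k M)
  (hV : ∀ s ∈ V, ∀ m : M, M.ρ s m = m)

/-- The inclusion `k ⟶ M|_V`, `c ↦ c • b j`. -/
noncomputable def inclV (j : ι) : Rep.trivial k V k ⟶ Rep.res V.subtype M :=
  Rep.ofHom ⟨LinearMap.toSpanSingleton k M (b j), fun s => by
    ext
    simp only [LinearMap.coe_comp, Function.comp_apply, Representation.isTrivial_def,
      LinearMap.id_coe, id_eq, LinearMap.toSpanSingleton_apply, one_smul]
    exact (hV s.1 s.2 (b j)).symm⟩

/-- The projection `M|_V ⟶ k`, the `j`-th coordinate. -/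
noncomputable def projnV (j : ι) : Rep.res V.subtype M ⟶ Rep.trivial k V k :=
  Rep.ofHom ⟨b.coord j, fun s => by
    ext m
    simp only [LinearMap.coe_comp, Function.comp_apply, Representation.isTrivial_def,
      LinearMap.id_coe, id_eq]
    show b.coord j (M.ρ s.1 m) = b.coord j m
    rw [hV s.1 s.2 m]⟩

/-- The inclusion of the `j`-th summand `Coind_V k ⟶ Coind_V (M|_V)`. -/
noncomputable def incl (j : ι) : PV V ⟶ P V M := Rep.coindMap V.subtype (inclV b hV j)

/-- The projection onto the `j`-th summand `Coind_V (M|_V) ⟶ Coind_V k`. -/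
noncomputable def projn (j : ι) : P V M ⟶ PV V := Rep.coindMap V.subtype (projnV b hV j)

theorem incl_apply (j : ι) (f : PV (k := k) V) (g : G) :
    ((incl b hV j).hom f).1 g = (f.1 g : k) • b j := rfl

theorem projn_apply (j : ι) (f : P V M) (g : G) :
    ((projn b hV j).hom f).1 g = b.coord j (f.1 g) := rfl

theorem incl_projn [DecidableEq ι] (j j' : ι) :
    incl b hV j ≫ projn b hV j' = if j = j' then 𝟙 (PV V) else 0 := by
  ext f g
  rw [Rep.hom_comp]
  show ((projn b hV j').hom ((incl b hV j).hom f)).1 g = _
  rw [projn_apply, incl_apply, map_smul, Module.Basis.coord_apply, Module.Basis.repr_self,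
    Finsupp.single_apply]
  split_ifs with h
  · simp
  · simp

omit b hV in
theorem sum_hom_apply {A B : Rep.{u} k G} {κ : Type*} (s : Finset κ) (h : κ → (A ⟶ B)) (x : A) :
    (∑ j ∈ s, h j).hom x = ∑ j ∈ s, (h j).hom x := by
  classical
  induction s using Finset.induction_on with
  | empty =>
    simp only [Finset.sum_empty]
    rfl
  | insert j s hj ih =>
    rw [Finset.sum_insert hj, Finset.sum_insert hj, Rep.add_hom, ← ih]
    rfl

omit b hV in
theorem coe_sum_apply {A : Rep.{u} k V} {κ : Type*} (s : Finset κ)
    (x : κ → Rep.coind V.subtype A) (g : G) :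
    (∑ j ∈ s, x j : Rep.coind V.subtype A).1 g = ∑ j ∈ s, (x j).1 g := by
  classical
  induction s using Finset.induction_on with
  | empty => rfl
  | insert j s hj ih =>
    rw [Finset.sum_insert hj, Finset.sum_insert hj, ← ih]
    rfl

theorem sum_projn_incl [Fintype ι] : ∑ j, projn b hV j ≫ incl b hV j = 𝟙 (P V M) := by
  ext f g
  show ((∑ j, projn b hV j ≫ incl b hV j).hom f).1 g = f.1 g
  rw [sum_hom_apply, coe_sum_apply]
  have : ∀ j, ((projn b hV j ≫ incl b hV j).hom f).1 g = b.repr (f.1 g) j • b j := fun j => rfl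
  simp only [this]
  exact b.sum_repr (f.1 g)

end Concrete

section Field

variable {k G : Type u} [Field k] [Group G] {V : Subgroup G} {M : Rep.{u} k G}

/-- If `V` acts trivially on the finite dimensional `M`, then `Coind_V (M|_V)` is a finite direct
sum of copies of `Coind_V k`. -/
theorem exists_decomposition [FiniteDimensional k M] (hV : ∀ s ∈ V, ∀ m : M, M.ρ s m = m) :
    ∃ (n : ℕ) (i : Fin n → (PV V ⟶ P V M)) (p : Fin n → (P V M ⟶ PV V)),
      (∀ j j', i j ≫ p j' = if j = j' then 𝟙 (PV V) else 0) ∧ ∑ j, p j ≫ i j = 𝟙 (P V M) :=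
  ⟨Module.finrank k M, incl (Module.finBasis k M) hV, projn (Module.finBasis k M) hV,
    incl_projn _ hV, sum_projn_incl _ hV⟩

end Field

end Fermat.Agent.Lib.CFT.Duality.Additivity
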