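import Fermat.Agent.Lib.CFT.Duality.LocDatum

/-!
P-CFT, layer L4 (duality): arithmetic discreteness facts.

* `isDiscrete_levelsS` : a finite Galois module which is continuous (every element is fixed by the
  fixing subgroup of a finite extension) and unramified outside `S` is discrete for the level
  family `levelsS S` of the extensions unramified outside `S`.
* `exists_level_le_ker_cycloChar` : if `p ∈ S`, the mod `p` cyclotomic character is trivial on a
  level of `levelsS S` (the field `ℚ(ζ_p)` is unramified outside `p`).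
-/

set_option autoImplicit false

open CategoryTheory

namespace Fermat.Agent.Lib.CFT.Duality

open Fermat.Agent.Lib.CFT.Profinite Fermat.Agent.Lib.CFT.Profinite.Bridge ExtCitation

local notation "Qbar" => AlgebraicClosure ℚ
local notation "Γℚ" => (AlgebraicClosure ℚ ≃ₐ[ℚ] AlgebraicClosure ℚ)

/-- A finite, continuous Galois module unramified outside `S` is discrete for `levelsS S`. -/
theorem isDiscrete_levelsS {k : Type} [CommRing k] (S : Finset Nat.Primes) (M : Rep k Γℚ)
    [Finite M]
    (hsm : ∀ m : M, ∃ F : IntermediateField ℚ Qbar, FiniteDimensional ℚ F ∧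
      ∀ s ∈ F.fixingSubgroup, M.ρ s m = m)
    (hMur : ∀ q : Nat.Primes, q ∉ S → ∀ A : ValuationSubring Qbar,
      A.LiesOverPrime (q : ℕ) → ∀ g ∈ A.inertiaSubgroupIn ℚ, M.ρ g = 1) :
    (levelsS S).IsDiscrete M := by
  classical
  have hgal : IsGalois ℚ Qbar := isGalois_qbar
  -- the kernel of the action
  let N : Subgroup Γℚ := M.ρ.ker
  choose F hF hfix using hsm
  have : ∀ m, FiniteDimensional ℚ (F m) := hF
  let F₀ : IntermediateField ℚ Qbar := ⨆ m, F m
  have hF₀ : FiniteDimensional ℚ F₀ := IntermediateField.finiteDimensional_iSup_of_finite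
  have hle : F₀.fixingSubgroup ≤ N := by
    intro s hs
    rw [MonoidHom.mem_ker]
    ext m
    have hm : s ∈ (F m).fixingSubgroup :=
      IntermediateField.fixingSubgroup_antitone (le_iSup F m) hs
    simpa using hfix m s hm
  have hopen : IsOpen (N : Set Γℚ) :=
    Subgroup.isOpen_mono hle (IntermediateField.fixingSubgroup_isOpen F₀)
  have hclosed : IsClosed (N : Set Γℚ) := Subgroup.isClosed_of_isOpen N hopen
  let E : IntermediateField ℚ Qbar := IntermediateField.fixedField N
  have hEF₀ : E ≤ F₀ := by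
    intro x hx
    rw [← InfiniteGalois.fixedField_fixingSubgroup F₀]
    rw [IntermediateField.mem_fixedField_iff] at hx ⊢
    exact fun g hg => hx g (hle hg)
  have hEfin : FiniteDimensional ℚ E :=
    FiniteDimensional.of_injective (IntermediateField.inclusion hEF₀).toLinearMap
      (IntermediateField.inclusion_injective hEF₀)
  have hEN : E.fixingSubgroup = N :=
    InfiniteGalois.fixingSubgroup_fixedField ⟨N, hclosed⟩
  have hEur : E.IsUnramifiedOutside S := by
    refine ⟨hEfin, fun q hq A hA σ hσ => ?_⟩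
    rw [hEN, MonoidHom.mem_ker]
    exact hMur q hq A hA σ hσ
  intro m
  refine ⟨E.fixingSubgroup, ⟨E, hEur, rfl⟩, fun s hs => ?_⟩
  rw [hEN, MonoidHom.mem_ker] at hs
  rw [hs]
  rfl

section Cyclotomic

variable (p : ℕ) [Fact p.Prime]

/-- An automorphism fixing a primitive `p`-th root of unity has trivial mod `p` cyclotomic
character. -/
theorem cycloChar_eq_one_of_apply_eq {ζ : Qbar} (hζ : IsPrimitiveRoot ζ p) (σ : Γℚ)
    (h : σ ζ = ζ) : cycloChar p σ = 1 := by
  haveI : NeZero p := ⟨(Fact.out : p.Prime).ne_zero⟩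
  have hp1 : 1 < p := (Fact.out : p.Prime).one_lt
  haveI : Fact (1 < p) := ⟨hp1⟩
  have key : (1 : ZMod p) = ((modularCyclotomicCharacter Qbar (card_rootsOfUnity_eq_self p)
      (σ : Qbar ≃+* Qbar) : (ZMod p)ˣ) : ZMod p) := by
    apply modularCyclotomicCharacter.unique
    intro t ht
    rw [ZMod.val_one, pow_one]
    have ht' : (t : Qbar) ^ p = 1 := by
      have := (mem_rootsOfUnity p t).1 ht
      rw [← Units.val_pow_eq_pow_val, this, Units.val_one]
    obtain ⟨i, -, hi⟩ := hζ.eq_pow_of_pow_eq_one ht'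
    rw [← hi]
    show σ (ζ ^ i) = ζ ^ i
    rw [map_pow, h]
  apply Units.ext
  exact key.symm

/-- Elements of the inertia group at a valuation subring in which `p` is invertible fix the
`p`-th roots of unity. -/
theorem apply_primitiveRoot_eq_of_sub_mem_nonunits {ζ : Qbar} (hζ : IsPrimitiveRoot ζ p)
    (A : ValuationSubring Qbar) (hpA : ((p : Qbar))⁻¹ ∈ A) (σ : Γℚ)
    (hσ : ∀ x ∈ A, σ x - x ∈ A.nonunits) : σ ζ = ζ := by
  have hp : p.Prime := Fact.out
  have hp1 : 1 < p := hp.one_lt
  have hζp : ζ ^ p = 1 := hζ.pow_eq_one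
  have hζ0 : ζ ≠ 0 := hζ.ne_zero hp.ne_zero
  -- every `p`-th root of unity lies in `A`
  have hmem : ∀ η : Qbar, η ^ p = 1 → η ∈ A := by
    intro η hη
    rcases A.mem_or_inv_mem η with h | h
    · exact h
    · have : η = (η⁻¹) ^ (p - 1) := by
        have hη0 : η ≠ 0 := by
          rintro rfl
          rw [zero_pow hp.ne_zero] at hη
          exact zero_ne_one hη
        have h1 : η ^ (p - 1) * η = 1 := by
          rw [← pow_succ, Nat.sub_add_cancel hp1.le, hη]
        rw [inv_pow]
        exact eq_inv_of_mul_eq_one_right h1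
      rw [this]
      exact pow_mem h _
  have hζA : ζ ∈ A := hmem ζ hζp
  by_contra hne
  -- `σ ζ = ζ ^ i`
  have hσζ : (σ ζ) ^ p = 1 := by rw [← map_pow, hζp, map_one]
  obtain ⟨i, hip, hi⟩ := hζ.eq_pow_of_pow_eq_one hσζ
  have hi0 : i ≠ 0 := by
    rintro rfl
    rw [pow_zero] at hi
    have : σ ζ = σ 1 := by rw [map_one, ← hi]
    exact hζ.ne_one hp1 (σ.injective this)
  have hi1 : i ≠ 1 := by
    rintro rfl
    rw [pow_one] at hi
    exact hne hi.symm
  -- `η = ζ ^ (i - 1)` is a primitive root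
  have hcop : (i - 1).Coprime p := by
    rw [Nat.coprime_comm]
    apply (Nat.Prime.coprime_iff_not_dvd hp).2
    intro hdvd
    have : p ≤ i - 1 := Nat.le_of_dvd (by omega) hdvd
    omega
  have hη : IsPrimitiveRoot (ζ ^ (i - 1)) p := hζ.pow_of_coprime _ hcop
  obtain ⟨n, rfl⟩ : ∃ n, p = n + 1 := ⟨p - 1, by omega⟩
  have hprod := hη.prod_one_sub_pow_eq_order
  -- `1 - η` divides `p` in `A`
  have hfac : ∃ c ∈ A, (1 - ζ ^ (i - 1)) * c = ((n + 1 : ℕ) : Qbar) := by
    have hn : 0 < n := by omega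
    refine ⟨∏ k ∈ Finset.range (n - 1), (1 - (ζ ^ (i - 1)) ^ (k + 1 + 1)), ?_, ?_⟩
    · apply prod_mem
      intro k _
      apply sub_mem (one_mem A)
      apply hmem
      rw [← pow_mul, ← pow_mul,
        show (i - 1) * ((k + 1 + 1) * (n + 1)) = (n + 1) * ((i - 1) * (k + 1 + 1)) by ring,
        pow_mul, hζp, one_pow]
    · have : n = (n - 1) + 1 := by omega
      rw [this, Finset.prod_range_succ'] at hprod
      simp only [zero_add, pow_one] at hprod
      rw [mul_comm]
      rw [hprod]
      push_cast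
      congr 1
      have : ((n - 1 : ℕ) : Qbar) + 1 = n := by
        have := congr_arg (Nat.cast (R := Qbar)) this
        push_cast at this
        exact this.symm
      rw [this]
  obtain ⟨c, hcA, hc⟩ := hfac
  -- so `σ ζ - ζ` is a unit of `A`, contradiction
  have hσ' := hσ ζ hζA
  rw [ValuationSubring.mem_nonunits_iff] at hσ'
  have heq : σ ζ - ζ = -(ζ * (1 - ζ ^ (i - 1))) := by
    rw [← hi]
    have : ζ ^ i = ζ * ζ ^ (i - 1) := by
      rw [← pow_succ']
      congr 1
      omega
    rw [this]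
    ring
  have hinvA : (ζ ^ n) * (c * ((n + 1 : ℕ) : Qbar)⁻¹) ∈ A :=
    mul_mem (pow_mem hζA _) (mul_mem hcA hpA)
  have hone : (σ ζ - ζ) * (-(ζ ^ n * (c * ((n + 1 : ℕ) : Qbar)⁻¹))) = 1 := by
    rw [heq]
    have hp0 : ((n + 1 : ℕ) : Qbar) ≠ 0 := by
      exact_mod_cast (Nat.succ_ne_zero n)
    have h1 : ζ * ζ ^ n = 1 := by rw [← pow_succ']; exact hζp
    calc -(ζ * (1 - ζ ^ (i - 1))) * -(ζ ^ n * (c * ((n + 1 : ℕ) : Qbar)⁻¹))
        = (ζ * ζ ^ n) * (((1 - ζ ^ (i - 1)) * c) * ((n + 1 : ℕ) : Qbar)⁻¹) := by ring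
      _ = 1 := by rw [h1, hc, mul_inv_cancel₀ hp0, mul_one]
  have hv : A.valuation ((σ ζ - ζ) * (-(ζ ^ n * (c * ((n + 1 : ℕ) : Qbar)⁻¹)))) < 1 := by
    rw [map_mul]
    have h2 : A.valuation (-(ζ ^ n * (c * ((n + 1 : ℕ) : Qbar)⁻¹))) ≤ 1 := by
      rw [Valuation.map_neg]
      exact (A.valuation_le_one_iff _).2 hinvA
    calc A.valuation (σ ζ - ζ) * A.valuation (-(ζ ^ n * (c * ((n + 1 : ℕ) : Qbar)⁻¹)))
        ≤ A.valuation (σ ζ - ζ) * 1 := mul_le_mul' le_rfl h2
      _ < 1 := by rw [mul_one]; exact hσ'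
  rw [hone, map_one] at hv
  exact lt_irrefl _ hv

/-- If `p ∈ S`, the mod `p` cyclotomic character is trivial on a level of `levelsS S`. -/
theorem exists_level_le_ker_cycloChar (S : Finset Nat.Primes) (hpS : pPrime p ∈ S) :
    ∃ U ∈ (levelsS S).levels, U ≤ (cycloChar p).ker := by
  have hp : p.Prime := Fact.out
  have : NeZero p := ⟨hp.ne_zero⟩
  obtain ⟨ζ, hζ⟩ : ∃ ζ : Qbar, IsPrimitiveRoot ζ p :=
    HasEnoughRootsOfUnity.exists_primitiveRoot Qbar p
  let F : IntermediateField ℚ Qbar := IntermediateField.adjoin ℚ {ζ}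
  have hint : IsIntegral ℚ ζ := hζ.isIntegral hp.pos |>.tower_top
  have hFfin : FiniteDimensional ℚ F := IntermediateField.adjoin.finiteDimensional hint
  have hFur : F.IsUnramifiedOutside S := by
    refine ⟨hFfin, fun q hq A hA σ hσ => ?_⟩
    rw [mem_fixingSubgroup_adjoin_iff]
    rintro _ rfl
    have hqp : (q : ℕ) ≠ p := by
      rintro h
      apply hq
      have : q = pPrime p := Subtype.ext h
      rw [this]
      exact hpS
    obtain ⟨-, hσ'⟩ := (mem_inertiaSubgroupIn_iff A σ).1 hσ
    -- `p` is invertible in `A`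
    have hpA : ((p : Qbar))⁻¹ ∈ A := by
      have hcop : Nat.Coprime p q := (Nat.coprime_primes hp q.2).2 (Ne.symm hqp)
      have hqA : (q : Qbar) ∈ A.nonunits := hA
      rcases A.mem_or_inv_mem (p : Qbar) with h | h
      · by_contra hinv
        -- then `p` is a nonunit, and so is `1 = a p + b q`
        have hpn : (p : Qbar) ∈ A.nonunits := by
          rw [ValuationSubring.mem_nonunits_iff]
          have hle : A.valuation (p : Qbar) ≤ 1 := (A.valuation_le_one_iff _).2 h
          refine lt_of_le_of_ne hle fun h1 => hinv ?_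
          rw [← A.valuation_le_one_iff, map_inv₀, h1, inv_one]
        have hbez : ((p.gcdA q : ℤ) : Qbar) * (p : Qbar) + ((p.gcdB q : ℤ) : Qbar) * (q : Qbar)
            = 1 := by
          have := Nat.gcd_eq_gcd_ab p q
          rw [hcop.gcd_eq_one] at this
          have h2 := congr_arg (Int.cast (R := Qbar)) this
          push_cast at h2
          rw [h2]
          ring
        have hint : ∀ z : ℤ, (z : Qbar) ∈ A := fun z => intCast_mem A z
        have hv1 : A.valuation (((p.gcdA q : ℤ) : Qbar) * (p : Qbar)) < 1 := by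
          rw [map_mul]
          calc A.valuation ((p.gcdA q : ℤ) : Qbar) * A.valuation (p : Qbar)
              ≤ 1 * A.valuation (p : Qbar) :=
                mul_le_mul' ((A.valuation_le_one_iff _).2 (hint _)) le_rfl
            _ < 1 := by rw [one_mul]; exact (A.mem_nonunits_iff).1 hpn
        have hv2 : A.valuation (((p.gcdB q : ℤ) : Qbar) * (q : Qbar)) < 1 := by
          rw [map_mul]
          calc A.valuation ((p.gcdB q : ℤ) : Qbar) * A.valuation (q : Qbar)
              ≤ 1 * A.valuation (q : Qbar) :=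
                mul_le_mul' ((A.valuation_le_one_iff _).2 (hint _)) le_rfl
            _ < 1 := by rw [one_mul]; exact (A.mem_nonunits_iff).1 hqA
        have := A.valuation.map_add_lt hv1 hv2
        rw [hbez, map_one] at this
        exact lt_irrefl _ this
      · exact h
    exact apply_primitiveRoot_eq_of_sub_mem_nonunits p hζ A hpA σ hσ'
  refine ⟨F.fixingSubgroup, ⟨F, hFur, rfl⟩, fun σ hσ => ?_⟩
  rw [MonoidHom.mem_ker]
  apply cycloChar_eq_one_of_apply_eq p hζ
  exact (mem_fixingSubgroup_adjoin_iff {ζ} σ).1 hσ ζ rfl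

end Cyclotomic

end Fermat.Agent.Lib.CFT.Duality
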