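import Fermat.Agent.Lib.CFT.Profinite.LevelClasses
import Fermat.Agent.Lib.CFT.Profinite.BridgeLocalLevels
import Fermat.Prelude.Def_GroupCohomology_ContinuousUnramified

/-!
P-CFT, layer L4 (duality): localisation data.

A `LocDatum` on a group `G` consists of a level family on `G` (the "global" profinite structure)
together with a finite family of "local" groups `H i`, each with its own level family and a
compatible homomorphism `H i →* G`.  The arithmetic instance `arithDatum S` has
`G = Gal(Qbar/ℚ)` with the levels unramified outside `S`, and the local groups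
`Gal(Qbar_q/ℚ_q)` for `q ∈ S` with all their open subgroups as levels.

For a datum `D` and a representation `M` we define the product of the local cohomology groups
`D.locH M n`, the total localisation map `D.locMapH M n` and its kernel `D.shaLevel M n`.
-/

set_option autoImplicit false

open CategoryTheory

namespace Fermat.Agent.Lib.CFT.Duality

open Fermat.Agent.Lib.CFT.Profinite Fermat.Agent.Lib.CFT.Profinite.LevelFamily

local notation "Γℚ" => (AlgebraicClosure ℚ ≃ₐ[ℚ] AlgebraicClosure ℚ)

/-- A localisation datum: a "global" group with a level family, and finitely many "local" groups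
with level families and compatible homomorphisms to the global group. -/
structure LocDatum (G : Type) [Group G] where
  /-- the level family of the global group -/
  𝒰 : LevelFamily G
  /-- the index set of the local groups (the "places") -/
  ι : Type
  [fintype : Fintype ι]
  /-- the local groups -/
  H : ι → Type
  [group : ∀ i, Group (H i)]
  /-- the level families of the local groups -/
  𝒱 : ∀ i, LevelFamily (H i)
  /-- the localisation homomorphisms -/
  φ : ∀ i, H i →* G
  compat : ∀ i, IsCompatible (𝒱 i) 𝒰 (φ i)

attribute [instance] LocDatum.fintype LocDatum.group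

namespace LocDatum

variable {k : Type} [CommRing k] {G : Type} [Group G] (D : LocDatum G) (M : Rep k G)

/-- The restriction of a representation of the global group to the `i`-th local group. -/
abbrev resRep (i : D.ι) : Rep k (D.H i) := Rep.res (D.φ i) M

/-- The product of the local level cohomology groups `Pⁿ(M) = ∏ᵢ Hⁿ(Hᵢ, M)`. -/
abbrev locH (n : ℕ) : Type := ∀ i, (D.𝒱 i).levelCohomology (D.resRep M i) n

/-- The `i`-th localisation map on level cohomology. -/
noncomputable def locMapHAt (n : ℕ) (i : D.ι) :
    D.𝒰.levelCohomology M n →ₗ[k] (D.𝒱 i).levelCohomology (D.resRep M i) n :=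
  (levelCohomologyMapOfHom (D.φ i) (D.compat i) (𝟙 (D.resRep M i)) n).hom

/-- The total localisation map `Hⁿ(G, M) → Pⁿ(M)`. -/
noncomputable def locMapH (n : ℕ) : D.𝒰.levelCohomology M n →ₗ[k] D.locH M n :=
  LinearMap.pi fun i => D.locMapHAt M n i

@[simp]
theorem locMapH_apply (n : ℕ) (x : D.𝒰.levelCohomology M n) (i : D.ι) :
    D.locMapH M n x i = D.locMapHAt M n i x := rfl

/-- The classes which are locally trivial at all the local groups of the datum. -/
noncomputable def shaLevel (n : ℕ) : Submodule k (D.𝒰.levelCohomology M n) :=
  LinearMap.ker (D.locMapH M n)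

theorem mem_shaLevel_iff (n : ℕ) (x : D.𝒰.levelCohomology M n) :
    x ∈ D.shaLevel M n ↔ ∀ i, D.locMapHAt M n i x = 0 := by
  simp only [shaLevel, LinearMap.mem_ker]
  constructor
  · intro h i
    exact congr_fun h i
  · intro h
    funext i
    exact h i

/-- The restriction of a discrete module to a local group is discrete. -/
theorem isDiscrete_resRep (hM : D.𝒰.IsDiscrete M) (i : D.ι) :
    (D.𝒱 i).IsDiscrete (D.resRep M i) := by
  intro m
  obtain ⟨U, hU, h⟩ := hM m
  obtain ⟨U', hU', hle⟩ := D.compat i U hU
  exact ⟨U', hU', fun s hs => h _ (hle hs)⟩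

end LocDatum

/-! ### The arithmetic datum -/

open ExtCitation

/-- The level family of all open subgroups of the local Galois group at `q`. -/
noncomputable def primeLocalLevels (q : Nat.Primes) : LevelFamily (primeLocalGaloisGroup q) :=
  letI : Fact (q : ℕ).Prime := ⟨q.2⟩
  Bridge.localLevels (q : ℕ)

theorem isCompatible_primeLocalLevels (S : Finset Nat.Primes) (q : Nat.Primes) :
    IsCompatible (primeLocalLevels q) (Bridge.levelsS S) (primeLocalToGlobal q) := by
  have : Fact (q : ℕ).Prime := ⟨q.2⟩
  intro U hU
  obtain ⟨U', hU', hle⟩ :=
    Bridge.isCompatible_galLevels_levelsS S (localGaloisToGlobal (q : ℕ)) U hU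
  obtain ⟨U'', hU'', hle'⟩ := Bridge.isCompatible_localLevels_galLevels (q : ℕ) U' hU'
  exact ⟨U'', hU'', fun x hx => hle (hle' hx)⟩

/-- The arithmetic localisation datum: `Gal(Qbar/ℚ)` with the levels unramified outside `S`, and
the local Galois groups at the primes of `S`. -/
noncomputable def arithDatum (S : Finset Nat.Primes) : LocDatum Γℚ where
  𝒰 := Bridge.levelsS S
  ι := ↥S
  H q := primeLocalGaloisGroup q.1
  𝒱 q := primeLocalLevels q.1
  φ q := primeLocalToGlobal q.1
  compat q := isCompatible_primeLocalLevels S q.1

/-- The Galois module `μ_p` as a representation over `ZMod p`: the one-dimensional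
representation on which `Gal(Qbar/ℚ)` acts through the mod `p` cyclotomic character. -/
noncomputable abbrev muRep (p : ℕ) [Fact p.Prime] : Rep (ZMod p) Γℚ :=
  groupCohomology.ofChar (k := ZMod p) (cycloChar p)

end Fermat.Agent.Lib.CFT.Duality
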