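/-
helper1 (P-CFT, L4 duality layer).  Products of `ℕ`-indexed cochain complexes of modules, with
explicit underlying modules (`∀ i, (K i).X n`), and the fact that homology commutes with such
products, in element form.
-/
import Mathlib
import Fermat.Agent.Lib.CFT.Profinite.ConcreteHomology

set_option autoImplicit false

universe u

open CategoryTheory

namespace Fermat.Agent.Lib.CFT.Duality.PiComplex

open Fermat.Agent.Lib.CFT.ConcreteHomology

variable {k : Type u} [CommRing k] {ι : Type u} (K : ι → CochainComplex (ModuleCat.{u} k) ℕ)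

/-- The componentwise differential. -/
noncomputable def piD (n : ℕ) :
    ModuleCat.of k (∀ i, (K i).X n) ⟶ ModuleCat.of k (∀ i, (K i).X (n + 1)) :=
  ModuleCat.ofHom (LinearMap.pi fun i => ((K i).d n (n + 1)).hom ∘ₗ LinearMap.proj i)

@[simp] lemma piD_apply (n : ℕ) (x : ∀ i, (K i).X n) (i : ι) :
    (piD K n).hom x i = ((K i).d n (n + 1)).hom (x i) := rfl

lemma piD_comp_piD (n : ℕ) : piD K n ≫ piD K (n + 1) = 0 := by
  ext x : 2
  funext i
  exact congr($((K i).d_comp_d n (n + 1) (n + 1 + 1)) (x i))

/-- The product of a family of cochain complexes of modules, with underlying modules the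
products of the underlying modules. -/
noncomputable abbrev piComplex : CochainComplex (ModuleCat.{u} k) ℕ :=
  CochainComplex.of (fun n => ModuleCat.of k (∀ i, (K i).X n)) (piD K) (piD_comp_piD K)

@[simp] lemma piComplex_X (n : ℕ) : (piComplex K).X n = ModuleCat.of k (∀ i, (K i).X n) := rfl

@[simp] lemma piComplex_d (n : ℕ) : (piComplex K).d n (n + 1) = piD K n := by
  simp [piComplex]

lemma piComplex_d_apply (n : ℕ) (x : ∀ i, (K i).X n) (i : ι) :
    ((piComplex K).d n (n + 1)).hom x i = ((K i).d n (n + 1)).hom (x i) := by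
  rw [piComplex_d]
  rfl

/-- The projection to a factor. -/
noncomputable def proj (i : ι) : piComplex K ⟶ K i where
  f n := ModuleCat.ofHom (LinearMap.proj i)
  comm' := by
    rintro n _ rfl
    ext x : 2
    exact (piComplex_d_apply K n x i).symm

@[simp] lemma proj_f_apply (i : ι) (n : ℕ) (x : ∀ i, (K i).X n) :
    ((proj K i).f n).hom x = x i := rfl

variable {K}

/-- The morphism to the product defined by a family of morphisms. -/
noncomputable def lift {L : CochainComplex (ModuleCat.{u} k) ℕ} (f : ∀ i, L ⟶ K i) :
    L ⟶ piComplex K where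
  f n := ModuleCat.ofHom (LinearMap.pi fun i => ((f i).f n).hom)
  comm' := by
    rintro n _ rfl
    ext x : 2
    funext i
    have h := congr($((f i).comm n (n + 1)) x)
    simp only [ModuleCat.hom_comp, LinearMap.coe_comp, Function.comp_apply] at h ⊢
    rw [piComplex_d_apply]
    exact h

@[simp] lemma lift_f_apply {L : CochainComplex (ModuleCat.{u} k) ℕ} (f : ∀ i, L ⟶ K i) (n : ℕ)
    (x : L.X n) (i : ι) :
    ((lift f).f n).hom x i = ((f i).f n).hom x := rfl

@[reassoc (attr := simp)]
lemma lift_proj {L : CochainComplex (ModuleCat.{u} k) ℕ} (f : ∀ i, L ⟶ K i) (i : ι) :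
    lift f ≫ proj K i = f i := by
  ext n x : 3
  rfl

/-- The map between products induced by a family of maps. -/
noncomputable def map {K' : ι → CochainComplex (ModuleCat.{u} k) ℕ} (f : ∀ i, K i ⟶ K' i) :
    piComplex K ⟶ piComplex K' :=
  lift fun i => proj K i ≫ f i

@[simp] lemma map_f_apply {K' : ι → CochainComplex (ModuleCat.{u} k) ℕ} (f : ∀ i, K i ⟶ K' i)
    (n : ℕ) (x : ∀ i, (K i).X n) (i : ι) :
    ((map f).f n).hom x i = ((f i).f n).hom (x i) := rfl

variable (K)

/-- Cocycles of the product are families of cocycles. -/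
lemma mem_Z_iff_forall {n : ℕ} (x : ∀ i, (K i).X n) :
    x ∈ Z (piComplex K) n ↔ ∀ i, x i ∈ Z (K i) n := by
  simp only [mem_Z_iff]
  constructor
  · intro h i
    rw [← piComplex_d_apply, h]
    rfl
  · intro h
    funext i
    rw [piComplex_d_apply, h]
    rfl

/-- The family of cocycles as a cocycle of the product. -/
def zMk {n : ℕ} (z : ∀ i, Z (K i) n) : Z (piComplex K) n :=
  ⟨fun i => (z i).1, (mem_Z_iff_forall K _).mpr fun i => (z i).2⟩

@[simp] lemma mapZ_proj_zMk {n : ℕ} (z : ∀ i, Z (K i) n) (i : ι) :
    mapZ (proj K i) n (zMk K z) = z i := Subtype.ext rfl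

/-- The comparison map from the homology of the product to the product of the homologies. -/
noncomputable def homologyToPi (n : ℕ) :
    (piComplex K).homology n →ₗ[k] ∀ i, (K i).homology n :=
  LinearMap.pi fun i => (HomologicalComplex.homologyMap (proj K i) n).hom

@[simp] lemma homologyToPi_apply (n : ℕ) (x : (piComplex K).homology n) (i : ι) :
    homologyToPi K n x i = (HomologicalComplex.homologyMap (proj K i) n).hom x := rfl

lemma homologyToPi_classOf (n : ℕ) (z : Z (piComplex K) n) (i : ι) :
    homologyToPi K n (classOf (piComplex K) n z) i = classOf (K i) n (mapZ (proj K i) n z) := by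
  rw [homologyToPi_apply, homologyMap_classOf]

lemma homologyToPi_injective (n : ℕ) : Function.Injective (homologyToPi K n) := by
  rw [← LinearMap.ker_eq_bot, LinearMap.ker_eq_bot']
  intro x hx
  obtain ⟨z, rfl⟩ := classOf_surjective (piComplex K) n x
  have h : ∀ i, classOf (K i) n (mapZ (proj K i) n z) = 0 := fun i => by
    rw [← homologyToPi_classOf, hx]
    rfl
  cases n with
  | zero =>
    rw [classOf_eq_zero_iff_zero]
    apply Subtype.ext
    funext i
    have := (classOf_eq_zero_iff_zero (K i) _).mp (h i)
    exact congrArg Subtype.val this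
  | succ m =>
    rw [classOf_eq_zero_iff_succ]
    have h' : ∀ i, ∃ y : (K i).X m, ((K i).d m (m + 1)).hom y = (mapZ (proj K i) (m + 1) z).1 :=
      fun i => (classOf_eq_zero_iff_succ (K i) m _).mp (h i)
    choose y hy using h'
    refine ⟨y, ?_⟩
    funext i
    rw [piComplex_d_apply]
    exact hy i

lemma homologyToPi_surjective (n : ℕ) : Function.Surjective (homologyToPi K n) := by
  intro c
  have h : ∀ i, ∃ z : Z (K i) n, classOf (K i) n z = c i := fun i =>
    classOf_surjective (K i) n (c i)
  choose z hz using h
  refine ⟨classOf (piComplex K) n (zMk K z), ?_⟩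
  funext i
  rw [homologyToPi_classOf, mapZ_proj_zMk, hz]

/-- Homology commutes with products of complexes of modules. -/
noncomputable def homologyPiEquiv (n : ℕ) :
    (piComplex K).homology n ≃ₗ[k] ∀ i, (K i).homology n :=
  LinearEquiv.ofBijective (homologyToPi K n)
    ⟨homologyToPi_injective K n, homologyToPi_surjective K n⟩

@[simp] lemma homologyPiEquiv_apply (n : ℕ) (x : (piComplex K).homology n) (i : ι) :
    homologyPiEquiv K n x i = (HomologicalComplex.homologyMap (proj K i) n).hom x := rfl

lemma homologyPiEquiv_classOf (n : ℕ) (z : Z (piComplex K) n) (i : ι) :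
    homologyPiEquiv K n (classOf (piComplex K) n z) i =
      classOf (K i) n (mapZ (proj K i) n z) :=
  homologyToPi_classOf K n z i

lemma homologyPiEquiv_symm_classOf (n : ℕ) (z : ∀ i, Z (K i) n) :
    (homologyPiEquiv K n).symm (fun i => classOf (K i) n (z i)) =
      classOf (piComplex K) n (zMk K z) := by
  rw [LinearEquiv.symm_apply_eq]
  funext i
  rw [homologyPiEquiv_classOf, mapZ_proj_zMk]

variable {K}

/-- Compatibility of the comparison map with `lift`. -/
lemma homologyPiEquiv_homologyMap_lift {L : CochainComplex (ModuleCat.{u} k) ℕ}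
    (f : ∀ i, L ⟶ K i) (n : ℕ) (x : L.homology n) (i : ι) :
    homologyPiEquiv K n ((HomologicalComplex.homologyMap (lift f) n).hom x) i =
      (HomologicalComplex.homologyMap (f i) n).hom x := by
  rw [homologyPiEquiv_apply, ← LinearMap.comp_apply, ← ModuleCat.hom_comp,
    ← HomologicalComplex.homologyMap_comp, lift_proj]

@[reassoc (attr := simp)]
lemma map_proj {K' : ι → CochainComplex (ModuleCat.{u} k) ℕ} (f : ∀ i, K i ⟶ K' i) (i : ι) :
    map f ≫ proj K' i = proj K i ≫ f i := by
  ext n x : 3
  rfl

/-- Compatibility of the comparison map with `map`. -/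
lemma homologyPiEquiv_homologyMap_map {K' : ι → CochainComplex (ModuleCat.{u} k) ℕ}
    (f : ∀ i, K i ⟶ K' i) (n : ℕ) (x : (piComplex K).homology n) (i : ι) :
    homologyPiEquiv K' n ((HomologicalComplex.homologyMap (map f) n).hom x) i =
      (HomologicalComplex.homologyMap (f i) n).hom (homologyPiEquiv K n x i) := by
  rw [homologyPiEquiv_apply, homologyPiEquiv_apply, ← LinearMap.comp_apply, ← ModuleCat.hom_comp,
    ← HomologicalComplex.homologyMap_comp, map_proj, HomologicalComplex.homologyMap_comp,
    ModuleCat.hom_comp, LinearMap.comp_apply]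

end Fermat.Agent.Lib.CFT.Duality.PiComplex
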