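/-
helper1 (P-CFT, L4 duality layer).  The product of the local level complexes of a localisation
datum, the total localisation map at cochain level, and the identification of its cohomology with
the product of the local cohomology groups.
-/
import Fermat.Agent.Lib.CFT.Duality.LocDatum
import Fermat.Agent.Lib.CFT.Duality.PiComplex

set_option autoImplicit false

open CategoryTheory

namespace Fermat.Agent.Lib.CFT.Duality

open Fermat.Agent.Lib.CFT.Profinite Fermat.Agent.Lib.CFT.Profinite.LevelFamily
open Fermat.Agent.Lib.CFT.ConcreteHomology

namespace LocDatum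

variable {k : Type} [CommRing k] {G : Type} [Group G] (D : LocDatum G) (M : Rep k G)

/-- The product of the level complexes of the local groups. -/
noncomputable abbrev locComplex : CochainComplex (ModuleCat k) ℕ :=
  PiComplex.piComplex fun i => (D.𝒱 i).levelComplex (D.resRep M i)

/-- The localisation map at cochain level, `i`-th component. -/
noncomputable abbrev locMapAt (i : D.ι) :
    D.𝒰.levelComplex M ⟶ (D.𝒱 i).levelComplex (D.resRep M i) :=
  levelCochainsMap (D.φ i) (D.compat i) (𝟙 (D.resRep M i))

/-- The total localisation map at cochain level. -/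
noncomputable def locMap : D.𝒰.levelComplex M ⟶ D.locComplex M :=
  PiComplex.lift fun i => D.locMapAt M i

@[simp] lemma locMap_f_apply (n : ℕ) (x : D.𝒰.levelCochains M n) (i : D.ι) :
    ((D.locMap M).f n).hom x i = ((D.locMapAt M i).f n).hom x := rfl

/-- The cohomology of the product of the local complexes is the product of the local
cohomology groups. -/
noncomputable def locHEquiv (n : ℕ) : (D.locComplex M).homology n ≃ₗ[k] D.locH M n :=
  PiComplex.homologyPiEquiv _ n

theorem locHEquiv_homologyMap_locMap (n : ℕ) (x : D.𝒰.levelCohomology M n) :
    D.locHEquiv M n ((HomologicalComplex.homologyMap (D.locMap M) n).hom x) =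
      D.locMapH M n x := by
  funext i
  exact PiComplex.homologyPiEquiv_homologyMap_lift _ n x i

variable {M} {N : Rep k G}

/-- Functoriality of the local complexes in the coefficient module. -/
noncomputable def locComplexMap (f : M ⟶ N) : D.locComplex M ⟶ D.locComplex N :=
  PiComplex.map fun i => (D.𝒱 i).levelComplexFunctor.map ((Rep.resFunctor (D.φ i)).map f)

theorem locMap_naturality (f : M ⟶ N) :
    D.𝒰.levelComplexFunctor.map f ≫ D.locMap N = D.locMap M ≫ D.locComplexMap f := by
  ext n x : 3
  rfl

theorem locComplexMap_id : D.locComplexMap (𝟙 M) = 𝟙 (D.locComplex M) := by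
  ext n x : 3
  rfl

theorem locComplexMap_comp {P : Rep k G} (f : M ⟶ N) (g : N ⟶ P) :
    D.locComplexMap (f ≫ g) = D.locComplexMap f ≫ D.locComplexMap g := by
  ext n x : 3
  rfl

end LocDatum

end Fermat.Agent.Lib.CFT.Duality
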