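import Fermat.Agent.Lib.CFT.Profinite.ConcreteHomology

/-!
# Mapping cone (shifted by `-1`) for `ℕ`-indexed cochain complexes of modules

For `φ : K ⟶ L` we define `natCone φ` with `X n = K.X n × L.X (n-1)` (and `L.X (-1) = 0`),
`d (a, b) = (d a, φ a - d b)`, the projection `natCone.fst φ : natCone φ ⟶ K`, the inclusions
`natCone.inrL φ n : L.X n → (natCone φ).X (n + 1)` and the long exact sequence in element form.
-/

set_option autoImplicit false

universe u

open CategoryTheory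

namespace Fermat.Agent.Lib.CFT.Duality

open ConcreteHomology

variable {k : Type u} [CommRing k]

namespace NatCone

variable (L : CochainComplex (ModuleCat.{u} k) ℕ)

/-- The objects of the shifted complex `L[-1]`: zero in degree `0`, `L.X n` in degree `n + 1`. -/
def shiftObj : ℕ → ModuleCat.{u} k
  | 0 => ModuleCat.of k PUnit
  | n + 1 => L.X n

/-- The differential of `L[-1]` (with the sign `-1`). -/
def shiftD : ∀ n, shiftObj L n ⟶ shiftObj L (n + 1)
  | 0 => 0
  | n + 1 => -(L.d n (n + 1))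

@[simp]
theorem shiftD_zero : shiftD L 0 = 0 := rfl

theorem shiftD_succ (n : ℕ) : shiftD L (n + 1) = -(L.d n (n + 1)) := rfl

theorem shiftD_comp (n : ℕ) : shiftD L n ≫ shiftD L (n + 1) = 0 := by
  cases n with
  | zero => simp
  | succ m =>
    show (-(L.d m (m + 1))) ≫ (-(L.d (m + 1) (m + 1 + 1))) = 0
    simp

end NatCone

open NatCone

variable {K L : CochainComplex (ModuleCat.{u} k) ℕ} (φ : K ⟶ L)

/-- `φ` in degree `n`, viewed as a map to the shifted complex in degree `n + 1`. -/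
def natConeφ (n : ℕ) : K.X n →ₗ[k] shiftObj L (n + 1) := (φ.f n).hom

/-- The differential of the cone as a linear map. -/
def natConeDLin (n : ℕ) :
    (K.X n × shiftObj L n) →ₗ[k] (K.X (n + 1) × shiftObj L (n + 1)) :=
  LinearMap.prod ((K.d n (n + 1)).hom ∘ₗ LinearMap.fst k _ _)
    (natConeφ φ n ∘ₗ LinearMap.fst k _ _ + (shiftD L n).hom ∘ₗ LinearMap.snd k _ _)

theorem natConeDLin_apply (n : ℕ) (x : K.X n × shiftObj L n) :
    natConeDLin φ n x = ((K.d n (n + 1)).hom x.1,
      natConeφ φ n x.1 + (shiftD L n).hom x.2) := rfl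

theorem natConeDLin_comp_apply (n : ℕ) (x : K.X n × shiftObj L n) :
    natConeDLin φ (n + 1) (natConeDLin φ n x) = 0 := by
  rw [natConeDLin_apply, natConeDLin_apply]
  refine Prod.ext ?_ ?_
  · exact congr($(K.d_comp_d n (n + 1) (n + 1 + 1)) x.1)
  · show natConeφ φ (n + 1) ((K.d n (n + 1)).hom x.1) +
      (shiftD L (n + 1)).hom (natConeφ φ n x.1 + (shiftD L n).hom x.2) = 0
    rw [map_add]
    have h1 : (shiftD L (n + 1)).hom ((shiftD L n).hom x.2) = 0 :=
      congr($(shiftD_comp L n) x.2)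
    rw [h1, add_zero]
    have h := congr($(φ.comm n (n + 1)) x.1)
    simp only [ModuleCat.hom_comp, LinearMap.coe_comp, Function.comp_apply] at h
    show (φ.f (n + 1)).hom ((K.d n (n + 1)).hom x.1) +
      (-(L.d n (n + 1))).hom ((φ.f n).hom x.1) = 0
    rw [← h]
    simp

/-- The cone (shifted by `-1`) of a morphism of `ℕ`-indexed cochain complexes of modules:
`X n = K.X n × L.X (n - 1)` (with `L.X (-1) = 0`), `d (a, b) = (d a, φ a - d b)`. -/
noncomputable def natCone : CochainComplex (ModuleCat.{u} k) ℕ :=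
  CochainComplex.of (fun n => ModuleCat.of k (K.X n × shiftObj L n))
    (fun n => ModuleCat.ofHom (natConeDLin φ n)) (fun n => by
      refine ModuleCat.hom_ext (LinearMap.ext fun x => ?_)
      exact natConeDLin_comp_apply φ n x)

namespace natCone

theorem d_eq (n : ℕ) : (natCone φ).d n (n + 1) = ModuleCat.ofHom (natConeDLin φ n) :=
  CochainComplex.of_d (fun n => ModuleCat.of k (K.X n × shiftObj L n))
    (fun n => ModuleCat.ofHom (natConeDLin φ n)) n

/-- The first projection `(natCone φ).X n → K.X n`. -/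
def fstL (n : ℕ) : (natCone φ).X n →ₗ[k] K.X n := LinearMap.fst k (K.X n) (shiftObj L n)

/-- The second projection `(natCone φ).X (n + 1) → L.X n`. -/
def sndL (n : ℕ) : (natCone φ).X (n + 1) →ₗ[k] L.X n :=
  LinearMap.snd k (K.X (n + 1)) (L.X n)

/-- The inclusion `K.X n → (natCone φ).X n`, `a ↦ (a, 0)` (not a chain map). -/
def inlL (n : ℕ) : K.X n →ₗ[k] (natCone φ).X n := LinearMap.inl k (K.X n) (shiftObj L n)

/-- The inclusion `L.X n → (natCone φ).X (n + 1)`, `b ↦ (0, b)`. -/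
def inrL (n : ℕ) : L.X n →ₗ[k] (natCone φ).X (n + 1) :=
  LinearMap.inr k (K.X (n + 1)) (L.X n)

/-- The element `(a, b)` of `(natCone φ).X (n + 1)`. -/
def mk {n : ℕ} (a : K.X (n + 1)) (b : L.X n) : (natCone φ).X (n + 1) :=
  show K.X (n + 1) × L.X n from (a, b)

@[simp] theorem fstL_mk {n : ℕ} (a : K.X (n + 1)) (b : L.X n) :
    fstL φ (n + 1) (mk φ a b) = a := rfl

@[simp] theorem sndL_mk {n : ℕ} (a : K.X (n + 1)) (b : L.X n) :
    sndL φ n (mk φ a b) = b := rfl

theorem mk_eq {n : ℕ} (a : K.X (n + 1)) (b : L.X n) :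
    mk φ a b = inlL φ (n + 1) a + inrL φ n b := by
  refine Prod.ext (α := K.X (n + 1)) (β := L.X n) ?_ ?_
  · exact (add_zero a).symm
  · exact (zero_add b).symm

@[simp] theorem fstL_inlL (n : ℕ) (a : K.X n) : fstL φ n (inlL φ n a) = a := rfl
@[simp] theorem fstL_inrL (n : ℕ) (b : L.X n) : fstL φ (n + 1) (inrL φ n b) = 0 := rfl
@[simp] theorem sndL_inlL (n : ℕ) (a : K.X (n + 1)) : sndL φ n (inlL φ (n + 1) a) = 0 := rfl
@[simp] theorem sndL_inrL (n : ℕ) (b : L.X n) : sndL φ n (inrL φ n b) = b := rfl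

theorem ext_succ {n : ℕ} {x y : (natCone φ).X (n + 1)} (h1 : fstL φ (n + 1) x = fstL φ (n + 1) y)
    (h2 : sndL φ n x = sndL φ n y) : x = y :=
  Prod.ext (α := K.X (n + 1)) (β := L.X n) h1 h2

theorem ext_zero {x y : (natCone φ).X 0} (h1 : fstL φ 0 x = fstL φ 0 y) : x = y :=
  Prod.ext (α := K.X 0) (β := PUnit) h1 rfl

theorem ext_succ_iff {n : ℕ} {x y : (natCone φ).X (n + 1)} :
    x = y ↔ fstL φ (n + 1) x = fstL φ (n + 1) y ∧ sndL φ n x = sndL φ n y :=
  ⟨fun h => by rw [h]; exact ⟨rfl, rfl⟩, fun h => ext_succ φ h.1 h.2⟩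

theorem ext_zero_iff {x y : (natCone φ).X 0} : x = y ↔ fstL φ 0 x = fstL φ 0 y :=
  ⟨fun h => by rw [h], fun h => ext_zero φ h⟩

theorem mk_fstL_sndL {n : ℕ} (x : (natCone φ).X (n + 1)) :
    mk φ (fstL φ (n + 1) x) (sndL φ n x) = x := rfl

theorem inlL_fstL_zero (x : (natCone φ).X 0) : inlL φ 0 (fstL φ 0 x) = x :=
  ext_zero φ rfl

/-- The first component of the differential. -/
@[simp] theorem fstL_d (n : ℕ) (x : (natCone φ).X n) :
    fstL φ (n + 1) (((natCone φ).d n (n + 1)).hom x) = (K.d n (n + 1)).hom (fstL φ n x) := by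
  rw [d_eq]
  rfl

/-- The second component of the differential in degree `0`. -/
@[simp] theorem sndL_d_zero (x : (natCone φ).X 0) :
    sndL φ 0 (((natCone φ).d 0 1).hom x) = (φ.f 0).hom (fstL φ 0 x) := by
  rw [d_eq]
  show (φ.f 0).hom (fstL φ 0 x) + 0 = _
  rw [add_zero]

/-- The second component of the differential in positive degree. -/
@[simp] theorem sndL_d_succ (n : ℕ) (x : (natCone φ).X (n + 1)) :
    sndL φ (n + 1) (((natCone φ).d (n + 1) (n + 1 + 1)).hom x) =
      (φ.f (n + 1)).hom (fstL φ (n + 1) x) - (L.d n (n + 1)).hom (sndL φ n x) := by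
  rw [d_eq]
  show (φ.f (n + 1)).hom (fstL φ (n + 1) x) + (-(L.d n (n + 1))).hom (sndL φ n x) = _
  rw [sub_eq_add_neg]
  rfl

theorem d_mk (n : ℕ) (a : K.X (n + 1)) (b : L.X n) :
    ((natCone φ).d (n + 1) (n + 1 + 1)).hom (mk φ a b) =
      mk φ ((K.d (n + 1) (n + 1 + 1)).hom a) ((φ.f (n + 1)).hom a - (L.d n (n + 1)).hom b) :=
  ext_succ φ (by simp) (by simp)

theorem d_inlL (n : ℕ) (a : K.X n) :
    ((natCone φ).d n (n + 1)).hom (inlL φ n a) = mk φ ((K.d n (n + 1)).hom a) ((φ.f n).hom a) := by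
  refine ext_succ φ (by simp) ?_
  cases n with
  | zero => simp
  | succ m => simp

theorem d_inrL (n : ℕ) (b : L.X n) :
    ((natCone φ).d (n + 1) (n + 1 + 1)).hom (inrL φ n b) = -inrL φ (n + 1) ((L.d n (n + 1)).hom b) :=
  ext_succ φ (by simp) (by simp)

/-- The projection `natCone φ ⟶ K`. -/
noncomputable def fst : natCone φ ⟶ K where
  f n := ModuleCat.ofHom (fstL φ n)
  comm' i j hij := by
    obtain rfl : i + 1 = j := hij
    refine ModuleCat.hom_ext (LinearMap.ext fun x => ?_)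
    exact (fstL_d φ i x).symm

@[simp] theorem fst_f_apply (n : ℕ) (x : (natCone φ).X n) : ((fst φ).f n).hom x = fstL φ n x := rfl

end natCone

section aux

variable (K)

/-- Two cocycles of positive degree have the same class iff they differ by a coboundary. -/
theorem classOf_eq_classOf_iff_succ (n : ℕ) (x y : Z K (n + 1)) :
    classOf K (n + 1) x = classOf K (n + 1) y ↔
      ∃ w : K.X n, (K.d n (n + 1)).hom w = x.1 - y.1 := by
  rw [← sub_eq_zero, ← map_sub, classOf_eq_zero_iff_succ]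
  rfl

/-- Two cocycles of degree zero have the same class iff they are equal. -/
theorem classOf_eq_classOf_iff_zero (x y : Z K 0) :
    classOf K 0 x = classOf K 0 y ↔ x = y := by
  rw [← sub_eq_zero, ← map_sub, classOf_eq_zero_iff_zero, sub_eq_zero]

theorem classOf_injective_zero : Function.Injective (classOf K 0) :=
  fun x y h => (classOf_eq_classOf_iff_zero K x y).1 h

variable {K}

theorem comm_apply (n : ℕ) (a : K.X n) :
    (φ.f (n + 1)).hom ((K.d n (n + 1)).hom a) = (L.d n (n + 1)).hom ((φ.f n).hom a) := by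
  have h := congr($(φ.comm n (n + 1)) a)
  simp only [ModuleCat.hom_comp, LinearMap.coe_comp, Function.comp_apply] at h
  exact h.symm

theorem d_d_apply (n : ℕ) (a : K.X n) :
    (K.d (n + 1) (n + 1 + 1)).hom ((K.d n (n + 1)).hom a) = 0 :=
  congr($(K.d_comp_d n (n + 1) (n + 1 + 1)) a)

end aux

namespace natCone

theorem mk_zero_left {n : ℕ} (b : L.X n) : mk φ 0 b = inrL φ n b := rfl

theorem mk_zero_right {n : ℕ} (a : K.X (n + 1)) : mk φ a 0 = inlL φ (n + 1) a := rfl

theorem mem_Z_succ_iff {n : ℕ} (x : (natCone φ).X (n + 1)) :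
    x ∈ Z (natCone φ) (n + 1) ↔ fstL φ (n + 1) x ∈ Z K (n + 1) ∧
      (φ.f (n + 1)).hom (fstL φ (n + 1) x) = (L.d n (n + 1)).hom (sndL φ n x) := by
  rw [mem_Z_iff, mem_Z_iff, ← sub_eq_zero (a := (φ.f (n + 1)).hom (fstL φ (n + 1) x)),
    ← sndL_d_succ, ← fstL_d]
  constructor
  · intro h
    rw [h]
    exact ⟨map_zero _, map_zero _⟩
  · intro h
    exact ext_succ φ (by rw [h.1, map_zero]) (by rw [h.2, map_zero])

theorem mem_Z_zero_iff (x : (natCone φ).X 0) :
    x ∈ Z (natCone φ) 0 ↔ fstL φ 0 x ∈ Z K 0 ∧ (φ.f 0).hom (fstL φ 0 x) = 0 := by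
  rw [mem_Z_iff, mem_Z_iff, ← sndL_d_zero, ← fstL_d]
  constructor
  · intro h
    rw [h]
    exact ⟨map_zero _, map_zero _⟩
  · intro h
    exact ext_succ φ (by rw [h.1, map_zero]) (by rw [h.2, map_zero])

theorem mk_mem_Z {n : ℕ} (a : K.X (n + 1)) (b : L.X n) (ha : a ∈ Z K (n + 1))
    (hab : (φ.f (n + 1)).hom a = (L.d n (n + 1)).hom b) : mk φ a b ∈ Z (natCone φ) (n + 1) :=
  (mem_Z_succ_iff φ _).2 ⟨ha, hab⟩

theorem inlL_zero_mem_Z (a : K.X 0) (ha : a ∈ Z K 0) (h : (φ.f 0).hom a = 0) :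
    inlL φ 0 a ∈ Z (natCone φ) 0 :=
  (mem_Z_zero_iff φ _).2 ⟨ha, h⟩

theorem inrL_mem_Z {n : ℕ} (b : L.X n) (hb : b ∈ Z L n) : inrL φ n b ∈ Z (natCone φ) (n + 1) := by
  refine (mem_Z_succ_iff φ _).2 ⟨?_, ?_⟩
  · rw [fstL_inrL]
    exact Submodule.zero_mem _
  · rw [fstL_inrL, sndL_inrL, map_zero]
    exact ((mem_Z_iff L b).1 hb).symm

/-- The inclusion `b ↦ (0, b)` on cocycles. -/
noncomputable def inrZ (n : ℕ) : Z L n →ₗ[k] Z (natCone φ) (n + 1) :=
  ((inrL φ n).comp (Z L n).subtype).codRestrict _ (fun b => inrL_mem_Z φ b.1 b.2)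

@[simp] theorem inrZ_coe (n : ℕ) (b : Z L n) : (inrZ φ n b).1 = inrL φ n b.1 := rfl

/-- The boundary map `∂ : Hⁿ(L) → Hⁿ⁺¹(natCone φ)`, `[b] ↦ [(0, b)]`. -/
noncomputable def bdry (n : ℕ) : L.homology n →ₗ[k] (natCone φ).homology (n + 1) :=
  descH ((classOf (natCone φ) (n + 1)).comp (inrZ φ n)) (fun b hb => by
    rw [LinearMap.comp_apply]
    cases n with
    | zero =>
      rw [(classOf_eq_zero_iff_zero L b).1 hb, map_zero, map_zero]
    | succ m =>
      obtain ⟨y, hy⟩ := (classOf_eq_zero_iff_succ L m b).1 hb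
      rw [classOf_eq_zero_iff_succ]
      refine ⟨-inrL φ m y, ?_⟩
      rw [map_neg, d_inrL, neg_neg, hy]
      rfl)

@[simp] theorem bdry_classOf (n : ℕ) (b : Z L n) :
    bdry φ n (classOf L n b) = classOf (natCone φ) (n + 1) (inrZ φ n b) := by
  unfold bdry
  rw [descH_classOf]
  rfl

/-! ### Exactness of the long exact sequence (element form) -/

section exactness

open HomologicalComplex

/-- (E1) Exactness at `Hⁿ(L)`: `Hⁿ(K) → Hⁿ(L) → Hⁿ⁺¹(natCone φ)`. -/
theorem exact_homologyMap_bdry (n : ℕ) :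
    Function.Exact (homologyMap φ n).hom (bdry φ n) := by
  intro x
  obtain ⟨b, rfl⟩ := classOf_surjective L n x
  rw [bdry_classOf, classOf_eq_zero_iff_succ, Set.mem_range]
  constructor
  · rintro ⟨y, hy⟩
    have hy1 := congr_arg (fstL φ (n + 1)) hy
    have hy2 := congr_arg (sndL φ n) hy
    rw [fstL_d, inrZ_coe, fstL_inrL] at hy1
    rw [inrZ_coe, sndL_inrL] at hy2
    refine ⟨classOf K n ⟨fstL φ n y, hy1⟩, ?_⟩
    rw [homologyMap_classOf]
    cases n with
    | zero =>
      rw [sndL_d_zero] at hy2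
      congr 1
      exact Subtype.ext hy2
    | succ m =>
      rw [sndL_d_succ] at hy2
      rw [classOf_eq_classOf_iff_succ]
      refine ⟨sndL φ m y, ?_⟩
      rw [mapZ_coe, ← hy2]
      exact (sub_sub_cancel _ _).symm
  · rintro ⟨y, hy⟩
    obtain ⟨a, rfl⟩ := classOf_surjective K n y
    rw [homologyMap_classOf] at hy
    have ha : (K.d n (n + 1)).hom a.1 = 0 := a.2
    cases n with
    | zero =>
      have h := (classOf_eq_classOf_iff_zero L _ _).1 hy
      refine ⟨inlL φ 0 a.1, ?_⟩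
      rw [d_inlL, ha, mk_zero_left, inrZ_coe, ← h]
      rfl
    | succ m =>
      obtain ⟨w, hw⟩ := (classOf_eq_classOf_iff_succ L m _ _).1 hy
      rw [mapZ_coe] at hw
      refine ⟨inlL φ (m + 1) a.1 + inrL φ m w, ?_⟩
      rw [map_add, d_inlL, d_inrL, ha, mk_zero_left, inrZ_coe, ← sub_eq_add_neg, ← map_sub, hw,
        sub_sub_cancel]

/-- (E2) Exactness at `Hⁿ⁺¹(natCone φ)`: `Hⁿ(L) → Hⁿ⁺¹(natCone φ) → Hⁿ⁺¹(K)`. -/
theorem exact_bdry_homologyMap_fst (n : ℕ) :
    Function.Exact (bdry φ n) (homologyMap (fst φ) (n + 1)).hom := by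
  intro x
  obtain ⟨z, rfl⟩ := classOf_surjective (natCone φ) (n + 1) x
  rw [homologyMap_classOf, classOf_eq_zero_iff_succ, Set.mem_range]
  have hz := (mem_Z_succ_iff φ z.1).1 z.2
  constructor
  · rintro ⟨a', ha'⟩
    rw [mapZ_coe, fst_f_apply] at ha'
    have hb : sndL φ n z.1 - (φ.f n).hom a' ∈ Z L n := by
      rw [mem_Z_iff, map_sub, ← comm_apply, ha', hz.2, sub_self]
    refine ⟨classOf L n ⟨_, hb⟩, ?_⟩
    rw [bdry_classOf, classOf_eq_classOf_iff_succ]
    refine ⟨-inlL φ n a', ?_⟩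
    rw [map_neg, d_inlL, ha', inrZ_coe]
    refine ext_succ φ ?_ ?_
    · rw [map_neg, fstL_mk, map_sub, fstL_inrL, zero_sub]
    · rw [map_neg, sndL_mk, map_sub, sndL_inrL]
      simp only
      abel
  · rintro ⟨y, hy⟩
    obtain ⟨b, rfl⟩ := classOf_surjective L n y
    rw [bdry_classOf, classOf_eq_classOf_iff_succ] at hy
    obtain ⟨w, hw⟩ := hy
    refine ⟨-fstL φ n w, ?_⟩
    have h1 := congr_arg (fstL φ (n + 1)) hw
    rw [fstL_d, map_sub, inrZ_coe, fstL_inrL, zero_sub] at h1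
    rw [map_neg, h1, neg_neg]
    rfl

/-- (E3) Exactness at `Hⁿ⁺¹(K)`: `Hⁿ⁺¹(natCone φ) → Hⁿ⁺¹(K) → Hⁿ⁺¹(L)`. -/
theorem exact_homologyMap_fst_homologyMap_succ (n : ℕ) :
    Function.Exact (homologyMap (fst φ) (n + 1)).hom (homologyMap φ (n + 1)).hom := by
  intro x
  obtain ⟨a, rfl⟩ := classOf_surjective K (n + 1) x
  rw [homologyMap_classOf, classOf_eq_zero_iff_succ, Set.mem_range]
  constructor
  · rintro ⟨b, hb⟩
    rw [mapZ_coe] at hb
    refine ⟨classOf _ _ ⟨mk φ a.1 b, mk_mem_Z φ a.1 b a.2 hb.symm⟩, ?_⟩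
    rw [homologyMap_classOf]
    rfl
  · rintro ⟨y, hy⟩
    obtain ⟨z, rfl⟩ := classOf_surjective (natCone φ) (n + 1) y
    rw [homologyMap_classOf, classOf_eq_classOf_iff_succ] at hy
    obtain ⟨w, hw⟩ := hy
    have hz := (mem_Z_succ_iff φ z.1).1 z.2
    rw [mapZ_coe, fst_f_apply] at hw
    refine ⟨sndL φ n z.1 - (φ.f n).hom w, ?_⟩
    rw [map_sub, ← comm_apply, hw, map_sub, hz.2, mapZ_coe, sub_sub_cancel]

/-- (E0) Exactness at `H⁰(K)`: `H⁰(natCone φ) → H⁰(K) → H⁰(L)`. -/
theorem exact_homologyMap_fst_homologyMap_zero :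
    Function.Exact (homologyMap (fst φ) 0).hom (homologyMap φ 0).hom := by
  intro x
  obtain ⟨a, rfl⟩ := classOf_surjective K 0 x
  rw [homologyMap_classOf, classOf_eq_zero_iff_zero, Set.mem_range]
  constructor
  · intro h
    have h' : (φ.f 0).hom a.1 = 0 := congr_arg Subtype.val h
    refine ⟨classOf _ _ ⟨inlL φ 0 a.1, inlL_zero_mem_Z φ a.1 a.2 h'⟩, ?_⟩
    rw [homologyMap_classOf]
    rfl
  · rintro ⟨y, hy⟩
    obtain ⟨z, rfl⟩ := classOf_surjective (natCone φ) 0 y
    rw [homologyMap_classOf, classOf_eq_classOf_iff_zero] at hy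
    have hz := (mem_Z_zero_iff φ z.1).1 z.2
    apply Subtype.ext
    rw [mapZ_coe, ← hy, mapZ_coe, fst_f_apply]
    exact hz.2

/-- `H⁰(natCone φ) → H⁰(K)` is injective. -/
theorem homologyMap_fst_zero_injective :
    Function.Injective (homologyMap (fst φ) 0).hom := by
  rw [injective_iff_map_eq_zero]
  intro y hy
  obtain ⟨z, rfl⟩ := classOf_surjective (natCone φ) 0 y
  rw [homologyMap_classOf, classOf_eq_zero_iff_zero] at hy
  have h1 : fstL φ 0 z.1 = 0 := congr_arg Subtype.val hy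
  have : z = 0 := Subtype.ext (ext_zero φ (by rw [h1]; rfl))
  rw [this, map_zero]

/-- Exactness at `Hⁿ(K)` for every `n`. -/
theorem exact_homologyMap_fst_homologyMap (n : ℕ) :
    Function.Exact (homologyMap (fst φ) n).hom (homologyMap φ n).hom := by
  cases n with
  | zero => exact exact_homologyMap_fst_homologyMap_zero φ
  | succ m => exact exact_homologyMap_fst_homologyMap_succ φ m

theorem bdry_eq_zero_iff (n : ℕ) (x : L.homology n) :
    bdry φ n x = 0 ↔ ∃ y : K.homology n, (homologyMap φ n).hom y = x :=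
  exact_homologyMap_bdry φ n x

theorem homologyMap_fst_eq_zero_iff (n : ℕ) (x : (natCone φ).homology (n + 1)) :
    (homologyMap (fst φ) (n + 1)).hom x = 0 ↔ ∃ y : L.homology n, bdry φ n y = x :=
  exact_bdry_homologyMap_fst φ n x

theorem homologyMap_eq_zero_iff (n : ℕ) (x : K.homology n) :
    (homologyMap φ n).hom x = 0 ↔
      ∃ y : (natCone φ).homology n, (homologyMap (fst φ) n).hom y = x :=
  exact_homologyMap_fst_homologyMap φ n x

@[simp] theorem bdry_homologyMap (n : ℕ) (y : K.homology n) :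
    bdry φ n ((homologyMap φ n).hom y) = 0 :=
  (bdry_eq_zero_iff φ n _).2 ⟨y, rfl⟩

@[simp] theorem homologyMap_fst_bdry (n : ℕ) (y : L.homology n) :
    (homologyMap (fst φ) (n + 1)).hom (bdry φ n y) = 0 :=
  (homologyMap_fst_eq_zero_iff φ n _).2 ⟨y, rfl⟩

@[simp] theorem homologyMap_homologyMap_fst (n : ℕ) (y : (natCone φ).homology n) :
    (homologyMap φ n).hom ((homologyMap (fst φ) n).hom y) = 0 :=
  (homologyMap_eq_zero_iff φ n _).2 ⟨y, rfl⟩

end exactness

end natCone

/-! ### Functoriality in commutative squares -/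

namespace NatCone

/-- The map induced on the shifted objects by a chain map. -/
def shiftMap {L L' : CochainComplex (ModuleCat.{u} k) ℕ} (β : L ⟶ L') :
    ∀ n, shiftObj L n →ₗ[k] shiftObj L' n
  | 0 => LinearMap.id
  | n + 1 => (β.f n).hom

end NatCone

variable {K L K' L' K'' L'' : CochainComplex (ModuleCat.{u} k) ℕ}
  (φ : K ⟶ L) (φ' : K' ⟶ L') (φ'' : K'' ⟶ L'')

namespace natCone

section map

variable (α : K ⟶ K') (β : L ⟶ L')

/-- The degreewise map `(a, b) ↦ (α a, β b)` between cones. -/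
noncomputable def mapL (n : ℕ) : (natCone φ).X n →ₗ[k] (natCone φ').X n :=
  LinearMap.prodMap (α.f n).hom (shiftMap β n)

@[simp] theorem fstL_mapL (n : ℕ) (x : (natCone φ).X n) :
    fstL φ' n (mapL φ φ' α β n x) = (α.f n).hom (fstL φ n x) := rfl

@[simp] theorem sndL_mapL (n : ℕ) (x : (natCone φ).X (n + 1)) :
    sndL φ' n (mapL φ φ' α β (n + 1) x) = (β.f n).hom (sndL φ n x) := rfl

variable (comm : φ ≫ β = α ≫ φ')

include comm in
theorem comm_f_apply (n : ℕ) (a : K.X n) :
    (β.f n).hom ((φ.f n).hom a) = (φ'.f n).hom ((α.f n).hom a) :=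
  congr($(comm).f n a)

include comm in
theorem mapL_d (n : ℕ) (x : (natCone φ).X n) :
    mapL φ φ' α β (n + 1) (((natCone φ).d n (n + 1)).hom x) =
      ((natCone φ').d n (n + 1)).hom (mapL φ φ' α β n x) := by
  refine ext_succ φ' ?_ ?_
  · rw [fstL_mapL, fstL_d, fstL_d, fstL_mapL, comm_apply]
  · cases n with
    | zero =>
      rw [sndL_mapL, sndL_d_zero, sndL_d_zero, fstL_mapL, comm_f_apply φ φ' α β comm]
    | succ m =>
      rw [sndL_mapL, sndL_d_succ, sndL_d_succ, fstL_mapL, sndL_mapL, map_sub,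
        comm_f_apply φ φ' α β comm, comm_apply]

/-- Functoriality of the cone in commutative squares. -/
noncomputable def map : natCone φ ⟶ natCone φ' where
  f n := ModuleCat.ofHom (mapL φ φ' α β n)
  comm' i j hij := by
    obtain rfl : i + 1 = j := hij
    refine ModuleCat.hom_ext (LinearMap.ext fun x => ?_)
    exact (mapL_d φ φ' α β comm i x).symm

@[simp] theorem map_f_apply (n : ℕ) (x : (natCone φ).X n) :
    ((map φ φ' α β comm).f n).hom x = mapL φ φ' α β n x := rfl

theorem fstL_map (n : ℕ) (x : (natCone φ).X n) :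
    fstL φ' n (((map φ φ' α β comm).f n).hom x) = (α.f n).hom (fstL φ n x) := rfl

theorem sndL_map (n : ℕ) (x : (natCone φ).X (n + 1)) :
    sndL φ' n (((map φ φ' α β comm).f (n + 1)).hom x) = (β.f n).hom (sndL φ n x) := rfl

theorem map_mk (n : ℕ) (a : K.X (n + 1)) (b : L.X n) :
    ((map φ φ' α β comm).f (n + 1)).hom (mk φ a b) =
      mk φ' ((α.f (n + 1)).hom a) ((β.f n).hom b) := rfl

theorem map_inrL (n : ℕ) (b : L.X n) :
    ((map φ φ' α β comm).f (n + 1)).hom (inrL φ n b) = inrL φ' n ((β.f n).hom b) :=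
  ext_succ φ' (by rw [fstL_map, fstL_inrL, fstL_inrL, map_zero])
    (by rw [sndL_map, sndL_inrL, sndL_inrL])

theorem map_inlL (n : ℕ) (a : K.X n) :
    ((map φ φ' α β comm).f n).hom (inlL φ n a) = inlL φ' n ((α.f n).hom a) := by
  cases n with
  | zero => exact ext_zero φ' rfl
  | succ m =>
    exact ext_succ φ' rfl (by rw [sndL_map, sndL_inlL, sndL_inlL, map_zero])

/-- Two chain maps into a cone agree if their components agree. -/
theorem hom_ext {M : CochainComplex (ModuleCat.{u} k) ℕ} {f g : M ⟶ natCone φ}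
    (h1 : ∀ n (x : M.X n), fstL φ n ((f.f n).hom x) = fstL φ n ((g.f n).hom x))
    (h2 : ∀ n (x : M.X (n + 1)), sndL φ n ((f.f (n + 1)).hom x) = sndL φ n ((g.f (n + 1)).hom x)) :
    f = g := by
  refine HomologicalComplex.hom_ext _ _ fun n => ?_
  refine ModuleCat.hom_ext (LinearMap.ext fun x => ?_)
  cases n with
  | zero => exact ext_zero φ (h1 0 x)
  | succ m => exact ext_succ φ (h1 _ x) (h2 m x)

@[reassoc]
theorem map_fst : map φ φ' α β comm ≫ fst φ' = fst φ ≫ α := by
  refine HomologicalComplex.hom_ext _ _ fun n => ?_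
  refine ModuleCat.hom_ext (LinearMap.ext fun x => ?_)
  rfl

end map

@[simp] theorem map_id : map φ φ (𝟙 K) (𝟙 L) (by simp) = 𝟙 (natCone φ) :=
  hom_ext φ (fun _ _ => rfl) (fun _ _ => rfl)

theorem map_comp (α : K ⟶ K') (β : L ⟶ L') (comm : φ ≫ β = α ≫ φ')
    (α' : K' ⟶ K'') (β' : L' ⟶ L'') (comm' : φ' ≫ β' = α' ≫ φ'') :
    map φ φ' α β comm ≫ map φ' φ'' α' β' comm' =
      map φ φ'' (α ≫ α') (β ≫ β') (by rw [← Category.assoc, comm, Category.assoc, comm',
        Category.assoc]) :=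
  hom_ext φ'' (fun _ _ => rfl) (fun _ _ => rfl)

theorem map_zero_zero (comm : φ ≫ (0 : L ⟶ L') = (0 : K ⟶ K') ≫ φ') :
    map φ φ' 0 0 comm = 0 :=
  hom_ext φ' (fun _ _ => rfl) (fun _ _ => rfl)

/-- Naturality of the boundary map. -/
theorem homologyMap_map_bdry (α : K ⟶ K') (β : L ⟶ L') (comm : φ ≫ β = α ≫ φ') (n : ℕ)
    (x : L.homology n) :
    (HomologicalComplex.homologyMap (map φ φ' α β comm) (n + 1)).hom (bdry φ n x) =
      bdry φ' n ((HomologicalComplex.homologyMap β n).hom x) := by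
  obtain ⟨b, rfl⟩ := classOf_surjective L n x
  rw [bdry_classOf, homologyMap_classOf, homologyMap_classOf, bdry_classOf]
  congr 1
  apply Subtype.ext
  rw [mapZ_coe, inrZ_coe, inrZ_coe, mapZ_coe, map_inrL]

/-- Naturality of the projection in homology. -/
theorem homologyMap_map_fst (α : K ⟶ K') (β : L ⟶ L') (comm : φ ≫ β = α ≫ φ') (n : ℕ)
    (x : (natCone φ).homology n) :
    (HomologicalComplex.homologyMap (fst φ') n).hom
      ((HomologicalComplex.homologyMap (map φ φ' α β comm) n).hom x) =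
    (HomologicalComplex.homologyMap α n).hom ((HomologicalComplex.homologyMap (fst φ) n).hom x) := by
  have h := congr_arg (fun f => HomologicalComplex.homologyMap f n) (map_fst φ φ' α β comm)
  simp only [HomologicalComplex.homologyMap_comp] at h
  exact congr($(h) x)

end natCone


section degreewise

variable {S : ShortComplex (CochainComplex (ModuleCat.{u} k) ℕ)} (hS : S.ShortExact)

include hS

theorem shortExact_f_injective (n : ℕ) : Function.Injective (S.f.f n).hom := by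
  have h := hS.map_of_exact (HomologicalComplex.eval _ _ n)
  exact (ModuleCat.mono_iff_injective _).1 h.mono_f

theorem shortExact_g_surjective (n : ℕ) : Function.Surjective (S.g.f n).hom := by
  have h := hS.map_of_exact (HomologicalComplex.eval _ _ n)
  exact (ModuleCat.epi_iff_surjective _).1 h.epi_g

theorem shortExact_exact_apply (n : ℕ) (y : S.X₂.X n) (hy : (S.g.f n).hom y = 0) :
    ∃ x : S.X₁.X n, (S.f.f n).hom x = y := by
  have h := hS.map_of_exact (HomologicalComplex.eval _ _ n)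
  exact (ShortComplex.moduleCat_exact_iff _).1 h.exact y hy

omit hS in
theorem shortComplex_zero_apply (n : ℕ) (x : S.X₁.X n) : (S.g.f n).hom ((S.f.f n).hom x) = 0 :=
  congr($(S.zero).f n x)

end degreewise


section shortExact

variable {S_K S_L : ShortComplex (CochainComplex (ModuleCat.{u} k) ℕ)} (Φ : S_K ⟶ S_L)

/-- The short complex of cones attached to a morphism of short complexes of complexes. -/
noncomputable def natConeShortComplex : ShortComplex (CochainComplex (ModuleCat.{u} k) ℕ) where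
  X₁ := natCone Φ.τ₁
  X₂ := natCone Φ.τ₂
  X₃ := natCone Φ.τ₃
  f := natCone.map Φ.τ₁ Φ.τ₂ S_K.f S_L.f Φ.comm₁₂
  g := natCone.map Φ.τ₂ Φ.τ₃ S_K.g S_L.g Φ.comm₂₃
  zero := by
    rw [natCone.map_comp]
    have h1 : S_K.f ≫ S_K.g = 0 := S_K.zero
    have h2 : S_L.f ≫ S_L.g = 0 := S_L.zero
    refine natCone.hom_ext _ (fun n x => ?_) (fun n x => ?_)
    · rw [natCone.fstL_map]
      exact congr($(h1).f n _)
    · rw [natCone.sndL_map]
      exact congr($(h2).f n _)

/-- The projection from the short complex of cones to the source short complex. -/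
noncomputable def natConeShortComplexFst : natConeShortComplex Φ ⟶ S_K where
  τ₁ := natCone.fst Φ.τ₁
  τ₂ := natCone.fst Φ.τ₂
  τ₃ := natCone.fst Φ.τ₃
  comm₁₂ := (natCone.map_fst Φ.τ₁ Φ.τ₂ S_K.f S_L.f Φ.comm₁₂).symm
  comm₂₃ := (natCone.map_fst Φ.τ₂ Φ.τ₃ S_K.g S_L.g Φ.comm₂₃).symm

variable (hK : S_K.ShortExact) (hL : S_L.ShortExact)

include hK hL in
/-- The short complex of cones of a morphism of short exact sequences of complexes is
short exact. -/
theorem natConeShortComplex_shortExact : (natConeShortComplex Φ).ShortExact :=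
  HomologicalComplex.shortExact_of_degreewise_shortExact _ fun n => {
    exact := by
      rw [ShortComplex.moduleCat_exact_iff]
      intro (y : (natCone Φ.τ₂).X n) hy
      change ((natCone.map Φ.τ₂ Φ.τ₃ S_K.g S_L.g Φ.comm₂₃).f n).hom y = 0 at hy
      change ∃ x : (natCone Φ.τ₁).X n,
        ((natCone.map Φ.τ₁ Φ.τ₂ S_K.f S_L.f Φ.comm₁₂).f n).hom x = y
      have h1 := congr_arg (natCone.fstL Φ.τ₃ n) hy
      rw [natCone.fstL_map, map_zero] at h1
      obtain ⟨a, ha⟩ := shortExact_exact_apply hK n _ h1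
      cases n with
      | zero =>
        refine ⟨natCone.inlL Φ.τ₁ 0 a, natCone.ext_zero _ ?_⟩
        rw [natCone.fstL_map, natCone.fstL_inlL, ha]
      | succ m =>
        have h2 := congr_arg (natCone.sndL Φ.τ₃ m) hy
        rw [natCone.sndL_map, map_zero] at h2
        obtain ⟨b, hb⟩ := shortExact_exact_apply hL m _ h2
        refine ⟨natCone.mk Φ.τ₁ a b, natCone.ext_succ _ ?_ ?_⟩
        · rw [natCone.fstL_map, natCone.fstL_mk, ha]
        · rw [natCone.sndL_map, natCone.sndL_mk, hb]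
    mono_f := by
      rw [ModuleCat.mono_iff_injective]
      intro (x : (natCone Φ.τ₁).X n) (x' : (natCone Φ.τ₁).X n) h
      change ((natCone.map Φ.τ₁ Φ.τ₂ S_K.f S_L.f Φ.comm₁₂).f n).hom x =
        ((natCone.map Φ.τ₁ Φ.τ₂ S_K.f S_L.f Φ.comm₁₂).f n).hom x' at h
      have h1 := congr_arg (natCone.fstL Φ.τ₂ n) h
      rw [natCone.fstL_map, natCone.fstL_map] at h1
      have h1' := shortExact_f_injective hK n h1
      cases n with
      | zero => exact natCone.ext_zero _ h1'
      | succ m =>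
        have h2 := congr_arg (natCone.sndL Φ.τ₂ m) h
        rw [natCone.sndL_map, natCone.sndL_map] at h2
        exact natCone.ext_succ _ h1' (shortExact_f_injective hL m h2)
    epi_g := by
      rw [ModuleCat.epi_iff_surjective]
      intro (z : (natCone Φ.τ₃).X n)
      change ∃ y : (natCone Φ.τ₂).X n,
        ((natCone.map Φ.τ₂ Φ.τ₃ S_K.g S_L.g Φ.comm₂₃).f n).hom y = z
      obtain ⟨a, ha⟩ := shortExact_g_surjective hK n (natCone.fstL Φ.τ₃ n z)
      cases n with
      | zero =>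
        refine ⟨natCone.inlL Φ.τ₂ 0 a, natCone.ext_zero _ ?_⟩
        rw [natCone.fstL_map, natCone.fstL_inlL, ha]
      | succ m =>
        obtain ⟨b, hb⟩ := shortExact_g_surjective hL m (natCone.sndL Φ.τ₃ m z)
        refine ⟨natCone.mk Φ.τ₂ a b, natCone.ext_succ _ ?_ ?_⟩
        · rw [natCone.fstL_map, natCone.fstL_mk, ha]
        · rw [natCone.sndL_map, natCone.sndL_mk, hb] }

include hK hL in
/-- The connecting homomorphism of the cones is compatible with the projections. -/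
theorem natConeShortComplex_δ_fst (i j : ℕ) (hij : i + 1 = j) :
    (natConeShortComplex_shortExact Φ hK hL).δ i j hij ≫
        HomologicalComplex.homologyMap (natCone.fst Φ.τ₁) j =
      HomologicalComplex.homologyMap (natCone.fst Φ.τ₃) i ≫ hK.δ i j hij :=
  HomologicalComplex.HomologySequence.δ_naturality (natConeShortComplexFst Φ)
    (natConeShortComplex_shortExact Φ hK hL) hK i j hij

include hK hL in
/-- The boundary maps anti-commute with the connecting homomorphisms. -/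
theorem natConeShortComplex_δ_bdry (n : ℕ) (x : S_L.X₃.homology n) :
    ((natConeShortComplex_shortExact Φ hK hL).δ (n + 1) (n + 1 + 1) rfl).hom
        (natCone.bdry Φ.τ₃ n x) =
      -natCone.bdry Φ.τ₁ (n + 1) ((hL.δ n (n + 1) rfl).hom x) := by
  obtain ⟨z, rfl⟩ := classOf_surjective S_L.X₃ n x
  obtain ⟨y, hy⟩ := shortExact_g_surjective hL n z.1
  have hdy : (S_L.g.f (n + 1)).hom ((S_L.X₂.d n (n + 1)).hom y) = 0 := by
    rw [comm_apply, hy]
    exact z.2
  obtain ⟨x₁, hx₁⟩ := shortExact_exact_apply hL (n + 1) _ hdy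
  rw [δ_classOf hL n z y hy x₁ hx₁, natCone.bdry_classOf, natCone.bdry_classOf, ← map_neg]
  refine (δ_classOf (natConeShortComplex_shortExact Φ hK hL) (n + 1) (natCone.inrZ Φ.τ₃ n z)
    (natCone.inrL Φ.τ₂ n y) ?_ (-(natCone.inrL Φ.τ₁ (n + 1) x₁)) ?_).trans ?_
  · change ((natCone.map Φ.τ₂ Φ.τ₃ S_K.g S_L.g Φ.comm₂₃).f (n + 1)).hom _ = _
    rw [natCone.map_inrL, hy]
    rfl
  · change ((natCone.map Φ.τ₁ Φ.τ₂ S_K.f S_L.f Φ.comm₁₂).f (n + 1 + 1)).hom _ =
      ((natCone Φ.τ₂).d (n + 1) (n + 1 + 1)).hom _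
    rw [map_neg, natCone.map_inrL, natCone.d_inrL, hx₁]
  · congr 1

end shortExact

end Fermat.Agent.Lib.CFT.Duality
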