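/-
helper1 (P-CFT, L4 duality layer).  Compactly supported cohomology of a localisation datum:
the cone of the total localisation map on level cochains, and its long exact sequence
`Hⁿ(G, M) → Pⁿ(M) → Hⁿ⁺¹_c(M) → Hⁿ⁺¹(G, M) → Pⁿ⁺¹(M)`.
-/
import Fermat.Agent.Lib.CFT.Duality.LocComplex
import Fermat.Agent.Lib.CFT.Duality.NatCone

set_option autoImplicit false

open CategoryTheory

namespace Fermat.Agent.Lib.CFT.Duality

open Fermat.Agent.Lib.CFT.Profinite Fermat.Agent.Lib.CFT.Profinite.LevelFamily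
open Fermat.Agent.Lib.CFT.ConcreteHomology

namespace LocDatum

variable {k : Type} [CommRing k] {G : Type} [Group G] (D : LocDatum G) (M : Rep k G)

/-- The complex computing compactly supported cohomology: the cone (shifted by `-1`) of the total
localisation map.  Its degree `n` term is `Cⁿ(G, M) × ∏ᵢ Cⁿ⁻¹(Hᵢ, M)` and
`d (a, b) = (d a, loc a - d b)`. -/
noncomputable abbrev coneComplex : CochainComplex (ModuleCat k) ℕ := natCone (D.locMap M)

/-- Compactly supported cohomology `Hⁿ_c(M)`. -/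
noncomputable abbrev Hc (n : ℕ) : ModuleCat k := (D.coneComplex M).homology n

/-- The forgetful map `Hⁿ_c(M) → Hⁿ(G, M)`. -/
noncomputable def HcToGlobal (n : ℕ) : D.Hc M n →ₗ[k] D.𝒰.levelCohomology M n :=
  (HomologicalComplex.homologyMap (natCone.fst (D.locMap M)) n).hom

/-- The boundary map `Pⁿ(M) = ∏ᵢ Hⁿ(Hᵢ, M) → Hⁿ⁺¹_c(M)`. -/
noncomputable def HcOfLocal (n : ℕ) : D.locH M n →ₗ[k] D.Hc M (n + 1) :=
  natCone.bdry (D.locMap M) n ∘ₗ (D.locHEquiv M n).symm.toLinearMap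

theorem HcOfLocal_locHEquiv (n : ℕ) (x : (D.locComplex M).homology n) :
    D.HcOfLocal M n (D.locHEquiv M n x) = natCone.bdry (D.locMap M) n x := by
  simp [HcOfLocal]

/-- Exactness of `Hⁿ(G, M) → Pⁿ(M) → Hⁿ⁺¹_c(M)`. -/
theorem exact_loc_ofLocal (n : ℕ) : Function.Exact (D.locMapH M n) (D.HcOfLocal M n) := by
  intro y
  obtain ⟨x, rfl⟩ := (D.locHEquiv M n).surjective y
  rw [HcOfLocal_locHEquiv, natCone.exact_homologyMap_bdry (D.locMap M) n x]
  constructor
  · rintro ⟨z, rfl⟩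
    exact ⟨z, (D.locHEquiv_homologyMap_locMap M n z).symm⟩
  · rintro ⟨z, hz⟩
    refine ⟨z, (D.locHEquiv M n).injective ?_⟩
    rw [D.locHEquiv_homologyMap_locMap M n z, hz]

/-- Exactness of `Pⁿ(M) → Hⁿ⁺¹_c(M) → Hⁿ⁺¹(G, M)`. -/
theorem exact_ofLocal_toGlobal (n : ℕ) :
    Function.Exact (D.HcOfLocal M n) (D.HcToGlobal M (n + 1)) := by
  intro y
  rw [HcToGlobal, natCone.exact_bdry_homologyMap_fst (D.locMap M) n y]
  constructor
  · rintro ⟨x, rfl⟩
    exact ⟨D.locHEquiv M n x, D.HcOfLocal_locHEquiv M n x⟩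
  · rintro ⟨x, rfl⟩
    exact ⟨(D.locHEquiv M n).symm x, rfl⟩

/-- Exactness of `Hⁿ_c(M) → Hⁿ(G, M) → Pⁿ(M)`. -/
theorem exact_toGlobal_loc (n : ℕ) : Function.Exact (D.HcToGlobal M n) (D.locMapH M n) := by
  intro y
  rw [← D.locHEquiv_homologyMap_locMap M n y, LinearEquiv.map_eq_zero_iff]
  exact natCone.exact_homologyMap_fst_homologyMap (D.locMap M) n y

/-- `H⁰_c(M) → H⁰(G, M)` is injective. -/
theorem HcToGlobal_zero_injective : Function.Injective (D.HcToGlobal M 0) :=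
  natCone.homologyMap_fst_zero_injective (D.locMap M)

/-- The locally trivial classes are the image of compactly supported cohomology. -/
theorem shaLevel_eq_range (n : ℕ) : D.shaLevel M n = LinearMap.range (D.HcToGlobal M n) := by
  ext y
  rw [shaLevel, LinearMap.mem_ker, LinearMap.mem_range]
  exact D.exact_toGlobal_loc M n y

@[simp] theorem HcToGlobal_HcOfLocal (n : ℕ) (x : D.locH M n) :
    D.HcToGlobal M (n + 1) (D.HcOfLocal M n x) = 0 :=
  (D.exact_ofLocal_toGlobal M n _).mpr ⟨x, rfl⟩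

@[simp] theorem HcOfLocal_locMapH (n : ℕ) (x : D.𝒰.levelCohomology M n) :
    D.HcOfLocal M n (D.locMapH M n x) = 0 :=
  (D.exact_loc_ofLocal M n _).mpr ⟨x, rfl⟩

@[simp] theorem locMapH_HcToGlobal (n : ℕ) (x : D.Hc M n) :
    D.locMapH M n (D.HcToGlobal M n x) = 0 :=
  (D.exact_toGlobal_loc M n _).mpr ⟨x, rfl⟩

end LocDatum

end Fermat.Agent.Lib.CFT.Duality
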