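/-
helper1 (P-CFT, L4 duality layer).  Complements to helper71's `Duality/NatCone.lean`:
degreewise (element form) characterisation of short exact sequences of complexes of modules,
and products of degreewise exact sequences.
-/
import Fermat.Agent.Lib.CFT.Duality.NatCone
import Fermat.Agent.Lib.CFT.Duality.PiComplex

set_option autoImplicit false

universe u

open CategoryTheory

namespace Fermat.Agent.Lib.CFT.Duality

open ConcreteHomology

variable {k : Type u} [CommRing k]

/-! ### Degreewise characterisation of short exact sequences of complexes of modules -/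

section Degreewise

/-- A short complex of cochain complexes of modules is degreewise short exact (element form). -/
def DegreewiseExact (S : ShortComplex (CochainComplex (ModuleCat.{u} k) ℕ)) : Prop :=
  ∀ n, Function.Injective (S.f.f n).hom ∧ Function.Exact (S.f.f n).hom (S.g.f n).hom ∧
    Function.Surjective (S.g.f n).hom

theorem shortExact_of_degreewiseExact {S : ShortComplex (CochainComplex (ModuleCat.{u} k) ℕ)}
    (h : DegreewiseExact S) : S.ShortExact :=
  HomologicalComplex.shortExact_of_degreewise_shortExact _ fun n =>
    { exact := by
        rw [ShortComplex.ShortExact.moduleCat_exact_iff_function_exact]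
        exact (h n).2.1
      mono_f := (ModuleCat.mono_iff_injective _).2 (h n).1
      epi_g := (ModuleCat.epi_iff_surjective _).2 (h n).2.2 }

theorem degreewiseExact_of_shortExact {S : ShortComplex (CochainComplex (ModuleCat.{u} k) ℕ)}
    (h : S.ShortExact) : DegreewiseExact S := by
  intro n
  have hn : (S.map (HomologicalComplex.eval (ModuleCat.{u} k) (ComplexShape.up ℕ) n)).ShortExact :=
    h.map_of_exact _
  refine ⟨?_, ?_, ?_⟩
  · exact (ModuleCat.mono_iff_injective _).1 hn.mono_f
  · exact (ShortComplex.ShortExact.moduleCat_exact_iff_function_exact _).1 hn.exact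
  · exact (ModuleCat.epi_iff_surjective _).1 hn.epi_g

end Degreewise

/-! ### Products of degreewise exact sequences -/

section PiExact

open PiComplex

variable {ι : Type u} {K₁ K₂ K₃ : ι → CochainComplex (ModuleCat.{u} k) ℕ}
  (a : ∀ i, K₁ i ⟶ K₂ i) (a' : ∀ i, K₂ i ⟶ K₃ i) (ha : ∀ i, a i ≫ a' i = 0)

/-- The product of a family of short complexes of complexes. -/
noncomputable def piShortComplex : ShortComplex (CochainComplex (ModuleCat.{u} k) ℕ) :=
  ShortComplex.mk (PiComplex.map a) (PiComplex.map a') (by
    ext n x : 3
    funext i
    have := congr($(ha i).f n)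
    exact congr($(this) (x i)))

theorem piShortComplex_degreewiseExact
    (h : ∀ i, DegreewiseExact (ShortComplex.mk (a i) (a' i) (ha i))) :
    DegreewiseExact (piShortComplex a a' ha) := by
  intro n
  refine ⟨?_, ?_, ?_⟩
  · intro x y hxy
    funext i
    exact (h i n).1 (congrFun hxy i)
  · intro y
    constructor
    · intro hy
      have : ∀ i, ∃ x : (K₁ i).X n, ((a i).f n).hom x = y i := fun i =>
        ((h i n).2.1 (y i)).1 (congrFun hy i)
      choose x hx using this
      exact ⟨x, funext hx⟩
    · rintro ⟨x, rfl⟩
      have := congr($((piShortComplex a a' ha).zero).f n)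
      exact congr($(this) x)
  · intro y
    have : ∀ i, ∃ x : (K₂ i).X n, ((a' i).f n).hom x = y i := fun i => (h i n).2.2 (y i)
    choose x hx using this
    exact ⟨x, funext hx⟩

end PiExact

end Fermat.Agent.Lib.CFT.Duality
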