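/-
helper1 (P-CFT, L4 duality layer).  Functoriality of compactly supported cohomology in the
coefficient module, the long exact sequence of a short exact sequence of coefficients, and
right exactness in top degree.
-/
import Fermat.Agent.Lib.CFT.Duality.Cone
import Fermat.Agent.Lib.CFT.Duality.NatConeExact

set_option autoImplicit false

open CategoryTheory

namespace Fermat.Agent.Lib.CFT.Duality

open Fermat.Agent.Lib.CFT.Profinite Fermat.Agent.Lib.CFT.Profinite.LevelFamily
open Fermat.Agent.Lib.CFT.ConcreteHomology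

namespace LocDatum

variable {k : Type} [CommRing k] {G : Type} [Group G] (D : LocDatum G)

/-! ### Functoriality -/

section Functoriality

variable {M N P : Rep k G}

/-- Functoriality of the cone complex in the coefficient module. -/
noncomputable def coneMap (f : M ⟶ N) : D.coneComplex M ⟶ D.coneComplex N :=
  natCone.map (D.locMap M) (D.locMap N) (D.𝒰.levelComplexFunctor.map f) (D.locComplexMap f)
    (D.locMap_naturality f).symm

theorem coneMap_id : D.coneMap (𝟙 M) = 𝟙 (D.coneComplex M) := by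
  ext n x : 3
  cases n with
  | zero => exact natCone.ext_zero _ rfl
  | succ m => exact natCone.ext_succ _ rfl rfl

theorem coneMap_comp (f : M ⟶ N) (g : N ⟶ P) :
    D.coneMap (f ≫ g) = D.coneMap f ≫ D.coneMap g := by
  ext n x : 3
  cases n with
  | zero => exact natCone.ext_zero _ rfl
  | succ m => exact natCone.ext_succ _ rfl rfl

/-- The cone complex as a functor. -/
noncomputable def coneFunctor : Rep k G ⥤ CochainComplex (ModuleCat k) ℕ where
  obj M := D.coneComplex M
  map f := D.coneMap f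
  map_id _ := D.coneMap_id
  map_comp f g := D.coneMap_comp f g

/-- The map induced on compactly supported cohomology. -/
noncomputable def HcMap (f : M ⟶ N) (n : ℕ) : D.Hc M n →ₗ[k] D.Hc N n :=
  (HomologicalComplex.homologyMap (D.coneMap f) n).hom

theorem HcMap_id (n : ℕ) : D.HcMap (𝟙 M) n = LinearMap.id := by
  unfold HcMap
  rw [coneMap_id, HomologicalComplex.homologyMap_id]
  rfl

theorem HcMap_comp (f : M ⟶ N) (g : N ⟶ P) (n : ℕ) :
    D.HcMap (f ≫ g) n = D.HcMap g n ∘ₗ D.HcMap f n := by
  unfold HcMap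
  rw [coneMap_comp, HomologicalComplex.homologyMap_comp]
  rfl

/-- The map induced on the product of the local cohomology groups. -/
noncomputable def locHMap (f : M ⟶ N) (n : ℕ) : D.locH M n →ₗ[k] D.locH N n :=
  LinearMap.pi fun i =>
    ((D.𝒱 i).levelCohomologyMap ((Rep.resFunctor (D.φ i)).map f) n).hom ∘ₗ LinearMap.proj i

@[simp] theorem locHMap_apply (f : M ⟶ N) (n : ℕ) (x : D.locH M n) (i : D.ι) :
    D.locHMap f n x i =
      ((D.𝒱 i).levelCohomologyMap ((Rep.resFunctor (D.φ i)).map f) n).hom (x i) := rfl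

theorem locHEquiv_homologyMap_locComplexMap (f : M ⟶ N) (n : ℕ)
    (x : (D.locComplex M).homology n) :
    D.locHEquiv N n ((HomologicalComplex.homologyMap (D.locComplexMap f) n).hom x) =
      D.locHMap f n (D.locHEquiv M n x) := by
  funext i
  exact PiComplex.homologyPiEquiv_homologyMap_map _ n x i

/-- Naturality of `Hⁿ_c → Hⁿ`. -/
theorem HcToGlobal_HcMap (f : M ⟶ N) (n : ℕ) (x : D.Hc M n) :
    D.HcToGlobal N n (D.HcMap f n x) = (D.𝒰.levelCohomologyMap f n).hom (D.HcToGlobal M n x) :=
  natCone.homologyMap_map_fst _ _ _ _ _ n x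

/-- Naturality of `Pⁿ → Hⁿ⁺¹_c`. -/
theorem HcMap_HcOfLocal (f : M ⟶ N) (n : ℕ) (x : D.locH M n) :
    D.HcMap f (n + 1) (D.HcOfLocal M n x) = D.HcOfLocal N n (D.locHMap f n x) := by
  obtain ⟨y, rfl⟩ := (D.locHEquiv M n).surjective x
  rw [HcOfLocal_locHEquiv, ← locHEquiv_homologyMap_locComplexMap, HcOfLocal_locHEquiv]
  exact natCone.homologyMap_map_bdry _ _ _ _ _ n y

/-- Naturality of the localisation maps. -/
theorem locMapH_levelCohomologyMap (f : M ⟶ N) (n : ℕ) (x : D.𝒰.levelCohomology M n) :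
    D.locMapH N n ((D.𝒰.levelCohomologyMap f n).hom x) = D.locHMap f n (D.locMapH M n x) := by
  rw [← locHEquiv_homologyMap_locMap, ← locHEquiv_homologyMap_locMap,
    ← locHEquiv_homologyMap_locComplexMap]
  congr 1
  have h1 := HomologicalComplex.homologyMap_comp (D.𝒰.levelComplexFunctor.map f) (D.locMap N) n
  have h2 := HomologicalComplex.homologyMap_comp (D.locMap M) (D.locComplexMap f) n
  rw [D.locMap_naturality f] at h1
  have h3 := h1.symm.trans h2
  exact congr($(h3) x)

theorem locComplexMap_zero : D.locComplexMap (0 : M ⟶ N) = 0 := by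
  ext n x : 3
  rfl

theorem coneMap_zero : D.coneMap (0 : M ⟶ N) = 0 := by
  ext n x : 3
  cases n with
  | zero => exact natCone.ext_zero _ rfl
  | succ m => exact natCone.ext_succ _ rfl rfl

instance : (D.coneFunctor (k := k)).PreservesZeroMorphisms where
  map_zero _ _ := D.coneMap_zero

theorem coneMap_add (f g : M ⟶ N) : D.coneMap (f + g) = D.coneMap f + D.coneMap g := by
  ext n x : 3
  cases n with
  | zero => exact natCone.ext_zero _ rfl
  | succ m => exact natCone.ext_succ _ rfl rfl

instance : (D.coneFunctor (k := k)).Additive where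
  map_add := D.coneMap_add _ _

theorem HcMap_add (f g : M ⟶ N) (n : ℕ) : D.HcMap (f + g) n = D.HcMap f n + D.HcMap g n := by
  unfold HcMap
  rw [coneMap_add, HomologicalComplex.homologyMap_add]
  rfl

theorem HcMap_zero (n : ℕ) : D.HcMap (0 : M ⟶ N) n = 0 := by
  unfold HcMap
  rw [coneMap_zero, HomologicalComplex.homologyMap_zero]
  rfl

end Functoriality

/-! ### The long exact sequence in the coefficient module -/

section LES

variable {X : ShortComplex (Rep k G)} (hX : X.ShortExact) (hd : D.𝒰.IsDiscrete X.X₂)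

/-- The short complex of cone complexes attached to a short complex of representations. -/
noncomputable def coneShortComplex (X : ShortComplex (Rep k G)) :
    ShortComplex (CochainComplex (ModuleCat k) ℕ) :=
  X.map D.coneFunctor

theorem locComplexMap_comp_zero (X : ShortComplex (Rep k G)) :
    D.locComplexMap X.f ≫ D.locComplexMap X.g = 0 := by
  rw [← locComplexMap_comp, X.zero, locComplexMap_zero]

include hX hd in
theorem locShortComplex_degreewiseExact :
    DegreewiseExact (ShortComplex.mk (D.locComplexMap X.f) (D.locComplexMap X.g)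
      (D.locComplexMap_comp_zero X)) := by
  refine piShortComplex_degreewiseExact _ _
    (fun i => ((X.map (Rep.resFunctor (D.φ i))).map ((D.𝒱 i).levelComplexFunctor (k := k))).zero)
    (fun i => ?_)
  have hXi : (X.map (Rep.resFunctor (D.φ i))).ShortExact := (Rep.shortExact_res (D.φ i)).2 hX
  have hdi : (D.𝒱 i).IsDiscrete (X.map (Rep.resFunctor (D.φ i))).X₂ :=
    D.isDiscrete_resRep X.X₂ hd i
  exact degreewiseExact_of_shortExact ((D.𝒱 i).map_levelComplexFunctor_shortExact hXi hdi)

/-- The localisation maps as a morphism of short complexes of complexes. -/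
noncomputable def locShortComplexHom (X : ShortComplex (Rep k G)) :
    X.map (D.𝒰.levelComplexFunctor (k := k)) ⟶
      ShortComplex.mk (D.locComplexMap X.f) (D.locComplexMap X.g) (D.locComplexMap_comp_zero X) where
  τ₁ := D.locMap X.X₁
  τ₂ := D.locMap X.X₂
  τ₃ := D.locMap X.X₃
  comm₁₂ := (D.locMap_naturality X.f).symm
  comm₂₃ := (D.locMap_naturality X.g).symm

include hX hd in
theorem coneShortComplex_shortExact : (D.coneShortComplex X).ShortExact :=
  natConeShortComplex_shortExact (D.locShortComplexHom X)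
    (D.𝒰.map_levelComplexFunctor_shortExact hX hd)
    (shortExact_of_degreewiseExact (D.locShortComplex_degreewiseExact hX hd))

/-- The connecting homomorphism `Hⁱ_c(X₃) → Hʲ_c(X₁)`. -/
noncomputable def Hcδ (i j : ℕ) (hij : i + 1 = j) : D.Hc X.X₃ i →ₗ[k] D.Hc X.X₁ j :=
  ((D.coneShortComplex_shortExact hX hd).δ i j hij).hom

/-- Exactness of `Hⁱ_c(X₃) → Hʲ_c(X₁) → Hʲ_c(X₂)`. -/
theorem Hc_exact₁ {i j : ℕ} (hij : i + 1 = j) :
    Function.Exact (D.Hcδ hX hd i j hij) (D.HcMap X.f j) :=
  (ShortComplex.ShortExact.moduleCat_exact_iff_function_exact _).1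
    ((D.coneShortComplex_shortExact hX hd).homology_exact₁ i j hij)

include hX hd in
/-- Exactness of `Hⁱ_c(X₁) → Hⁱ_c(X₂) → Hⁱ_c(X₃)`. -/
theorem Hc_exact₂ (i : ℕ) : Function.Exact (D.HcMap X.f i) (D.HcMap X.g i) :=
  (ShortComplex.ShortExact.moduleCat_exact_iff_function_exact _).1
    ((D.coneShortComplex_shortExact hX hd).homology_exact₂ i)

/-- Exactness of `Hⁱ_c(X₂) → Hⁱ_c(X₃) → Hʲ_c(X₁)`. -/
theorem Hc_exact₃ {i j : ℕ} (hij : i + 1 = j) :
    Function.Exact (D.HcMap X.g i) (D.Hcδ hX hd i j hij) :=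
  (ShortComplex.ShortExact.moduleCat_exact_iff_function_exact _).1
    ((D.coneShortComplex_shortExact hX hd).homology_exact₃ i j hij)

include hX hd in
/-- A cone cochain of `X₁` whose image in `X₂` is a coboundary of a lift is a cocycle. -/
theorem mem_Z_of_coneMap_eq_d {i : ℕ} (y : (D.coneComplex X.X₂).X i)
    (x : (D.coneComplex X.X₁).X (i + 1))
    (hx : ((D.coneMap X.f).f (i + 1)).hom x = ((D.coneComplex X.X₂).d i (i + 1)).hom y) :
    x ∈ Z (D.coneComplex X.X₁) (i + 1) :=
  mem_Z_of_f_eq_d (D.coneShortComplex_shortExact hX hd) y x hx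

/-- Cochain-level description of the connecting homomorphism of `H_c`. -/
theorem Hcδ_classOf (i : ℕ) (z : Z (D.coneComplex X.X₃) i) (y : (D.coneComplex X.X₂).X i)
    (hy : ((D.coneMap X.g).f i).hom y = z.1) (x : (D.coneComplex X.X₁).X (i + 1))
    (hx : ((D.coneMap X.f).f (i + 1)).hom x = ((D.coneComplex X.X₂).d i (i + 1)).hom y) :
    D.Hcδ hX hd i (i + 1) rfl (classOf (D.coneComplex X.X₃) i z) =
      classOf (D.coneComplex X.X₁) (i + 1) ⟨x, D.mem_Z_of_coneMap_eq_d hX hd y x hx⟩ :=
  δ_classOf (D.coneShortComplex_shortExact hX hd) i z y hy x hx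

/-- The connecting homomorphisms of `H_c` and of `H` are compatible. -/
theorem HcToGlobal_Hcδ (i j : ℕ) (hij : i + 1 = j) (x : D.Hc X.X₃ i) :
    D.HcToGlobal X.X₁ j (D.Hcδ hX hd i j hij x) =
      (D.𝒰.δ hX hd i j hij).hom (D.HcToGlobal X.X₃ i x) := by
  let F : D.coneShortComplex X ⟶ X.map (D.𝒰.levelComplexFunctor (k := k)) :=
    { τ₁ := natCone.fst (D.locMap X.X₁)
      τ₂ := natCone.fst (D.locMap X.X₂)
      τ₃ := natCone.fst (D.locMap X.X₃)
      comm₁₂ := (natCone.map_fst _ _ _ _ (D.locMap_naturality X.f).symm).symm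
      comm₂₃ := (natCone.map_fst _ _ _ _ (D.locMap_naturality X.g).symm).symm }
  have := HomologicalComplex.HomologySequence.δ_naturality F
    (D.coneShortComplex_shortExact hX hd) (D.𝒰.map_levelComplexFunctor_shortExact hX hd) i j hij
  exact congr($(this) x)

end LES

/-! ### Right exactness in top degree -/

section RightExact

variable {X : ShortComplex (Rep k G)} (hX : X.ShortExact) (hd : D.𝒰.IsDiscrete X.X₂)

include hX hd in
/-- If `Hⁿ⁺¹(G, X₃) = 0` and `Hⁿ⁺¹(Hᵢ, X₁) = 0` for all `i`, then `Hⁿ⁺¹_c(X₂) → Hⁿ⁺¹_c(X₃)` is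
surjective. -/
theorem HcMap_surjective_of_subsingleton (n : ℕ)
    (h3 : Subsingleton (D.𝒰.levelCohomology X.X₃ (n + 1)))
    (hloc : ∀ i, Subsingleton ((D.𝒱 i).levelCohomology (D.resRep X.X₁ i) (n + 1))) :
    Function.Surjective (D.HcMap X.g (n + 1)) := by
  intro y
  have hy : D.HcToGlobal X.X₃ (n + 1) y = 0 := Subsingleton.elim _ _
  obtain ⟨z, rfl⟩ := (D.exact_ofLocal_toGlobal X.X₃ n y).1 hy
  have hz : ∀ i, ∃ w : (D.𝒱 i).levelCohomology (D.resRep X.X₂ i) n,
      ((D.𝒱 i).levelCohomologyMap ((Rep.resFunctor (D.φ i)).map X.g) n).hom w = z i := by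
    intro i
    have hXi : (X.map (Rep.resFunctor (D.φ i))).ShortExact := (Rep.shortExact_res (D.φ i)).2 hX
    have hdi : (D.𝒱 i).IsDiscrete (X.map (Rep.resFunctor (D.φ i))).X₂ :=
      D.isDiscrete_resRep X.X₂ hd i
    have hsub : Subsingleton
        ((D.𝒱 i).levelCohomology (X.map (Rep.resFunctor (D.φ i))).X₁ (n + 1)) := hloc i
    exact (D.𝒱 i).exists_of_δ_eq_zero hXi hdi rfl (z i) (Subsingleton.elim _ _)
  choose w hw using hz
  refine ⟨D.HcOfLocal X.X₂ n w, ?_⟩
  rw [HcMap_HcOfLocal]
  congr 1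
  funext i
  exact hw i

end RightExact

end LocDatum

end Fermat.Agent.Lib.CFT.Duality
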