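import Fermat.Agent.Lib.CFT.Profinite.CupNat

/-!
# Adjointness of connecting homomorphisms with respect to cup products

Let `X : 0 ⟶ X₁ ⟶ X₂ ⟶ X₃ ⟶ 0` and `Y : 0 ⟶ Y₁ ⟶ Y₂ ⟶ Y₃ ⟶ 0` be short exact sequences of
representations with discrete middle terms, and let
`φ₁ : X₁ × Y₃ → C`, `φ₂ : X₂ × Y₂ → C`, `φ₃ : X₃ × Y₁ → C` be equivariant pairings such that
`φ₂ (f_X a, b) = φ₁ (a, g_Y b)` and `φ₂ (a, f_Y b) = φ₃ (g_X a, b)` (think of `Y` as the transposed
sequence of `X` for a duality with values in `C`).  Then for `x ∈ Hᵐ(X₃)` and `y ∈ Hⁿ(Y₃)`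

  `δ_X x ∪₁ y = (-1)^(m+1) • (x ∪₃ δ_Y y)`   in `H^(m+n+1)(C)`.

This is the plain level-cohomology version of the compatibility (C3) of the duality blueprint; it
is the input for the square with the connecting maps in the devissage ladders.
-/

set_option autoImplicit false
set_option linter.unusedSectionVars false

universe u

open CategoryTheory groupCohomology

namespace Fermat.Agent.Lib.CFT.Profinite

open Fermat.Agent.Lib.CFT.Coh.Cup Fermat.Agent.Lib.CFT.Coh.Elem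

variable {k G : Type u} [CommRing k] [Group G]

namespace LevelFamily

variable (𝒰 : LevelFamily G)

variable {X Y : ShortComplex (Rep.{u} k G)} (hX : X.ShortExact) (hY : Y.ShortExact)
  (hdX : 𝒰.IsDiscrete X.X₂) (hdY : 𝒰.IsDiscrete Y.X₂) {C : Rep.{u} k G}

/-- **Adjointness of the connecting homomorphisms** of two short exact sequences which are in
duality with respect to compatible pairings into `C`. -/
theorem cupH_δ_adjoint (φ₁ : Pairing X.X₁ Y.X₃ C) (φ₂ : Pairing X.X₂ Y.X₂ C)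
    (φ₃ : Pairing X.X₃ Y.X₁ C)
    (hf : ∀ (a : X.X₁) (b : Y.X₂), φ₂.toLin (X.f.hom a) b = φ₁.toLin a (Y.g.hom b))
    (hg : ∀ (a : X.X₂) (b : Y.X₁), φ₂.toLin a (Y.f.hom b) = φ₃.toLin (X.g.hom a) b)
    {m n l : ℕ} (h : m + n + 1 = l) (x : 𝒰.levelCohomology X.X₃ m)
    (y : 𝒰.levelCohomology Y.X₃ n) :
    𝒰.cupH φ₁ (show m + 1 + n = l by omega) ((𝒰.δ hX hdX m (m + 1) rfl).hom x) y =
      (-1 : k) ^ (m + 1) •
        𝒰.cupH φ₃ (show m + (n + 1) = l by omega) x ((𝒰.δ hY hdY n (n + 1) rfl).hom y) := by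
  subst h
  obtain ⟨z, hz, rfl⟩ := 𝒰.cls_surjective x
  obtain ⟨w, hw, rfl⟩ := 𝒰.cls_surjective y
  obtain ⟨x', hx', hx'z, a, ha, hax'⟩ := 𝒰.exists_lift_data hX hdX hz
  obtain ⟨y', hy', hy'w, b, hb, hby'⟩ := 𝒰.exists_lift_data hY hdY hw
  rw [𝒰.δ_cls hX hdX hz hx' hx'z ha hax', 𝒰.δ_cls hY hdY hw hy' hy'w hb hby', cupH_cls, cupH_cls,
    ← cls_smul, cls_eq_iff]
  refine ⟨cupTo φ₂ (rfl : m + n = m + n) x' y', 𝒰.cupTo_mem_levelCochains φ₂ _ hx' hy', ?_⟩
  rw [d_cupTo]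
  have e1 : cupTo φ₂ (show m + 1 + n = m + n + 1 by omega)
      ((inhomogeneousCochains.d X.X₂ m).hom x') y' =
      cupTo φ₁ (show m + 1 + n = m + n + 1 by omega) a w := by
    funext g
    rw [cupTo_apply, cupTo_apply, ← hax', hf, Rep.hom_comm_apply, hy'w]
  have e2 : cupTo φ₂ (show m + (n + 1) = m + n + 1 by omega) x'
      ((inhomogeneousCochains.d Y.X₂ n).hom y') =
      cupTo φ₃ (show m + (n + 1) = m + n + 1 by omega) z b := by
    funext g
    rw [cupTo_apply, cupTo_apply, ← hby', ← Rep.hom_comm_apply, hg, hx'z]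
  rw [e1, e2, pow_succ, mul_neg_one, neg_smul, sub_neg_eq_add]

/-- Postcomposition with a morphism of representations preserves level cocycles. -/
theorem isLevelCocycle_postcomp {M M' : Rep.{u} k G} (α : M ⟶ M') {n : ℕ}
    {x : (Fin n → G) → M} (hx : 𝒰.IsLevelCocycle M x) :
    𝒰.IsLevelCocycle M' (fun g => α.hom (x g)) :=
  IsLevelCocycle.map (MonoidHom.id G) 𝒰.isCompatible_id α hx

/-- Elementwise description of the functorial map on level cohomology. -/
theorem levelCohomologyMap_cls {M M' : Rep.{u} k G} (α : M ⟶ M') {n : ℕ} (x : (Fin n → G) → M)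
    (hx : 𝒰.IsLevelCocycle M x) :
    (𝒰.levelCohomologyMap α n).hom (𝒰.cls x hx) =
      𝒰.cls (fun g => α.hom (x g)) (𝒰.isLevelCocycle_postcomp α hx) :=
  homologyMap_cls (MonoidHom.id G) 𝒰.isCompatible_id α x hx

/-- **Mixed-variance naturality of the cup product.**  If `φ' (α a, b') = φ (a, β b')` then
`α_* x ∪' y = x ∪ β_* y`. -/
theorem cupH_map_adjoint {A A' B B' C' : Rep.{u} k G} (φ : Pairing A B C') (φ' : Pairing A' B' C')
    (α : A ⟶ A') (β : B' ⟶ B)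
    (hαβ : ∀ (a : A) (b' : B'), φ'.toLin (α.hom a) b' = φ.toLin a (β.hom b'))
    {m n l : ℕ} (h : m + n = l) (x : 𝒰.levelCohomology A m) (y : 𝒰.levelCohomology B' n) :
    𝒰.cupH φ' h ((𝒰.levelCohomologyMap α m).hom x) y =
      𝒰.cupH φ h x ((𝒰.levelCohomologyMap β n).hom y) := by
  obtain ⟨z, hz, rfl⟩ := 𝒰.cls_surjective x
  obtain ⟨w, hw, rfl⟩ := 𝒰.cls_surjective y
  rw [levelCohomologyMap_cls, levelCohomologyMap_cls, cupH_cls, cupH_cls]
  refine 𝒰.cls_congr ?_ _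
  funext g
  rw [cupTo_apply, cupTo_apply, hαβ, Rep.hom_comm_apply]

end LevelFamily

end Fermat.Agent.Lib.CFT.Profinite
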