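import Fermat.Agent.Lib.CFT.Duality.NatCone

/-!
# Functoriality of `natCone` and the cone of a termwise injection

* for helper71's `natCone.map φ φ' α β h` (morphism of cones induced by a commutative square):
  the five-lemma consequence `map_homology_bijective`.
* `natCone.toCoker` : for a termwise short exact sequence `0 → K → L → Q → 0` the map
  `Hⁿ⁺¹(natCone i) → Hⁿ(Q)`, `[(a, b)] ↦ [π b]`, is bijective.
-/

set_option autoImplicit false

universe u

open CategoryTheory

namespace Fermat.Agent.Lib.CFT.Duality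

open ConcreteHomology NatCone HomologicalComplex

variable {k : Type u} [CommRing k]

namespace natCone

section map

variable {K L K' L' : CochainComplex (ModuleCat.{u} k) ℕ} (φ : K ⟶ L) (φ' : K' ⟶ L')
  (α : K ⟶ K') (β : L ⟶ L')

variable (h : φ ≫ β = α ≫ φ')

include h in
theorem homologyMap_sq (n : ℕ) (x : K.homology n) :
    (homologyMap β n).hom ((homologyMap φ n).hom x) =
      (homologyMap φ' n).hom ((homologyMap α n).hom x) := by
  have h1 : homologyMap φ n ≫ homologyMap β n = homologyMap α n ≫ homologyMap φ' n := by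
    rw [← homologyMap_comp, ← homologyMap_comp, h]
  exact congr($h1 x)

/-- Five lemma for cones: if `α` and `β` induce suitable (iso/epi/mono) maps in degrees `n`,
`n + 1`, the map of cones is bijective on `Hⁿ⁺¹`. -/
theorem map_homology_bijective (n : ℕ)
    (hα₀ : Function.Surjective (homologyMap α n).hom)
    (hβ₀ : Function.Bijective (homologyMap β n).hom)
    (hα₁ : Function.Bijective (homologyMap α (n + 1)).hom)
    (hβ₁ : Function.Injective (homologyMap β (n + 1)).hom) :
    Function.Bijective (homologyMap (map φ φ' α β h) (n + 1)).hom := by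
  refine LinearMap.bijective_of_surjective_of_bijective_of_bijective_of_injective
    (homologyMap φ n).hom (bdry φ n) (homologyMap (fst φ) (n + 1)).hom
    (homologyMap φ (n + 1)).hom
    (homologyMap φ' n).hom (bdry φ' n) (homologyMap (fst φ') (n + 1)).hom
    (homologyMap φ' (n + 1)).hom
    (homologyMap α n).hom (homologyMap β n).hom (homologyMap (map φ φ' α β h) (n + 1)).hom
    (homologyMap α (n + 1)).hom (homologyMap β (n + 1)).hom ?_ ?_ ?_ ?_
    (exact_homologyMap_bdry φ n) (exact_bdry_homologyMap_fst φ n)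
    (exact_homologyMap_fst_homologyMap φ (n + 1))
    (exact_homologyMap_bdry φ' n) (exact_bdry_homologyMap_fst φ' n)
    (exact_homologyMap_fst_homologyMap φ' (n + 1)) hα₀ hβ₀ hα₁ hβ₁
  · ext x
    exact (homologyMap_sq φ φ' α β h n x).symm
  · ext x
    exact (homologyMap_map_bdry φ φ' α β h n x).symm
  · ext x
    exact homologyMap_map_fst φ φ' α β h (n + 1) x
  · ext x
    exact (homologyMap_sq φ φ' α β h (n + 1) x).symm

end map

section coker

variable {K L Q : CochainComplex (ModuleCat.{u} k) ℕ} (i : K ⟶ L) (π : L ⟶ Q)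
  (hinj : ∀ n, Function.Injective (i.f n).hom)
  (hsurj : ∀ n, Function.Surjective (π.f n).hom)
  (hex : ∀ n (b : L.X n), (π.f n).hom b = 0 ↔ ∃ a, (i.f n).hom a = b)

include hex in
theorem pi_i_apply (n : ℕ) (a : K.X n) : (π.f n).hom ((i.f n).hom a) = 0 :=
  (hex n _).2 ⟨a, rfl⟩

include hex in
/-- The second component of a cocycle of the cone maps to a cocycle of the cokernel. -/
theorem pi_sndL_mem_Z (n : ℕ) (z : Z (natCone i) (n + 1)) :
    (π.f n).hom (sndL i n z.1) ∈ Z Q n := by
  have hz := (mem_Z_succ_iff i z.1).1 z.2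
  rw [mem_Z_iff, ← comm_apply, ← hz.2]
  exact pi_i_apply i π hex _ _

/-- `(a, b) ↦ π b` on cocycles. -/
noncomputable def toCokerZ (n : ℕ) : Z (natCone i) (n + 1) →ₗ[k] Z Q n :=
  (((π.f n).hom.comp (sndL i n)).comp (Z (natCone i) (n + 1)).subtype).codRestrict _
    (fun z => pi_sndL_mem_Z i π hex n z)

@[simp] theorem toCokerZ_coe (n : ℕ) (z : Z (natCone i) (n + 1)) :
    (toCokerZ i π hex n z).1 = (π.f n).hom (sndL i n z.1) := rfl

/-- The comparison map `Hⁿ⁺¹(natCone i) → Hⁿ(Q)`, `[(a, b)] ↦ [π b]`. -/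
noncomputable def toCoker (n : ℕ) : (natCone i).homology (n + 1) →ₗ[k] Q.homology n :=
  descH ((classOf Q n).comp (toCokerZ i π hex n)) (fun z hz => by
    rw [LinearMap.comp_apply]
    obtain ⟨w, hw⟩ := (classOf_eq_zero_iff_succ (natCone i) n z).1 hz
    have h2 := congr_arg (sndL i n) hw
    cases n with
    | zero =>
      rw [sndL_d_zero] at h2
      have : toCokerZ i π hex 0 z = 0 := by
        apply Subtype.ext
        rw [toCokerZ_coe, ← h2]
        exact pi_i_apply i π hex _ _
      rw [this, map_zero]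
    | succ m =>
      rw [sndL_d_succ] at h2
      rw [classOf_eq_zero_iff_succ]
      refine ⟨-(π.f m).hom (sndL i m w), ?_⟩
      rw [toCokerZ_coe, ← h2, map_sub, pi_i_apply i π hex, zero_sub, map_neg, comm_apply])

@[simp] theorem toCoker_classOf (n : ℕ) (z : Z (natCone i) (n + 1)) :
    toCoker i π hex n (classOf (natCone i) (n + 1) z) = classOf Q n (toCokerZ i π hex n z) := by
  unfold toCoker
  rw [descH_classOf]
  rfl

include hinj hsurj in
theorem toCoker_injective (n : ℕ) : Function.Injective (toCoker i π hex n) := by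
  rw [injective_iff_map_eq_zero]
  intro x hx
  obtain ⟨z, rfl⟩ := classOf_surjective (natCone i) (n + 1) x
  rw [toCoker_classOf] at hx
  have hz := (mem_Z_succ_iff i z.1).1 z.2
  rw [classOf_eq_zero_iff_succ]
  cases n with
  | zero =>
    have h0 := (classOf_eq_zero_iff_zero Q _).1 hx
    have h1 : (π.f 0).hom (sndL i 0 z.1) = 0 := congr_arg Subtype.val h0
    obtain ⟨a, ha⟩ := (hex 0 _).1 h1
    refine ⟨inlL i 0 a, ?_⟩
    rw [d_inlL]
    refine ext_succ i ?_ ?_
    · rw [fstL_mk]
      apply hinj 1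
      rw [comm_apply, ha, hz.2]
    · rw [sndL_mk, ha]
  | succ m =>
    obtain ⟨q', hq'⟩ := (classOf_eq_zero_iff_succ Q m _).1 hx
    rw [toCokerZ_coe] at hq'
    obtain ⟨b', rfl⟩ := hsurj m q'
    have h1 : (π.f (m + 1)).hom (sndL i (m + 1) z.1 - (L.d m (m + 1)).hom b') = 0 := by
      rw [map_sub, comm_apply, hq', sub_self]
    obtain ⟨a, ha⟩ := (hex (m + 1) _).1 h1
    refine ⟨mk i a (-b'), ?_⟩
    rw [d_mk]
    refine ext_succ i ?_ ?_
    · rw [fstL_mk]
      apply hinj (m + 1 + 1)
      rw [comm_apply, ha, map_sub, d_d_apply, sub_zero, hz.2]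
    · rw [sndL_mk, ha, map_neg]
      abel

include hinj hsurj in
theorem toCoker_surjective (n : ℕ) : Function.Surjective (toCoker i π hex n) := by
  intro y
  obtain ⟨q, rfl⟩ := classOf_surjective Q n y
  obtain ⟨b, hb⟩ := hsurj n q.1
  have h1 : (π.f (n + 1)).hom ((L.d n (n + 1)).hom b) = 0 := by
    rw [comm_apply, hb]
    exact q.2
  obtain ⟨a, ha⟩ := (hex (n + 1) _).1 h1
  have haZ : a ∈ Z K (n + 1) := by
    rw [mem_Z_iff]
    apply hinj (n + 1 + 1)
    rw [comm_apply, ha, d_d_apply, map_zero]
  refine ⟨classOf _ _ ⟨mk i a b, mk_mem_Z i a b haZ ha⟩, ?_⟩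
  rw [toCoker_classOf]
  congr 1
  exact Subtype.ext hb

include hinj hsurj in
theorem toCoker_bijective (n : ℕ) : Function.Bijective (toCoker i π hex n) :=
  ⟨toCoker_injective i π hinj hsurj hex n, toCoker_surjective i π hinj hsurj hex n⟩

/-- Under `toCoker`, the boundary map of the cone corresponds to `Hⁿ(π)`. -/
theorem toCoker_bdry (n : ℕ) (x : L.homology n) :
    toCoker i π hex n (bdry i n x) = (homologyMap π n).hom x := by
  obtain ⟨b, rfl⟩ := classOf_surjective L n x
  rw [bdry_classOf, toCoker_classOf, homologyMap_classOf]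
  congr 1

end coker

end natCone

end Fermat.Agent.Lib.CFT.Duality
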