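import Fermat.Agent.Lib.CFT.Duality.DualTwist

/-!
# Coinduction commutes with the twisted dual

For a finite index subgroup `V` of `G`, a representation `M` of `G` and a character `χ`, we
construct `dualIso : Coind_V (M'|_V) ≅ (Coind_V (M|_V))'` where `'` is `Rep.dualTwist χ`.
Both sides are identified with functions on `G ⧸ V` (`coordEquiv`) and the pairing is
`∑ x, F̃ x (f̃ x)`.  We also record the transposed devissage sequence
`0 ⟶ M' ⟶ (Coind_V (M|_V))' ⟶ K' ⟶ 0`.
-/

set_option autoImplicit false

universe u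

open CategoryTheory CategoryTheory.Limits Fermat.Agent.Lib.CFT.Profinite
open Fermat.Agent.Lib.CFT.Duality.DevissageRep

namespace Fermat.Agent.Lib.CFT.Duality.CoindDual

variable {k G : Type u} [CommRing k] [Group G] (V : Subgroup G) (M : Rep.{u} k G)

/-- Coordinates on `Coind_V^G (M|_V)`: the function `hV ↦ ρ(h) f(h⁻¹)` on `G ⧸ V`. -/
def coord (f : P V M) : G ⧸ V → M :=
  Quotient.lift (fun h : G => M.ρ h (f.1 h⁻¹)) (by
    intro a b hab
    have hab' : a⁻¹ * b ∈ V := QuotientGroup.leftRel_apply.1 hab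
    show M.ρ a (f.1 a⁻¹) = M.ρ b (f.1 b⁻¹)
    have e : a⁻¹ = (a⁻¹ * b) * b⁻¹ := by group
    rw [e, P_prop V M f _ hab', ← Module.End.mul_apply, ← map_mul]
    congr 2
    group)

theorem coord_mk (f : P V M) (h : G) : coord V M f (h : G ⧸ V) = M.ρ h (f.1 h⁻¹) := rfl

/-- The inverse of `coord`. -/
def uncoord (φ : G ⧸ V → M) : P V M :=
  ⟨fun g => M.ρ g (φ ((g⁻¹ : G) : G ⧸ V)), by
    intro v g
    show M.ρ (V.subtype v * g) (φ (((V.subtype v * g)⁻¹ : G) : G ⧸ V)) =
      (Rep.res V.subtype M).ρ v (M.ρ g (φ ((g⁻¹ : G) : G ⧸ V)))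
    have : (((V.subtype v * g)⁻¹ : G) : G ⧸ V) = ((g⁻¹ : G) : G ⧸ V) := by
      rw [QuotientGroup.eq]
      simp
    rw [this, map_mul]
    rfl⟩

theorem uncoord_apply (φ : G ⧸ V → M) (g : G) :
    (uncoord V M φ).1 g = M.ρ g (φ ((g⁻¹ : G) : G ⧸ V)) := rfl

/-- `Coind_V^G (M|_V) ≃ (G ⧸ V → M)`, linearly. -/
def coordEquiv : P V M ≃ₗ[k] (G ⧸ V → M) where
  toFun := coord V M
  map_add' f f' := by
    funext x
    induction x using QuotientGroup.induction_on with
    | H h => simp only [coord_mk, Pi.add_apply]; rw [← map_add]; rfl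
  map_smul' c f := by
    funext x
    induction x using QuotientGroup.induction_on with
    | H h => simp only [coord_mk, Pi.smul_apply, RingHom.id_apply]; rw [← map_smul]; rfl
  invFun := uncoord V M
  left_inv f := by
    apply Subtype.ext
    funext g
    rw [uncoord_apply, coord_mk, inv_inv, ← Module.End.mul_apply, ← map_mul, mul_inv_cancel,
      map_one, Module.End.one_apply]
  right_inv φ := by
    funext x
    induction x using QuotientGroup.induction_on with
    | H h =>
      rw [coord_mk, uncoord_apply, inv_inv, ← Module.End.mul_apply, ← map_mul, mul_inv_cancel,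
        map_one, Module.End.one_apply]

theorem coordEquiv_apply (f : P V M) : coordEquiv V M f = coord V M f := rfl

/-- The action in coordinates. -/
theorem coord_ρ (γ : G) (f : P V M) (x : G ⧸ V) :
    coord V M ((P V M).ρ γ f) x = M.ρ γ (coord V M f (γ⁻¹ • x)) := by
  induction x using QuotientGroup.induction_on with
  | H h =>
    have : γ⁻¹ • (h : G ⧸ V) = ((γ⁻¹ * h : G) : G ⧸ V) := rfl
    rw [this, coord_mk, coord_mk, P_ρ_apply, ← Module.End.mul_apply, ← map_mul]
    congr 2
    · group
    · group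

variable [V.FiniteIndex] (χ : G →* kˣ)

open scoped Classical in
/-- The pairing between `Coind_V (M'|_V)` and `Coind_V (M|_V)`, in coordinates
`∑ x, F̃ x (f̃ x)`. -/
noncomputable def pairing (F : P V (M.dualTwist χ)) (f : P V M) : k :=
  letI : Fintype (G ⧸ V) := Fintype.ofFinite _
  ∑ x : G ⧸ V, (coord V (M.dualTwist χ) F x : Module.Dual k M) (coord V M f x)

open scoped Classical in
/-- The linear equivalence `Coind_V (M'|_V) ≃ (Coind_V (M|_V))'`. -/
noncomputable def dualEquiv : P V (M.dualTwist χ) ≃ₗ[k] Module.Dual k (P V M) :=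
  letI : Fintype (G ⧸ V) := Fintype.ofFinite _
  (coordEquiv V (M.dualTwist χ)).trans
    ((LinearMap.lsum k (fun _ : G ⧸ V => M) k).trans (coordEquiv V M).dualMap)

theorem dualEquiv_apply (F : P V (M.dualTwist χ)) (f : P V M) :
    dualEquiv V M χ F f = pairing V M χ F f := by
  classical
  simp only [dualEquiv, pairing, LinearEquiv.trans_apply, LinearEquiv.dualMap_apply,
    LinearMap.lsum_apply, LinearMap.sum_apply, LinearMap.comp_apply,
    LinearMap.proj_apply]
  rfl

theorem pairing_ρ (γ : G) (F : P V (M.dualTwist χ)) (f : P V M) :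
    pairing V M χ ((P V (M.dualTwist χ)).ρ γ F) f =
      (χ γ : k) * pairing V M χ F ((P V M).ρ γ⁻¹ f) := by
  classical
  let _ : Fintype (G ⧸ V) := Fintype.ofFinite _
  simp only [pairing]
  rw [Finset.mul_sum, ← Equiv.sum_comp (MulAction.toPerm γ⁻¹ : Equiv.Perm (G ⧸ V))
    (fun x => (χ γ : k) * (coord V (M.dualTwist χ) F x : Module.Dual k M)
      (coord V M ((P V M).ρ γ⁻¹ f) x))]
  refine Finset.sum_congr rfl fun x _ => ?_
  rw [coord_ρ, coord_ρ, Rep.dualTwist_ρ_apply]
  simp only [MulAction.toPerm_apply, inv_inv, smul_inv_smul, LinearMap.smul_apply,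
    LinearMap.coe_comp, Function.comp_apply, smul_eq_mul]

/-- `Coind_V (M'|_V) ≅ (Coind_V (M|_V))'` as representations of `G`. -/
noncomputable def dualIso : P V (M.dualTwist χ) ≅ (P V M).dualTwist χ :=
  Rep.mkIso (Representation.Equiv.mk (dualEquiv V M χ) (fun γ => by
    ext F f
    simp only [LinearMap.coe_comp, LinearEquiv.coe_coe, Function.comp_apply]
    rw [dualEquiv_apply, pairing_ρ]
    show _ = ((P V M).dualTwist χ).ρ γ (dualEquiv V M χ F) f
    rw [Rep.dualTwist_ρ_apply]
    simp only [LinearMap.smul_apply, LinearMap.coe_comp, Function.comp_apply, smul_eq_mul]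
    rw [dualEquiv_apply]))

theorem dualIso_hom_apply (F : P V (M.dualTwist χ)) (f : P V M) :
    ((dualIso V M χ).hom.hom F : Module.Dual k (P V M)) f = pairing V M χ F f :=
  dualEquiv_apply V M χ F f

/-! ### The transposed devissage sequence -/

section Field

variable {k G : Type u} [Field k] [Group G] (V : Subgroup G) [V.FiniteIndex] (M : Rep.{u} k G)
  (χ : G →* kˣ)

/-- The transposed devissage sequence `0 ⟶ M' ⟶ (Coind_V (M|_V))' ⟶ K' ⟶ 0`. -/
noncomputable def transposedSeq : ShortComplex (Rep.{u} k G) :=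
  DualTwist.transposeSeq χ (DevissageRep.seq V M)

theorem transposedSeq_shortExact : (transposedSeq V M χ).ShortExact :=
  DualTwist.transposeSeq_shortExact χ (DevissageRep.seq_shortExact V M)

@[simp] theorem transposedSeq_X₁ : (transposedSeq V M χ).X₁ = M.dualTwist χ := rfl
@[simp] theorem transposedSeq_X₂ : (transposedSeq V M χ).X₂ = (P V M).dualTwist χ := rfl
@[simp] theorem transposedSeq_X₃ : (transposedSeq V M χ).X₃ = (K V M).dualTwist χ := rfl
@[simp] theorem transposedSeq_f :
    (transposedSeq V M χ).f = DualTwist.transpose χ (DevissageRep.proj V M) := rfl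
@[simp] theorem transposedSeq_g :
    (transposedSeq V M χ).g = DualTwist.transpose χ (kernel.ι (DevissageRep.proj V M)) := rfl

/-- The middle term of the transposed sequence is again coinduced. -/
noncomputable def transposedSeqX₂Iso :
    (transposedSeq V M χ).X₂ ≅ P V (M.dualTwist χ) :=
  (dualIso V M χ).symm

end Field

end Fermat.Agent.Lib.CFT.Duality.CoindDual
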