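import Fermat.Agent.Lib.CFT.Profinite.CupLevel
import Fermat.Agent.Lib.CFT.Duality.Cone

/-!
# Cup products on the compactly supported cone

For a localisation datum `D`, a pairing `φ : A × B → C` of representations of the global group and
`h : i + j = l`, we define the cup product of a cone cochain of `A` of degree `i` with a global
level cochain of `B` of degree `j`,

  `(a, b) ∪ c = (a ∪ c, b ∪ loc c)`,

prove the Leibniz rule and construct the induced pairing
`D.cupHc φ h : Hⁱ_c(A) →ₗ Hʲ(B) →ₗ Hˡ_c(C)`.
-/

set_option autoImplicit false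
set_option linter.unusedSectionVars false

open CategoryTheory

namespace Fermat.Agent.Lib.CFT.Duality

open Fermat.Agent.Lib.CFT.Profinite Fermat.Agent.Lib.CFT.Profinite.LevelFamily
open Fermat.Agent.Lib.CFT.ConcreteHomology Fermat.Agent.Lib.CFT.Coh.Cup NatCone

namespace LocDatum

variable {k : Type} [CommRing k] {G : Type} [Group G] (D : LocDatum G)
variable {A B C : Rep k G} (φ : Pairing A B C)

/-! ### The cup product on the product of the local complexes -/

section locCup

variable {i j l : ℕ} (h : i + j = l)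

/-- The componentwise cup product on the product of the local level complexes. -/
noncomputable def locCup :
    (D.locComplex A).X i →ₗ[k] (D.locComplex B).X j →ₗ[k] (D.locComplex C).X l :=
  LinearMap.mk₂ k
    (fun b c v => (D.𝒱 v).cupL (φ.res (D.φ v)) h (b v) (c v))
    (fun b b' c => funext fun v => by
      show (D.𝒱 v).cupL (φ.res (D.φ v)) h (b v + b' v) (c v) = _
      rw [map_add, LinearMap.add_apply]
      rfl)
    (fun r b c => funext fun v => by
      show (D.𝒱 v).cupL (φ.res (D.φ v)) h (r • b v) (c v) = _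
      rw [map_smul, LinearMap.smul_apply]
      rfl)
    (fun b c c' => funext fun v => by
      show (D.𝒱 v).cupL (φ.res (D.φ v)) h (b v) (c v + c' v) = _
      rw [map_add]
      rfl)
    (fun r b c => funext fun v => by
      show (D.𝒱 v).cupL (φ.res (D.φ v)) h (b v) (r • c v) = _
      rw [map_smul]
      rfl)

@[simp]
theorem locCup_apply (b : (D.locComplex A).X i) (c : (D.locComplex B).X j) (v : D.ι) :
    D.locCup φ h b c v = (D.𝒱 v).cupL (φ.res (D.φ v)) h (b v) (c v) := rfl

/-- The Leibniz rule on the product of the local complexes. -/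
theorem d_locCup (b : (D.locComplex A).X i) (c : (D.locComplex B).X j) :
    ((D.locComplex C).d l (l + 1)).hom (D.locCup φ h b c) =
      D.locCup φ (show i + 1 + j = l + 1 by omega) (((D.locComplex A).d i (i + 1)).hom b) c +
        (-1 : k) ^ i • D.locCup φ (show i + (j + 1) = l + 1 by omega) b
          (((D.locComplex B).d j (j + 1)).hom c) := by
  funext v
  rw [PiComplex.piComplex_d_apply]
  show _ = D.locCup φ _ (((D.locComplex A).d i (i + 1)).hom b) c v +
    (-1 : k) ^ i • D.locCup φ _ b (((D.locComplex B).d j (j + 1)).hom c) v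
  rw [locCup_apply, locCup_apply, locCup_apply, PiComplex.piComplex_d_apply,
    PiComplex.piComplex_d_apply]
  exact (D.𝒱 v).d_cupL (φ.res (D.φ v)) h (b v) (c v)

/-- Localisation commutes with cup products. -/
theorem locMap_cupL (a : D.𝒰.levelCochains A i) (c : D.𝒰.levelCochains B j) :
    ((D.locMap C).f l).hom (D.𝒰.cupL φ h a c) =
      D.locCup φ h (((D.locMap A).f i).hom a) (((D.locMap B).f j).hom c) := by
  funext v
  rw [locMap_f_apply, locCup_apply, locMap_f_apply, locMap_f_apply]
  exact levelCochainsMap_id_cupL (D.φ v) (D.compat v) φ h a c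

end locCup

/-! ### The cup product on cone cochains -/

/-- The cup product on the shifted local component of the cone. -/
noncomputable def shiftCup : ∀ (i j l : ℕ), i + j = l →
    (shiftObj (D.locComplex A) i →ₗ[k] (D.locComplex B).X j →ₗ[k] shiftObj (D.locComplex C) l)
  | 0, _, _, _ => 0
  | _ + 1, _, 0, _ => 0
  | i + 1, j, l + 1, h => D.locCup φ (show i + j = l by omega)

section coneCup

variable {i j l : ℕ} (h : i + j = l)

/-- The cup product of a cone cochain with a global level cochain:
`(a, b) ∪ c = (a ∪ c, b ∪ loc c)`. -/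
noncomputable def coneCup :
    (D.coneComplex A).X i →ₗ[k] D.𝒰.levelCochains B j →ₗ[k] (D.coneComplex C).X l :=
  (show (D.coneComplex A).X i →ₗ[k] D.𝒰.levelCochains B j →ₗ[k] (D.coneComplex C).X l from
    ((D.𝒰.cupL φ h).comp (natCone.fstL (D.locMap A) i)).compr₂
      (natCone.inlL (D.locMap C) l)) +
  (show (D.coneComplex A).X i →ₗ[k] D.𝒰.levelCochains B j →ₗ[k] (D.coneComplex C).X l from
    (((D.shiftCup φ i j l h).comp
      (LinearMap.snd k ((D.𝒰.levelComplex A).X i) (shiftObj (D.locComplex A) i))).compl₂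
        ((D.locMap B).f j).hom).compr₂
      (LinearMap.inr k ((D.𝒰.levelComplex C).X l) (shiftObj (D.locComplex C) l)))

@[simp]
theorem fstL_coneCup (x : (D.coneComplex A).X i) (c : D.𝒰.levelCochains B j) :
    natCone.fstL (D.locMap C) l (D.coneCup φ h x c) =
      D.𝒰.cupL φ h (natCone.fstL (D.locMap A) i x) c := by
  show (D.𝒰.cupL φ h (natCone.fstL (D.locMap A) i x) c + 0 : D.𝒰.levelCochains C l) = _
  rw [add_zero]

end coneCup

@[simp]
theorem sndL_coneCup_succ {i j l : ℕ} (h : i + 1 + j = l + 1) (x : (D.coneComplex A).X (i + 1))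
    (c : D.𝒰.levelCochains B j) :
    natCone.sndL (D.locMap C) l (D.coneCup φ h x c) =
      D.locCup φ (show i + j = l by omega) (natCone.sndL (D.locMap A) i x)
        (((D.locMap B).f j).hom c) := by
  show (0 + D.locCup φ (show i + j = l by omega) (natCone.sndL (D.locMap A) i x)
        (((D.locMap B).f j).hom c) : (D.locComplex C).X l) = _
  rw [zero_add]

@[simp]
theorem sndL_coneCup_zero {j l : ℕ} (h : 0 + j = l + 1) (x : (D.coneComplex A).X 0)
    (c : D.𝒰.levelCochains B j) :
    natCone.sndL (D.locMap C) l (D.coneCup φ h x c) = 0 := by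
  show (0 + 0 : (D.locComplex C).X l) = 0
  rw [zero_add]

/-- The Leibniz rule for the cup product on the cone: for a cone cochain `x` of degree `i`,
`d (x ∪ c) = d x ∪ c + (-1)ⁱ • (x ∪ d c)`. -/
theorem d_coneCup {i j l : ℕ} (h : i + j = l) (x : (D.coneComplex A).X i)
    (c : D.𝒰.levelCochains B j) :
    ((D.coneComplex C).d l (l + 1)).hom (D.coneCup φ h x c) =
      D.coneCup φ (show i + 1 + j = l + 1 by omega) (((D.coneComplex A).d i (i + 1)).hom x) c +
        (-1 : k) ^ i • D.coneCup φ (show i + (j + 1) = l + 1 by omega) x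
          (((D.𝒰.levelComplex B).d j (j + 1)).hom c) := by
  refine natCone.ext_succ _ ?_ ?_
  · rw [natCone.fstL_d, fstL_coneCup, map_add, map_smul, fstL_coneCup, fstL_coneCup,
      natCone.fstL_d]
    exact D.𝒰.d_cupL φ h _ c
  · rw [map_add, map_smul]
    have hloc : ((D.locMap B).f (j + 1)).hom (((D.𝒰.levelComplex B).d j (j + 1)).hom c) =
        ((D.locComplex B).d j (j + 1)).hom (((D.locMap B).f j).hom c) :=
      comm_apply (D.locMap B) j (show (D.𝒰.levelComplex B).X j from c)
    cases i with
    | zero =>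
      rw [sndL_coneCup_succ, sndL_coneCup_zero, smul_zero, add_zero, natCone.sndL_d_zero]
      cases l with
      | zero =>
        rw [natCone.sndL_d_zero, fstL_coneCup, locMap_cupL]
      | succ l' =>
        rw [natCone.sndL_d_succ, fstL_coneCup, locMap_cupL, sndL_coneCup_zero, map_zero, sub_zero]
    | succ i' =>
      cases l with
      | zero => exfalso; omega
      | succ l' =>
        rw [natCone.sndL_d_succ, fstL_coneCup, locMap_cupL, sndL_coneCup_succ, sndL_coneCup_succ,
          sndL_coneCup_succ, natCone.sndL_d_succ, hloc, d_locCup, map_sub, LinearMap.sub_apply,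
          pow_succ, mul_neg_one]
        module

/-! ### The induced pairing on cohomology -/

section cupHc

variable {i j l : ℕ} (h : i + j = l)

theorem coneCup_mem_Z {x : (D.coneComplex A).X i} {c : D.𝒰.levelCochains B j}
    (hx : x ∈ Z (D.coneComplex A) i) (hc : c ∈ Z (D.𝒰.levelComplex B) j) :
    D.coneCup φ h x c ∈ Z (D.coneComplex C) l := by
  rw [mem_Z_iff] at hx hc ⊢
  rw [d_coneCup, hx, hc, map_zero, LinearMap.zero_apply, map_zero, smul_zero, add_zero]

/-- The cup product on cocycles. -/
noncomputable def coneCupZ :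
    Z (D.coneComplex A) i →ₗ[k] Z (D.𝒰.levelComplex B) j →ₗ[k] Z (D.coneComplex C) l :=
  LinearMap.mk₂ k
    (fun x c => ⟨D.coneCup φ h x.1 c.1, D.coneCup_mem_Z φ h x.2 c.2⟩)
    (fun x x' c => Subtype.ext (by
      show D.coneCup φ h (x.1 + x'.1) c.1 = D.coneCup φ h x.1 c.1 + D.coneCup φ h x'.1 c.1
      rw [map_add, LinearMap.add_apply]))
    (fun r x c => Subtype.ext (by
      show D.coneCup φ h (r • x.1) c.1 = r • D.coneCup φ h x.1 c.1
      rw [map_smul, LinearMap.smul_apply]))
    (fun x c c' => Subtype.ext (by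
      show D.coneCup φ h x.1 (c.1 + c'.1) = D.coneCup φ h x.1 c.1 + D.coneCup φ h x.1 c'.1
      rw [map_add]))
    (fun r x c => Subtype.ext (by
      show D.coneCup φ h x.1 (r • c.1) = r • D.coneCup φ h x.1 c.1
      rw [map_smul]))

@[simp]
theorem coneCupZ_coe (x : Z (D.coneComplex A) i) (c : Z (D.𝒰.levelComplex B) j) :
    (D.coneCupZ φ h x c).1 = D.coneCup φ h x.1 c.1 := rfl

/-- A coboundary cupped with a cocycle is a coboundary. -/
theorem classOf_coneCupZ_eq_zero_left (x : Z (D.coneComplex A) i) (c : Z (D.𝒰.levelComplex B) j)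
    (hx : classOf (D.coneComplex A) i x = 0) : classOf (D.coneComplex C) l (D.coneCupZ φ h x c) = 0 := by
  cases i with
  | zero =>
    rw [(classOf_eq_zero_iff_zero _ x).1 hx, map_zero, LinearMap.zero_apply, map_zero]
  | succ i' =>
    obtain ⟨w, hw⟩ := (classOf_eq_zero_iff_succ _ i' x).1 hx
    cases l with
    | zero => exfalso; omega
    | succ l' =>
      rw [classOf_eq_zero_iff_succ]
      refine ⟨D.coneCup φ (show i' + j = l' by omega) w c.1, ?_⟩
      have hc : ((D.𝒰.levelComplex B).d j (j + 1)).hom c.1 = 0 := c.2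
      rw [d_coneCup, hw, hc, map_zero, smul_zero, add_zero]
      rfl

/-- A cocycle cupped with a coboundary is a coboundary. -/
theorem classOf_coneCupZ_eq_zero_right (x : Z (D.coneComplex A) i) (c : Z (D.𝒰.levelComplex B) j)
    (hc : classOf (D.𝒰.levelComplex B) j c = 0) :
    classOf (D.coneComplex C) l (D.coneCupZ φ h x c) = 0 := by
  cases j with
  | zero =>
    rw [(classOf_eq_zero_iff_zero _ c).1 hc, map_zero, map_zero]
  | succ j' =>
    obtain ⟨e, he⟩ := (classOf_eq_zero_iff_succ _ j' c).1 hc
    cases l with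
    | zero => exfalso; omega
    | succ l' =>
      rw [classOf_eq_zero_iff_succ]
      refine ⟨(-1 : k) ^ i • D.coneCup φ (show i + j' = l' by omega) x.1 e, ?_⟩
      have hx : ((D.coneComplex A).d i (i + 1)).hom x.1 = 0 := x.2
      rw [map_smul, d_coneCup, hx, map_zero, LinearMap.zero_apply, zero_add, he, smul_smul,
        ← mul_pow, neg_one_mul, neg_neg, one_pow, one_smul]
      rfl

/-- The cup product `Hⁱ_c(A) × Hʲ(B) → Hˡ_c(C)`. -/
noncomputable def cupHc :
    D.Hc A i →ₗ[k] D.𝒰.levelCohomology B j →ₗ[k] D.Hc C l :=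
  descH (K := D.coneComplex A) (n := i)
    (LinearMap.flip (descH (K := D.𝒰.levelComplex B) (n := j)
      (LinearMap.flip ((D.coneCupZ φ h).compr₂ (classOf (D.coneComplex C) l)))
      (fun c hc => LinearMap.ext fun x => D.classOf_coneCupZ_eq_zero_right φ h x c hc)))
    (fun x hx => LinearMap.ext fun y => by
      obtain ⟨c, rfl⟩ := classOf_surjective (D.𝒰.levelComplex B) j y
      rw [LinearMap.flip_apply, descH_classOf]
      exact D.classOf_coneCupZ_eq_zero_left φ h x c hx)

theorem cupHc_classOf (x : Z (D.coneComplex A) i) (c : Z (D.𝒰.levelComplex B) j) :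
    D.cupHc φ h (classOf (D.coneComplex A) i x) (classOf (D.𝒰.levelComplex B) j c) =
      classOf (D.coneComplex C) l (D.coneCupZ φ h x c) := by
  unfold cupHc
  rw [descH_classOf, LinearMap.flip_apply, descH_classOf]
  rfl

end cupHc

/-! ### Compatibility with the maps of the long exact sequence -/

section compat

variable {i j l : ℕ} (h : i + j = l)

/-- (C1b) The forgetful map `H_c → H` is compatible with cup products. -/
theorem HcToGlobal_cupHc (x : D.Hc A i) (y : D.𝒰.levelCohomology B j) :
    D.HcToGlobal C l (D.cupHc φ h x y) = D.𝒰.cupH φ h (D.HcToGlobal A i x) y := by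
  obtain ⟨x, rfl⟩ := classOf_surjective (D.coneComplex A) i x
  obtain ⟨c, rfl⟩ := classOf_surjective (D.𝒰.levelComplex B) j y
  rw [cupHc_classOf]
  unfold HcToGlobal
  rw [homologyMap_classOf, homologyMap_classOf, cupH_classOf]
  congr 1
  apply Subtype.ext
  rw [mapZ_coe, natCone.fst_f_apply, coneCupZ_coe, fstL_coneCup]
  rfl

/-- (C1) Cup products of classes coming from the local cohomology groups are computed by the
local cup products. -/
theorem cupHc_HcOfLocal (x : D.locH A i) (y : D.𝒰.levelCohomology B j) :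
    D.cupHc φ (show i + 1 + j = l + 1 by omega) (D.HcOfLocal A i x) y =
      D.HcOfLocal C l (fun v => (D.𝒱 v).cupH (φ.res (D.φ v)) h (x v) (D.locMapHAt B j v y)) := by
  obtain ⟨c, rfl⟩ := classOf_surjective (D.𝒰.levelComplex B) j y
  have hz : ∀ v, ∃ z : Z ((D.𝒱 v).levelComplex (D.resRep A v)) i,
      classOf _ i z = x v := fun v => classOf_surjective _ i (x v)
  choose z hz using hz
  obtain rfl : (fun v => classOf _ i (z v)) = x := funext hz
  have e1 : D.HcOfLocal A i (fun v => classOf _ i (z v)) =
      classOf (D.coneComplex A) (i + 1) (natCone.inrZ (D.locMap A) i (PiComplex.zMk _ z)) := by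
    unfold HcOfLocal locHEquiv
    rw [LinearMap.comp_apply, LinearEquiv.coe_coe, PiComplex.homologyPiEquiv_symm_classOf,
      natCone.bdry_classOf]
  rw [e1, cupHc_classOf]
  have e2 : ∀ v, (D.𝒱 v).cupH (φ.res (D.φ v)) h (classOf _ i (z v))
      (D.locMapHAt B j v (classOf (D.𝒰.levelComplex B) j c)) =
      classOf ((D.𝒱 v).levelComplex (D.resRep C v)) l
        ⟨(D.𝒱 v).cupL (φ.res (D.φ v)) h (z v).1 (mapZ (D.locMapAt B v) j c).1,
          (D.𝒱 v).cupL_mem_Z (φ.res (D.φ v)) h (z v).2 (mapZ (D.locMapAt B v) j c).2⟩ := by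
    intro v
    unfold locMapHAt levelCohomologyMapOfHom
    rw [homologyMap_classOf, cupH_classOf]
  rw [funext e2]
  unfold HcOfLocal locHEquiv
  rw [LinearMap.comp_apply, LinearEquiv.coe_coe, PiComplex.homologyPiEquiv_symm_classOf,
    natCone.bdry_classOf]
  congr 1
  apply Subtype.ext
  rw [coneCupZ_coe, natCone.inrZ_coe, natCone.inrZ_coe]
  refine natCone.ext_succ _ ?_ ?_
  · rw [fstL_coneCup, natCone.fstL_inrL, natCone.fstL_inrL, map_zero, LinearMap.zero_apply]
  · rw [sndL_coneCup_succ, natCone.sndL_inrL, natCone.sndL_inrL]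
    rfl

end compat

end LocDatum

end Fermat.Agent.Lib.CFT.Duality
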