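import Fermat.Agent.Lib.CFT.Duality.ConeCupNat
import Fermat.Agent.Lib.CFT.Profinite.CupZero

/-!
# Cup products `Hⁱ_c(A) × H⁰(B) → Hⁱ_c(C)`

Cup product with the class of an invariant `b ∈ B^G` is the map induced by the morphism
`φ(·, b) : A ⟶ C`.  For the evaluation pairing this says that `x ∪ f = HcMap f x` for an
equivariant homomorphism `f : M → k(χ)` viewed as an invariant of `M.dualTwist χ`.
-/

set_option autoImplicit false
set_option linter.unusedSectionVars false

open CategoryTheory groupCohomology

namespace Fermat.Agent.Lib.CFT.Duality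

open Fermat.Agent.Lib.CFT.Profinite Fermat.Agent.Lib.CFT.Profinite.LevelFamily
open Fermat.Agent.Lib.CFT.ConcreteHomology Fermat.Agent.Lib.CFT.Coh.Cup NatCone

namespace LocDatum

variable {k : Type} [CommRing k] {G : Type} [Group G] (D : LocDatum G)
variable {A B C : Rep k G} (φ : Pairing A B C)

/-- The constant level `0`-cochain attached to an invariant. -/
def constCochain (b : B.ρ.invariants) : D.𝒰.levelCochains B 0 :=
  ⟨fun _ => b.1, (D.𝒰.isLevelCocycle_const B b).1⟩

theorem constCochain_mem_Z (b : B.ρ.invariants) :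
    D.constCochain b ∈ Z (D.𝒰.levelComplex B) 0 :=
  (D.𝒰.mem_Z_iff_isLevelCocycle _).2 (D.𝒰.isLevelCocycle_const B b)

theorem H0Equiv_symm_eq_classOf (b : B.ρ.invariants) :
    (D.𝒰.H0Equiv B).symm b =
      classOf (D.𝒰.levelComplex B) 0 ⟨D.constCochain b, D.constCochain_mem_Z b⟩ := by
  rw [H0Equiv_symm_apply, cls_eq_classOf]
  rfl

/-- Cup product of a level cochain with a constant `0`-cochain. -/
theorem cupL_constCochain {m : ℕ} (h : m + 0 = m) (b : B.ρ.invariants)
    (a : D.𝒰.levelCochains A m) :
    D.𝒰.cupL φ h a (D.constCochain b) =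
      ((D.𝒰.levelComplexFunctor.map (φ.evalRight b)).f m).hom a :=
  Subtype.ext (cupTo_const_right φ h b a.1)

/-- Cup product on the product of the local complexes with a constant `0`-cochain. -/
theorem locCup_constCochain {m : ℕ} (h : m + 0 = m) (b : B.ρ.invariants)
    (e : (D.locComplex A).X m) :
    D.locCup φ h e (((D.locMap B).f 0).hom (D.constCochain b)) =
      ((D.locComplexMap (φ.evalRight b)).f m).hom e := by
  funext v
  apply Subtype.ext
  have hb : ∀ s : D.H v, (D.resRep B v).ρ s b.1 = b.1 := fun s => b.2 (D.φ v s)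
  have := cupTo_const_right (φ.res (D.φ v)) h ⟨b.1, hb⟩ (e v).1
  refine Eq.trans ?_ (this.trans ?_)
  · rfl
  · rfl

/-- Cup product of a cone cochain with a constant `0`-cochain. -/
theorem coneCup_constCochain {i : ℕ} (h : i + 0 = i) (b : B.ρ.invariants)
    (x : (D.coneComplex A).X i) :
    D.coneCup φ h x (D.constCochain b) = ((D.coneMap (φ.evalRight b)).f i).hom x := by
  have hfst : natCone.fstL (D.locMap C) i (D.coneCup φ h x (D.constCochain b)) =
      natCone.fstL (D.locMap C) i (((D.coneMap (φ.evalRight b)).f i).hom x) :=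
    (D.fstL_coneCup φ h x _).trans (D.cupL_constCochain φ h b _)
  cases i with
  | zero => exact natCone.ext_zero _ hfst
  | succ i' =>
    refine natCone.ext_succ _ hfst ?_
    exact (D.sndL_coneCup_succ φ h x _).trans (D.locCup_constCochain φ _ b _)

/-- Cup product with the class of an invariant is the map induced by `φ(·, b) : A ⟶ C`. -/
theorem cupHc_H0 {i : ℕ} (h : i + 0 = i) (x : D.Hc A i) (b : B.ρ.invariants) :
    D.cupHc φ h x ((D.𝒰.H0Equiv B).symm b) = D.HcMap (φ.evalRight b) i x := by
  obtain ⟨z, rfl⟩ := classOf_surjective (D.coneComplex A) i x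
  rw [H0Equiv_symm_eq_classOf, cupHc_classOf]
  refine Eq.trans ?_ (homologyMap_classOf (D.coneMap (φ.evalRight b)) i z).symm
  congr 1
  apply Subtype.ext
  exact D.coneCup_constCochain φ h b z.1

end LocDatum

end Fermat.Agent.Lib.CFT.Duality
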