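import Mathlib

/-!
# Abstract descending devissage (four-lemma chase)

Let `Obj` be a collection of "coefficient modules", `F0 F1 G0 G1 : Obj → Type` four families of
additive groups (think of `F0 = F^{n-1}`, `F1 = F^n`, `G0 = G^{n-1}`, `G1 = G^n` for two
cohomological delta-functors with `F^{n+1} = 0 = G^{n+1}`), and `β0 M : F0 M →+ G0 M`,
`β1 M : F1 M →+ G1 M` two families of comparison maps.

A *devissage step* for `M` consists of two further objects `K` ("kernel") and `P` ("induced")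
together with two exact rows

  `F0 K → F0 P → F0 M → F1 K → F1 P → F1 M → 0`
  `G0 K → G0 P → G0 M → G1 K → G1 P → G1 M → 0`

such that the comparison maps form a commutative ladder (the square with the connecting maps is
allowed to commute up to a sign), and `β0 P`, `β1 P` are bijective.

`Devissage.bijective` : if every object admits a devissage step, then `β0 M` and `β1 M` are
bijective for every `M`.

No finiteness and no induction is needed: the chase is uniform in `M`.

We also provide the linear-map version `Devissage.bijective_linear` and the exactness of the dual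
of an exact sequence of vector spaces `Devissage.exact_dualMap`.
-/

set_option autoImplicit false

namespace Fermat.Agent.Lib.CFT.Duality.Devissage

universe u v₀ v₁ w₀ w₁

section AddMonoidHom

variable {Obj : Type u} (F0 : Obj → Type v₀) (F1 : Obj → Type v₁) (G0 : Obj → Type w₀)
  (G1 : Obj → Type w₁)
  [∀ M, AddCommGroup (F0 M)] [∀ M, AddCommGroup (F1 M)]
  [∀ M, AddCommGroup (G0 M)] [∀ M, AddCommGroup (G1 M)]
  (β0 : ∀ M, F0 M →+ G0 M) (β1 : ∀ M, F1 M →+ G1 M)

/-- One devissage step for the object `M`. -/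
structure Step (M : Obj) where
  /-- the kernel object -/
  K : Obj
  /-- the induced object -/
  P : Obj
  /-- top row -/
  f0 : F0 K →+ F0 P
  g0 : F0 P →+ F0 M
  d : F0 M →+ F1 K
  f1 : F1 K →+ F1 P
  g1 : F1 P →+ F1 M
  /-- bottom row -/
  f0' : G0 K →+ G0 P
  g0' : G0 P →+ G0 M
  d' : G0 M →+ G1 K
  f1' : G1 K →+ G1 P
  g1' : G1 P →+ G1 M
  /-- exactness of the top row -/
  exact_f0_g0 : Function.Exact f0 g0
  exact_g0_d : Function.Exact g0 d
  exact_d_f1 : Function.Exact d f1
  exact_f1_g1 : Function.Exact f1 g1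
  surj_g1 : Function.Surjective g1
  /-- exactness of the bottom row -/
  exact_f0'_g0' : Function.Exact f0' g0'
  exact_g0'_d' : Function.Exact g0' d'
  exact_d'_f1' : Function.Exact d' f1'
  exact_f1'_g1' : Function.Exact f1' g1'
  surj_g1' : Function.Surjective g1'
  /-- the ladder commutes -/
  comm_f0 : ∀ x, β0 P (f0 x) = f0' (β0 K x)
  comm_g0 : ∀ x, β0 M (g0 x) = g0' (β0 P x)
  /-- the square with the connecting maps commutes up to a sign -/
  comm_d : (∀ x, β1 K (d x) = d' (β0 M x)) ∨ (∀ x, β1 K (d x) = -d' (β0 M x))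
  comm_f1 : ∀ x, β1 P (f1 x) = f1' (β1 K x)
  comm_g1 : ∀ x, β1 M (g1 x) = g1' (β1 P x)
  /-- the comparison maps are bijective on the induced object -/
  bij0 : Function.Bijective (β0 P)
  bij1 : Function.Bijective (β1 P)

variable {F0 F1 G0 G1 β0 β1}

namespace Step

variable {M : Obj} (S : Step F0 F1 G0 G1 β0 β1 M)

include S in
theorem surjective_one : Function.Surjective (β1 M) := by
  intro z'
  obtain ⟨y', rfl⟩ := S.surj_g1' z'
  obtain ⟨y, rfl⟩ := S.bij1.2 y'
  exact ⟨S.g1 y, S.comm_g1 y⟩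

include S in
theorem injective_one (hK : Function.Surjective (β1 S.K)) : Function.Injective (β1 M) := by
  rw [injective_iff_map_eq_zero]
  intro z hz
  obtain ⟨y, rfl⟩ := S.surj_g1 z
  rw [S.comm_g1] at hz
  obtain ⟨x', hx'⟩ := (S.exact_f1'_g1' _).1 hz
  obtain ⟨x, rfl⟩ := hK x'
  rw [← S.comm_f1] at hx'
  have := S.bij1.1 hx'
  rw [← this]
  exact (S.exact_f1_g1 _).2 ⟨x, rfl⟩

include S in
theorem d'_comp_eq (z : F0 M) :
    S.d' (β0 M z) = β1 S.K (S.d z) ∨ S.d' (β0 M z) = -β1 S.K (S.d z) := by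
  rcases S.comm_d with h | h
  · exact Or.inl (h z).symm
  · exact Or.inr (by rw [h z, neg_neg])

include S in
theorem surjective_zero (hK : Function.Bijective (β1 S.K)) : Function.Surjective (β0 M) := by
  intro z'
  obtain ⟨x, hx⟩ := hK.2 (S.d' z')
  have h1 : S.f1 x = 0 := by
    apply S.bij1.1
    rw [S.comm_f1, hx, map_zero]
    exact (S.exact_d'_f1' _).2 ⟨z', rfl⟩
  obtain ⟨z, rfl⟩ := (S.exact_d_f1 _).1 h1
  -- adjust the sign
  obtain ⟨z₂, hz₂⟩ : ∃ z₂ : F0 M, S.d' (β0 M z₂) = S.d' z' := by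
    rcases S.comm_d with h | h
    · exact ⟨z, by rw [← h, hx]⟩
    · exact ⟨-z, by rw [map_neg, map_neg, ← hx, h z]⟩
  have h2 : S.d' (z' - β0 M z₂) = 0 := by rw [map_sub, hz₂, sub_self]
  obtain ⟨y', hy'⟩ := (S.exact_g0'_d' _).1 h2
  obtain ⟨y, rfl⟩ := S.bij0.2 y'
  refine ⟨z₂ + S.g0 y, ?_⟩
  rw [map_add, S.comm_g0, hy']
  abel

include S in
theorem injective_zero (hK1 : Function.Injective (β1 S.K))
    (hK0 : Function.Surjective (β0 S.K)) : Function.Injective (β0 M) := by
  rw [injective_iff_map_eq_zero]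
  intro z hz
  have h1 : S.d z = 0 := by
    apply hK1
    rw [map_zero]
    rcases S.comm_d with h | h
    · rw [h, hz, map_zero]
    · rw [h, hz, map_zero, neg_zero]
  obtain ⟨y, rfl⟩ := (S.exact_g0_d _).1 h1
  rw [S.comm_g0] at hz
  obtain ⟨x', hx'⟩ := (S.exact_f0'_g0' _).1 hz
  obtain ⟨x, rfl⟩ := hK0 x'
  rw [← S.comm_f0] at hx'
  have := S.bij0.1 hx'
  rw [← this]
  exact (S.exact_f0_g0 _).2 ⟨x, rfl⟩

end Step

/-- **Descending devissage.** If every object admits a devissage step, both comparison maps are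
bijective on every object. -/
theorem bijective (h : ∀ M : Obj, Nonempty (Step F0 F1 G0 G1 β0 β1 M)) (M : Obj) :
    Function.Bijective (β0 M) ∧ Function.Bijective (β1 M) := by
  have s1 : ∀ M, Function.Surjective (β1 M) := fun M => (h M).some.surjective_one
  have b1 : ∀ M, Function.Bijective (β1 M) := fun M =>
    ⟨(h M).some.injective_one (s1 _), s1 M⟩
  have s0 : ∀ M, Function.Surjective (β0 M) := fun M => (h M).some.surjective_zero (b1 _)
  exact ⟨⟨(h M).some.injective_zero (b1 _).1 (s0 _), s0 M⟩, b1 M⟩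

end AddMonoidHom

section Linear

variable {Obj : Type u} {R : Type*} [Ring R] (F0 : Obj → Type v₀) (F1 : Obj → Type v₁)
  (G0 : Obj → Type w₀) (G1 : Obj → Type w₁)
  [∀ M, AddCommGroup (F0 M)] [∀ M, AddCommGroup (F1 M)]
  [∀ M, AddCommGroup (G0 M)] [∀ M, AddCommGroup (G1 M)]
  [∀ M, Module R (F0 M)] [∀ M, Module R (F1 M)] [∀ M, Module R (G0 M)] [∀ M, Module R (G1 M)]
  (β0 : ∀ M, F0 M →ₗ[R] G0 M) (β1 : ∀ M, F1 M →ₗ[R] G1 M)

/-- One devissage step for the object `M`, linear version. -/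
structure LinearStep (M : Obj) where
  /-- the kernel object -/
  K : Obj
  /-- the induced object -/
  P : Obj
  /-- top row -/
  f0 : F0 K →ₗ[R] F0 P
  g0 : F0 P →ₗ[R] F0 M
  d : F0 M →ₗ[R] F1 K
  f1 : F1 K →ₗ[R] F1 P
  g1 : F1 P →ₗ[R] F1 M
  /-- bottom row -/
  f0' : G0 K →ₗ[R] G0 P
  g0' : G0 P →ₗ[R] G0 M
  d' : G0 M →ₗ[R] G1 K
  f1' : G1 K →ₗ[R] G1 P
  g1' : G1 P →ₗ[R] G1 M
  /-- exactness of the top row -/
  exact_f0_g0 : Function.Exact f0 g0
  exact_g0_d : Function.Exact g0 d
  exact_d_f1 : Function.Exact d f1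
  exact_f1_g1 : Function.Exact f1 g1
  surj_g1 : Function.Surjective g1
  /-- exactness of the bottom row -/
  exact_f0'_g0' : Function.Exact f0' g0'
  exact_g0'_d' : Function.Exact g0' d'
  exact_d'_f1' : Function.Exact d' f1'
  exact_f1'_g1' : Function.Exact f1' g1'
  surj_g1' : Function.Surjective g1'
  /-- the ladder commutes -/
  comm_f0 : ∀ x, β0 P (f0 x) = f0' (β0 K x)
  comm_g0 : ∀ x, β0 M (g0 x) = g0' (β0 P x)
  /-- the square with the connecting maps commutes up to a sign -/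
  comm_d : (∀ x, β1 K (d x) = d' (β0 M x)) ∨ (∀ x, β1 K (d x) = -d' (β0 M x))
  comm_f1 : ∀ x, β1 P (f1 x) = f1' (β1 K x)
  comm_g1 : ∀ x, β1 M (g1 x) = g1' (β1 P x)
  /-- the comparison maps are bijective on the induced object -/
  bij0 : Function.Bijective (β0 P)
  bij1 : Function.Bijective (β1 P)

variable {F0 F1 G0 G1 β0 β1}

/-- Forget linearity. -/
def LinearStep.toStep {M : Obj} (S : LinearStep F0 F1 G0 G1 β0 β1 M) :
    Step F0 F1 G0 G1 (fun M => (β0 M).toAddMonoidHom) (fun M => (β1 M).toAddMonoidHom) M where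
  K := S.K
  P := S.P
  f0 := S.f0.toAddMonoidHom
  g0 := S.g0.toAddMonoidHom
  d := S.d.toAddMonoidHom
  f1 := S.f1.toAddMonoidHom
  g1 := S.g1.toAddMonoidHom
  f0' := S.f0'.toAddMonoidHom
  g0' := S.g0'.toAddMonoidHom
  d' := S.d'.toAddMonoidHom
  f1' := S.f1'.toAddMonoidHom
  g1' := S.g1'.toAddMonoidHom
  exact_f0_g0 := S.exact_f0_g0
  exact_g0_d := S.exact_g0_d
  exact_d_f1 := S.exact_d_f1
  exact_f1_g1 := S.exact_f1_g1
  surj_g1 := S.surj_g1
  exact_f0'_g0' := S.exact_f0'_g0'
  exact_g0'_d' := S.exact_g0'_d'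
  exact_d'_f1' := S.exact_d'_f1'
  exact_f1'_g1' := S.exact_f1'_g1'
  surj_g1' := S.surj_g1'
  comm_f0 := S.comm_f0
  comm_g0 := S.comm_g0
  comm_d := S.comm_d
  comm_f1 := S.comm_f1
  comm_g1 := S.comm_g1
  bij0 := S.bij0
  bij1 := S.bij1

/-- **Descending devissage**, linear version. -/
theorem bijective_linear (h : ∀ M : Obj, Nonempty (LinearStep F0 F1 G0 G1 β0 β1 M)) (M : Obj) :
    Function.Bijective (β0 M) ∧ Function.Bijective (β1 M) :=
  bijective (β0 := fun M => (β0 M).toAddMonoidHom) (β1 := fun M => (β1 M).toAddMonoidHom)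
    (fun M => ⟨(h M).some.toStep⟩) M

end Linear

section Dual

variable {k : Type*} [Field k] {A B C : Type*} [AddCommGroup A] [AddCommGroup B] [AddCommGroup C]
  [Module k A] [Module k B] [Module k C]

/-- The dual of an exact sequence of vector spaces is exact. -/
theorem exact_dualMap {f : A →ₗ[k] B} {g : B →ₗ[k] C} (h : Function.Exact f g) :
    Function.Exact g.dualMap f.dualMap := by
  intro φ
  constructor
  · intro hφ
    -- `φ` vanishes on `range f = ker g`, hence factors through `g`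
    have hker : LinearMap.ker g ≤ LinearMap.ker φ := by
      intro b hb
      obtain ⟨a, rfl⟩ := (h b).1 hb
      exact LinearMap.congr_fun hφ a
    -- extend `φ ∘ g⁻¹` from `range g` to `C`
    obtain ⟨ψ0, hψ0⟩ : ∃ ψ0 : LinearMap.range g →ₗ[k] k, ∀ b, ψ0 ⟨g b, ⟨b, rfl⟩⟩ = φ b := by
      let e := g.quotKerEquivRange
      refine ⟨((LinearMap.ker g).liftQ φ hker) ∘ₗ e.symm.toLinearMap, fun b => ?_⟩
      have : e.symm ⟨g b, ⟨b, rfl⟩⟩ = Submodule.Quotient.mk b := by
        rw [LinearEquiv.symm_apply_eq]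
        rfl
      simp [this]
    obtain ⟨ψ, hψ⟩ := LinearMap.exists_extend ψ0
    refine ⟨ψ, ?_⟩
    ext b
    have := LinearMap.congr_fun hψ ⟨g b, ⟨b, rfl⟩⟩
    simpa [hψ0] using this
  · rintro ⟨ψ, rfl⟩
    ext a
    simp [h.apply_apply_eq_zero a]

/-- The dual of an injective linear map of vector spaces is surjective. -/
theorem dualMap_surjective_of_injective' {f : A →ₗ[k] B} (hf : Function.Injective f) :
    Function.Surjective f.dualMap :=
  LinearMap.dualMap_surjective_of_injective hf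

end Dual

end Fermat.Agent.Lib.CFT.Duality.Devissage
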