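import Fermat.Agent.Lib.CFT.Duality.DevissageRep
import Fermat.Agent.Lib.CFT.Duality.Devissage
import Fermat.Prelude.Def_GroupCohomology_Selmer

set_option autoImplicit false

universe u

open CategoryTheory CategoryTheory.Limits Fermat.Agent.Lib.CFT.Profinite

namespace Fermat.Agent.Lib.CFT.Duality.DualTwist

variable {k G : Type u} [Field k] [Group G] (χ : G →* kˣ)

/-- The transpose of a morphism of representations, between the twisted duals. -/
noncomputable def transpose {A B : Rep.{u} k G} (f : A ⟶ B) : B.dualTwist χ ⟶ A.dualTwist χ :=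
  Rep.ofHom ⟨f.hom.toLinearMap.dualMap, fun g => by
    ext φ a
    simp only [LinearMap.coe_comp, Function.comp_apply, LinearMap.dualMap_apply]
    show ((B.dualTwist χ).ρ g φ) (f.hom a) = ((A.dualTwist χ).ρ g (φ ∘ₗ f.hom.toLinearMap)) a
    rw [Rep.dualTwist_ρ_apply, Rep.dualTwist_ρ_apply]
    simp only [LinearMap.smul_apply, LinearMap.coe_comp, Function.comp_apply]
    congr 2
    exact (Rep.hom_comm_apply f g⁻¹ a).symm⟩

@[simp]
theorem transpose_hom_apply {A B : Rep.{u} k G} (f : A ⟶ B) (φ : B.dualTwist χ) (a : A) :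
    ((transpose χ f).hom φ : Module.Dual k A) a = (φ : Module.Dual k B) (f.hom a) := rfl

theorem transpose_hom_toLinearMap {A B : Rep.{u} k G} (f : A ⟶ B) :
    (transpose χ f).hom.toLinearMap = f.hom.toLinearMap.dualMap := rfl

theorem transpose_id (A : Rep.{u} k G) : transpose χ (𝟙 A) = 𝟙 (A.dualTwist χ) := by
  ext φ a
  rfl

theorem transpose_comp {A B C : Rep.{u} k G} (f : A ⟶ B) (g : B ⟶ C) :
    transpose χ (f ≫ g) = transpose χ g ≫ transpose χ f := by
  ext φ a
  rfl

theorem transpose_zero {A B : Rep.{u} k G} : transpose χ (0 : A ⟶ B) = 0 := by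
  ext φ a
  simp [transpose]

theorem transpose_add {A B : Rep.{u} k G} (f g : A ⟶ B) :
    transpose χ (f + g) = transpose χ f + transpose χ g := by
  ext φ a
  simp only [Rep.add_hom, transpose, Rep.hom_ofHom]
  show φ ((f.hom + g.hom) a) = φ (f.hom a) + φ (g.hom a)
  rw [← map_add]
  rfl

theorem transpose_sum {ι : Type*} (s : Finset ι) {A B : Rep.{u} k G} (f : ι → (A ⟶ B)) :
    transpose χ (∑ j ∈ s, f j) = ∑ j ∈ s, transpose χ (f j) := by
  classical
  induction s using Finset.induction_on with
  | empty => simp [transpose_zero]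
  | insert j s hj ih => rw [Finset.sum_insert hj, Finset.sum_insert hj, transpose_add, ih]

theorem transpose_injective_of_surjective {A B : Rep.{u} k G} (f : A ⟶ B)
    (hf : Function.Surjective f.hom) : Function.Injective (transpose χ f).hom :=
  LinearMap.dualMap_injective_of_surjective (f := f.hom.toLinearMap) hf

theorem transpose_surjective_of_injective {A B : Rep.{u} k G} (f : A ⟶ B)
    (hf : Function.Injective f.hom) : Function.Surjective (transpose χ f).hom :=
  LinearMap.dualMap_surjective_of_injective (f := f.hom.toLinearMap) hf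

/-- The transposed short complex `X₃' ⟶ X₂' ⟶ X₁'`. -/
noncomputable def transposeSeq (X : ShortComplex (Rep.{u} k G)) : ShortComplex (Rep.{u} k G) :=
  ShortComplex.mk (transpose χ X.g) (transpose χ X.f) (by
    rw [← transpose_comp, X.zero, transpose_zero])

@[simp] theorem transposeSeq_X₁ (X : ShortComplex (Rep.{u} k G)) :
    (transposeSeq χ X).X₁ = X.X₃.dualTwist χ := rfl
@[simp] theorem transposeSeq_X₂ (X : ShortComplex (Rep.{u} k G)) :
    (transposeSeq χ X).X₂ = X.X₂.dualTwist χ := rfl
@[simp] theorem transposeSeq_X₃ (X : ShortComplex (Rep.{u} k G)) :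
    (transposeSeq χ X).X₃ = X.X₁.dualTwist χ := rfl
@[simp] theorem transposeSeq_f (X : ShortComplex (Rep.{u} k G)) :
    (transposeSeq χ X).f = transpose χ X.g := rfl
@[simp] theorem transposeSeq_g (X : ShortComplex (Rep.{u} k G)) :
    (transposeSeq χ X).g = transpose χ X.f := rfl

theorem function_exact_of_shortExact {X : ShortComplex (Rep.{u} k G)} (hX : X.ShortExact) :
    Function.Exact X.f.hom X.g.hom := by
  have hrk : LinearMap.range X.f.hom.toLinearMap = LinearMap.ker X.g.hom.toLinearMap :=
    (hX.exact.map (forget₂ (Rep k G) (ModuleCat k))).moduleCat_range_eq_ker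
  intro y
  constructor
  · intro hy
    have : y ∈ LinearMap.ker X.g.hom.toLinearMap := hy
    rw [← hrk] at this
    exact this
  · rintro ⟨x, rfl⟩
    have : X.f.hom.toLinearMap x ∈ LinearMap.ker X.g.hom.toLinearMap := by
      rw [← hrk]; exact ⟨x, rfl⟩
    exact this

theorem transposeSeq_shortExact {X : ShortComplex (Rep.{u} k G)} (hX : X.ShortExact) :
    (transposeSeq χ X).ShortExact where
  exact := by
    rw [← ShortComplex.exact_map_iff_of_faithful _ (forget₂ (Rep k G) (ModuleCat k)),
      ShortComplex.moduleCat_exact_iff_range_eq_ker]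
    have h := Devissage.exact_dualMap (function_exact_of_shortExact hX)
      (f := X.f.hom.toLinearMap) (g := X.g.hom.toLinearMap)
    exact (LinearMap.exact_iff.1 h).symm
  mono_f := (Rep.mono_iff_injective _).2
    (transpose_injective_of_surjective χ X.g ((Rep.epi_iff_surjective _).1 hX.epi_g))
  epi_g := (Rep.epi_iff_surjective _).2
    (transpose_surjective_of_injective χ X.f ((Rep.mono_iff_injective _).1 hX.mono_f))


/-! ### Finiteness, discreteness, double dual -/

instance finite_dualTwist [Finite k] (A : Rep.{u} k G) [Finite A] : Finite (A.dualTwist χ) :=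
  Finite.of_injective (fun φ : Module.Dual k A => (φ : A → k)) DFunLike.coe_injective

/-- The twisted dual of a finite discrete module is discrete, if the character is trivial on
some level. -/
theorem isDiscrete_dualTwist (𝒰 : LevelFamily G) (A : Rep.{u} k G) [Finite A]
    (hA : 𝒰.IsDiscrete A) (hχ : ∃ U ∈ 𝒰.levels, ∀ s ∈ U, χ s = 1) :
    𝒰.IsDiscrete (A.dualTwist χ) := by
  obtain ⟨W, hW, -, hfix⟩ := DevissageRep.exists_normal_level_acting_trivially 𝒰 hA
  obtain ⟨U, hU, hχU⟩ := hχ
  obtain ⟨W', hW', h1, h2, -⟩ := 𝒰.exists_normal_le_inf hW hU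
  intro φ
  refine ⟨W', hW', fun s hs => ?_⟩
  rw [Rep.dualTwist_ρ_apply, hχU s (h2 hs)]
  ext a
  simp only [Units.val_one, one_smul, LinearMap.coe_comp, Function.comp_apply]
  rw [hfix s⁻¹ (W.inv_mem (h1 hs)) a]

/-- The evaluation isomorphism `A ≅ A''` for a finite dimensional representation. -/
noncomputable def evalIso (A : Rep.{u} k G) [FiniteDimensional k A] :
    A ≅ (A.dualTwist χ).dualTwist χ :=
  (Rep.mkIso (ρ := A.ρ) (σ := ((A.dualTwist χ).dualTwist χ).ρ)
    (Representation.Equiv.mk (Module.evalEquiv k A) (fun g => by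
      ext a φ
      simp only [LinearMap.coe_comp, LinearEquiv.coe_coe, Function.comp_apply,
        Module.evalEquiv_apply, Module.Dual.eval_apply]
      show _ = (((A.dualTwist χ).dualTwist χ).ρ g (Module.Dual.eval k A a)) φ
      rw [Rep.dualTwist_ρ_apply]
      simp only [LinearMap.smul_apply, LinearMap.coe_comp, Function.comp_apply,
        Module.Dual.eval_apply, smul_eq_mul]
      rw [Rep.dualTwist_ρ_apply]
      simp only [LinearMap.smul_apply, LinearMap.coe_comp, Function.comp_apply, smul_eq_mul,
        inv_inv, map_inv, Units.val_inv_eq_inv_val]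
      rw [← mul_assoc, mul_inv_cancel₀ (Units.ne_zero _), one_mul])))

theorem evalIso_hom_apply (A : Rep.{u} k G) [FiniteDimensional k A] (a : A)
    (φ : Module.Dual k A) :
    ((evalIso χ A).hom.hom a : Module.Dual k (Module.Dual k A)) φ = φ a := rfl

end Fermat.Agent.Lib.CFT.Duality.DualTwist
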