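import Fermat.Prelude.Def_DualSelmer_ExtConditions
import Fermat.Agent.Lib.CFT.Coh.CupEval
import Fermat.Agent.Lib.CFT.Duality.DualTwist

/-!
# The evaluation pairing `M × M' → k(χ)` and transposes

For a character `χ : G →* kˣ` and a representation `M` of `G` over a field `k`, the Prelude defines
`M.dualTwist χ` (the dual space with `(g • f) = χ(g) • f ∘ ρ(g⁻¹)`) and
`groupCohomology.ofChar χ` (the one-dimensional representation `k(χ)`).

* `evPairing χ M : Pairing M (M.dualTwist χ) (groupCohomology.ofChar χ)`, `(m, f) ↦ f m`;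
* `evPairing_transpose`: `evPairing N (f m) g = evPairing M m (fᵀ g)` for the transpose
  `fᵀ = DualTwist.transpose χ f` of `Duality/DualTwist.lean`;
* `resDualTwistIso`, `evPairing_res`: compatibility with restriction along a group homomorphism.
-/

set_option autoImplicit false
set_option linter.unusedSectionVars false

universe u

open CategoryTheory

namespace Fermat.Agent.Lib.CFT.Duality

open Fermat.Agent.Lib.CFT.Coh.Cup

variable {k G : Type u} [Field k] [Group G] (χ : G →* kˣ)

theorem ofChar_ρ_apply (g : G) (c : k) :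
    (groupCohomology.ofChar χ).ρ g c = (χ g : k) * c := rfl

/-- The evaluation pairing `M × M.dualTwist χ → k(χ)`, `(m, f) ↦ f m`. -/
noncomputable def evPairing (M : Rep.{u} k G) :
    Pairing M (M.dualTwist χ) (groupCohomology.ofChar χ) where
  toLin := (LinearMap.id : Module.Dual k M →ₗ[k] Module.Dual k M).flip
  equivariant g m f := by
    show ((M.dualTwist χ).ρ g f) (M.ρ g m) = (groupCohomology.ofChar χ).ρ g (f m)
    rw [Rep.dualTwist_ρ_apply, ofChar_ρ_apply]
    simp only [LinearMap.smul_apply, LinearMap.coe_comp, Function.comp_apply, smul_eq_mul]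
    rw [← Module.End.mul_apply, ← map_mul, inv_mul_cancel, map_one, Module.End.one_apply]

@[simp]
theorem evPairing_toLin_apply (M : Rep.{u} k G) (m : M) (f : M.dualTwist χ) :
    (evPairing χ M).toLin m f = (show Module.Dual k M from f) m := rfl

/-- The evaluation pairing in the other order, `M.dualTwist χ × M → k(χ)`, `(f, m) ↦ f m`. -/
noncomputable def evPairing' (M : Rep.{u} k G) :
    Pairing (M.dualTwist χ) M (groupCohomology.ofChar χ) := (evPairing χ M).flip

@[simp]
theorem evPairing'_toLin_apply (M : Rep.{u} k G) (f : M.dualTwist χ) (m : M) :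
    (evPairing' χ M).toLin f m = (show Module.Dual k M from f) m := rfl

/-! ### Transposes

The transpose `DualTwist.transpose χ f : N.dualTwist χ ⟶ M.dualTwist χ` of `f : M ⟶ N` is defined
in `Duality/DualTwist.lean`. -/

variable {M N : Rep.{u} k G}

/-- The evaluation pairing is compatible with transposes: `⟨f m, g⟩_N = ⟨m, fᵀ g⟩_M`. -/
theorem evPairing_transpose (f : M ⟶ N) (m : M) (g : N.dualTwist χ) :
    (evPairing χ N).toLin (f.hom m) g =
      (evPairing χ M).toLin m ((DualTwist.transpose χ f).hom g) := rfl

theorem evPairing'_transpose (f : M ⟶ N) (g : N.dualTwist χ) (m : M) :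
    (evPairing' χ N).toLin g (f.hom m) =
      (evPairing' χ M).toLin ((DualTwist.transpose χ f).hom g) m := rfl

/-! ### Restriction along a group homomorphism -/

section res

variable {H : Type u} [Group H] (φ : H →* G) (M : Rep.{u} k G)

/-- Restriction along a group homomorphism commutes with `ofChar` (definitionally). -/
theorem res_ofChar :
    Rep.res φ (groupCohomology.ofChar χ) = groupCohomology.ofChar (χ.comp φ) := rfl

theorem res_dualTwist_ρ_apply (h : H) (f : Module.Dual k M) :
    (Rep.res φ (M.dualTwist χ)).ρ h f = ((Rep.res φ M).dualTwist (χ.comp φ)).ρ h f := by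
  show (M.dualTwist χ).ρ (φ h) f = ((Rep.res φ M).dualTwist (χ.comp φ)).ρ h f
  rw [Rep.dualTwist_ρ_apply, Rep.dualTwist_ρ_apply]
  show (χ (φ h) : k) • f ∘ₗ M.ρ (φ h)⁻¹ = (χ (φ h) : k) • f ∘ₗ M.ρ (φ h⁻¹)
  rw [map_inv φ h]

/-- Restriction along a group homomorphism commutes with `dualTwist`: the identity map is an
isomorphism `(M.dualTwist χ)|_H ≅ (M|_H).dualTwist (χ ∘ φ)` (the two sides differ only by
`(φ h)⁻¹` versus `φ h⁻¹`). -/
noncomputable def resDualTwistIso :
    Rep.res φ (M.dualTwist χ) ≅ (Rep.res φ M).dualTwist (χ.comp φ) :=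
  Rep.mkIso (Representation.Equiv.mk (LinearEquiv.refl k (Module.Dual k M)) (by
    intro h
    refine LinearMap.ext fun f => ?_
    exact res_dualTwist_ρ_apply χ φ M h f))

@[simp]
theorem resDualTwistIso_hom_apply (f : Module.Dual k M) :
    (resDualTwistIso χ φ M).hom.hom f = f := rfl

@[simp]
theorem resDualTwistIso_inv_apply (f : Module.Dual k M) :
    (resDualTwistIso χ φ M).inv.hom f = f := rfl

/-- Restriction of the evaluation pairing is the evaluation pairing of the restriction. -/
theorem evPairing_res (m : M) (f : Module.Dual k M) :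
    ((evPairing χ M).res φ).toLin m f =
      (evPairing (χ.comp φ) (Rep.res φ M)).toLin m ((resDualTwistIso χ φ M).hom.hom f) := rfl

end res

end Fermat.Agent.Lib.CFT.Duality
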