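import Fermat.Agent.Lib.CFT.Duality.ConeCup
import Fermat.Agent.Lib.CFT.Duality.ConeLES
import Fermat.Agent.Lib.CFT.Duality.EvPairing

/-!
# Cup products on the compactly supported cone: naturality and connecting homomorphisms

* (C2) `HcMap_cupHc`: for `α : A ⟶ A'`, `β : B' ⟶ B`, `γ : C ⟶ C'` and pairings with
  `φ' (α a, b') = γ (φ (a, β b'))`:  `(α x) ∪' y' = γ (x ∪ β y')`; in particular for the evaluation
  pairing and a transpose, `cupHc_evPairing_transpose`.
* (C3) `cupHc_Hcδ_adjoint`: for two short exact sequences in duality,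
  `δ_c x ∪₁ y = (-1)^(i+1) • (x ∪₃ δ y)`.
-/

set_option autoImplicit false
set_option linter.unusedSectionVars false

open CategoryTheory groupCohomology

namespace Fermat.Agent.Lib.CFT.Profinite.LevelFamily

open Fermat.Agent.Lib.CFT.Coh.Cup

universe u

variable {k G : Type u} [CommRing k] [Group G] (𝒰 : LevelFamily G)
  {A B C A' B' C' : Rep.{u} k G}

/-- Mixed-variance naturality of the cup product of level cochains. -/
theorem levelComplexFunctor_map_cupL (φ : Pairing A B C) (φ' : Pairing A' B' C')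
    (α : A ⟶ A') (β : B' ⟶ B) (γ : C ⟶ C')
    (hφ : ∀ (a : A) (b' : B'), φ'.toLin (α.hom a) b' = γ.hom (φ.toLin a (β.hom b')))
    {m n l : ℕ} (h : m + n = l) (a : 𝒰.levelCochains A m) (c' : 𝒰.levelCochains B' n) :
    𝒰.cupL φ' h (((𝒰.levelComplexFunctor.map α).f m).hom a) c' =
      ((𝒰.levelComplexFunctor.map γ).f l).hom
        (𝒰.cupL φ h a (((𝒰.levelComplexFunctor.map β).f n).hom c')) := by
  apply Subtype.ext
  funext g
  show cupTo φ' h (((cochainsMap (MonoidHom.id G) α).f m).hom a.1) c'.1 g =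
    ((cochainsMap (MonoidHom.id G) γ).f l).hom
      (cupTo φ h a.1 (((cochainsMap (MonoidHom.id G) β).f n).hom c'.1)) g
  simp only [cochainsMap_f_hom, LinearMap.coe_comp, Function.comp_apply, LinearMap.funLeft_apply,
    LinearMap.compLeft_apply, cupTo_apply]
  refine (hφ _ _).trans ?_
  rw [Rep.hom_comm_apply β]
  rfl

end Fermat.Agent.Lib.CFT.Profinite.LevelFamily

namespace Fermat.Agent.Lib.CFT.Duality

open Fermat.Agent.Lib.CFT.Profinite Fermat.Agent.Lib.CFT.Profinite.LevelFamily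
open Fermat.Agent.Lib.CFT.ConcreteHomology Fermat.Agent.Lib.CFT.Coh.Cup NatCone

namespace LocDatum

variable {k : Type} [CommRing k] {G : Type} [Group G] (D : LocDatum G)

/-! ### (C2) Naturality -/

section naturality

variable {A B C A' B' C' : Rep k G} (φ : Pairing A B C) (φ' : Pairing A' B' C')
  (α : A ⟶ A') (β : B' ⟶ B) (γ : C ⟶ C')
  (hφ : ∀ (a : A) (b' : B'), φ'.toLin (α.hom a) b' = γ.hom (φ.toLin a (β.hom b')))

include hφ in
theorem locComplexMap_locCup {i j l : ℕ} (h : i + j = l) (b : (D.locComplex A).X i)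
    (e' : (D.locComplex B').X j) :
    D.locCup φ' h (((D.locComplexMap α).f i).hom b) e' =
      ((D.locComplexMap γ).f l).hom (D.locCup φ h b (((D.locComplexMap β).f j).hom e')) := by
  funext v
  exact (D.𝒱 v).levelComplexFunctor_map_cupL (φ.res (D.φ v)) (φ'.res (D.φ v))
    ((Rep.resFunctor (D.φ v)).map α) ((Rep.resFunctor (D.φ v)).map β)
    ((Rep.resFunctor (D.φ v)).map γ) hφ h (b v) (e' v)

omit hφ in
theorem fstL_coneMap {M N : Rep k G} (f : M ⟶ N) (n : ℕ) (x : (D.coneComplex M).X n) :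
    natCone.fstL (D.locMap N) n (((D.coneMap f).f n).hom x) =
      ((D.𝒰.levelComplexFunctor.map f).f n).hom (natCone.fstL (D.locMap M) n x) := rfl

omit hφ in
theorem sndL_coneMap {M N : Rep k G} (f : M ⟶ N) (n : ℕ) (x : (D.coneComplex M).X (n + 1)) :
    natCone.sndL (D.locMap N) n (((D.coneMap f).f (n + 1)).hom x) =
      ((D.locComplexMap f).f n).hom (natCone.sndL (D.locMap M) n x) := rfl

include hφ in
/-- Naturality of the cup product of cone cochains. -/
theorem coneMap_coneCup {i j l : ℕ} (h : i + j = l) (x : (D.coneComplex A).X i)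
    (c' : D.𝒰.levelCochains B' j) :
    D.coneCup φ' h (((D.coneMap α).f i).hom x) c' =
      ((D.coneMap γ).f l).hom
        (D.coneCup φ h x (((D.𝒰.levelComplexFunctor.map β).f j).hom c')) := by
  have hfst : natCone.fstL (D.locMap C') l (D.coneCup φ' h (((D.coneMap α).f i).hom x) c') =
      natCone.fstL (D.locMap C') l (((D.coneMap γ).f l).hom
        (D.coneCup φ h x (((D.𝒰.levelComplexFunctor.map β).f j).hom c'))) := by
    refine (D.fstL_coneCup φ' h _ c').trans ?_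
    refine Eq.trans ?_ (congrArg ((D.𝒰.levelComplexFunctor.map γ).f l).hom
      (D.fstL_coneCup φ h x (((D.𝒰.levelComplexFunctor.map β).f j).hom c'))).symm
    exact D.𝒰.levelComplexFunctor_map_cupL φ φ' α β γ hφ h (natCone.fstL (D.locMap A) i x) c'
  cases l with
  | zero => exact natCone.ext_zero _ hfst
  | succ l' =>
    refine natCone.ext_succ _ hfst ?_
    have hnat : ((D.locMap B).f j).hom (((D.𝒰.levelComplexFunctor.map β).f j).hom c') =
        ((D.locComplexMap β).f j).hom (((D.locMap B').f j).hom c') :=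
      congr($(D.locMap_naturality β).f j c')
    cases i with
    | zero =>
      refine (D.sndL_coneCup_zero φ' h _ c').trans (Eq.symm ?_)
      exact (congrArg ((D.locComplexMap γ).f l').hom
        (D.sndL_coneCup_zero φ h x (((D.𝒰.levelComplexFunctor.map β).f j).hom c'))).trans
          (map_zero _)
    | succ i' =>
      refine (D.sndL_coneCup_succ φ' h _ c').trans (Eq.symm ?_)
      refine (congrArg ((D.locComplexMap γ).f l').hom
        (D.sndL_coneCup_succ φ h x (((D.𝒰.levelComplexFunctor.map β).f j).hom c'))).trans ?_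
      rw [hnat]
      exact (D.locComplexMap_locCup φ φ' α β γ hφ _ _ _).symm

include hφ in
/-- (C2) Naturality of the cup product `H_c × H → H_c` with respect to morphisms of pairings
(covariant in the first and third variable, contravariant in the second). -/
theorem HcMap_cupHc {i j l : ℕ} (h : i + j = l) (x : D.Hc A i)
    (y' : D.𝒰.levelCohomology B' j) :
    D.cupHc φ' h (D.HcMap α i x) y' =
      D.HcMap γ l (D.cupHc φ h x ((D.𝒰.levelCohomologyMap β j).hom y')) := by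
  obtain ⟨x, rfl⟩ := classOf_surjective (D.coneComplex A) i x
  obtain ⟨c', rfl⟩ := classOf_surjective (D.𝒰.levelComplex B') j y'
  have e1 : D.HcMap α i (classOf (D.coneComplex A) i x) =
      classOf (D.coneComplex A') i (mapZ (D.coneMap α) i x) :=
    homologyMap_classOf (D.coneMap α) i x
  obtain ⟨βL, hβL⟩ : ∃ βL : D.𝒰.levelComplex B' ⟶ D.𝒰.levelComplex B,
      βL = D.𝒰.levelComplexFunctor.map β := ⟨_, rfl⟩
  have e2 : (D.𝒰.levelCohomologyMap β j).hom (classOf (D.𝒰.levelComplex B') j c') =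
      classOf (D.𝒰.levelComplex B) j (mapZ βL j c') := by
    have : D.𝒰.levelCohomologyMap β j = HomologicalComplex.homologyMap βL j := by
      rw [hβL]
      rfl
    rw [this]
    exact homologyMap_classOf βL j c'
  rw [e1, e2, cupHc_classOf, cupHc_classOf]
  refine Eq.trans ?_ (homologyMap_classOf (D.coneMap γ) l _).symm
  congr 1
  apply Subtype.ext
  subst hβL
  exact D.coneMap_coneCup φ φ' α β γ hφ h x.1 c'.1

end naturality

section adjoint

variable {A B C A' B' : Rep k G} (φ : Pairing A B C) (φ' : Pairing A' B' C)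
  (α : A ⟶ A') (β : B' ⟶ B)
  (hφ : ∀ (a : A) (b' : B'), φ'.toLin (α.hom a) b' = φ.toLin a (β.hom b'))

include hφ in
/-- Adjointness form of the naturality of the cup product of cone cochains. -/
theorem coneCup_coneMap_adjoint {i j l : ℕ} (h : i + j = l) (x : (D.coneComplex A).X i)
    (c' : D.𝒰.levelCochains B' j) :
    D.coneCup φ' h (((D.coneMap α).f i).hom x) c' =
      D.coneCup φ h x (((D.𝒰.levelComplexFunctor.map β).f j).hom c') := by
  have := D.coneMap_coneCup φ φ' α β (𝟙 C) hφ h x c'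
  rw [this, D.coneMap_id]
  rfl

include hφ in
/-- (C2), adjointness form: `(α x) ∪' y' = x ∪ (β y')` if `φ' (α a, b') = φ (a, β b')`. -/
theorem cupHc_HcMap_adjoint {i j l : ℕ} (h : i + j = l) (x : D.Hc A i)
    (y' : D.𝒰.levelCohomology B' j) :
    D.cupHc φ' h (D.HcMap α i x) y' =
      D.cupHc φ h x ((D.𝒰.levelCohomologyMap β j).hom y') := by
  rw [D.HcMap_cupHc φ φ' α β (𝟙 C) hφ h x y', D.HcMap_id]
  rfl

end adjoint

section evaluation

variable {F : Type} [Field F] (χ : G →* Fˣ) {M N : Rep F G}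

/-- (C2) for the evaluation pairing: `⟨f x, y⟩_N = ⟨x, fᵀ y⟩_M`. -/
theorem cupHc_evPairing_transpose (D : LocDatum G) (f : M ⟶ N) {i j l : ℕ} (h : i + j = l)
    (x : D.Hc M i) (y : D.𝒰.levelCohomology (N.dualTwist χ) j) :
    D.cupHc (evPairing χ N) h (D.HcMap f i x) y =
      D.cupHc (evPairing χ M) h x
        ((D.𝒰.levelCohomologyMap (DualTwist.transpose χ f) j).hom y) :=
  D.cupHc_HcMap_adjoint (evPairing χ M) (evPairing χ N) f (DualTwist.transpose χ f)
    (fun a b' => evPairing_transpose χ f a b') h x y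

end evaluation

/-! ### (C3) Compatibility with the connecting homomorphisms -/

section delta

variable {X Y : ShortComplex (Rep k G)} (hX : X.ShortExact) (hY : Y.ShortExact)
  (hdX : D.𝒰.IsDiscrete X.X₂) (hdY : D.𝒰.IsDiscrete Y.X₂) {C : Rep k G}

/-- (C3) **Adjointness of the connecting homomorphisms** `Hcδ` (on the compactly supported side)
and `δ` (on the global side) of two short exact sequences which are in duality with respect to
compatible pairings into `C`: `δ_c x ∪₁ y = (-1)^(i+1) • (x ∪₃ δ y)`. -/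
theorem cupHc_Hcδ_adjoint (φ₁ : Pairing X.X₁ Y.X₃ C) (φ₂ : Pairing X.X₂ Y.X₂ C)
    (φ₃ : Pairing X.X₃ Y.X₁ C)
    (hf : ∀ (a : X.X₁) (b : Y.X₂), φ₂.toLin (X.f.hom a) b = φ₁.toLin a (Y.g.hom b))
    (hg : ∀ (a : X.X₂) (b : Y.X₁), φ₂.toLin a (Y.f.hom b) = φ₃.toLin (X.g.hom a) b)
    {i j l : ℕ} (h : i + j + 1 = l) (x : D.Hc X.X₃ i) (y : D.𝒰.levelCohomology Y.X₃ j) :
    D.cupHc φ₁ (show i + 1 + j = l by omega) (D.Hcδ hX hdX i (i + 1) rfl x) y =
      (-1 : k) ^ (i + 1) •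
        D.cupHc φ₃ (show i + (j + 1) = l by omega) x ((D.𝒰.δ hY hdY j (j + 1) rfl).hom y) := by
  subst h
  obtain ⟨z, rfl⟩ := classOf_surjective (D.coneComplex X.X₃) i x
  obtain ⟨w, rfl⟩ := classOf_surjective (D.𝒰.levelComplex Y.X₃) j y
  -- lift `z` and compute `Hcδ`
  have hSX := degreewiseExact_of_shortExact (D.coneShortComplex_shortExact hX hdX)
  obtain ⟨y₂, hy₂⟩ : ∃ y₂ : (D.coneComplex X.X₂).X i, ((D.coneMap X.g).f i).hom y₂ = z.1 :=
    (hSX i).2.2 z.1
  have hdy₂ : ((D.coneMap X.g).f (i + 1)).hom (((D.coneComplex X.X₂).d i (i + 1)).hom y₂) = 0 := by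
    rw [comm_apply, hy₂]
    exact z.2
  obtain ⟨a, ha⟩ : ∃ a : (D.coneComplex X.X₁).X (i + 1),
      ((D.coneMap X.f).f (i + 1)).hom a = ((D.coneComplex X.X₂).d i (i + 1)).hom y₂ :=
    ((hSX (i + 1)).2.1 _).1 hdy₂
  rw [D.Hcδ_classOf hX hdX i z y₂ hy₂ a ha]
  -- lift `w` and compute `δ`
  have hSY := degreewiseExact_of_shortExact (D.𝒰.map_levelComplexFunctor_shortExact hY hdY)
  obtain ⟨w₂, hw₂⟩ : ∃ w₂ : D.𝒰.levelCochains Y.X₂ j,
      ((D.𝒰.levelComplexFunctor.map Y.g).f j).hom w₂ = w.1 := (hSY j).2.2 w.1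
  have hdw₂ : ((D.𝒰.levelComplexFunctor.map Y.g).f (j + 1)).hom
      (((D.𝒰.levelComplex Y.X₂).d j (j + 1)).hom w₂) = 0 := by
    refine (comm_apply (D.𝒰.levelComplexFunctor.map Y.g) j w₂).trans ?_
    exact (congrArg _ hw₂).trans w.2
  obtain ⟨b, hb⟩ : ∃ b : D.𝒰.levelCochains Y.X₁ (j + 1),
      ((D.𝒰.levelComplexFunctor.map Y.f).f (j + 1)).hom b =
        ((D.𝒰.levelComplex Y.X₂).d j (j + 1)).hom w₂ :=
    ((hSY (j + 1)).2.1 _).1 hdw₂
  have hδ : (D.𝒰.δ hY hdY j (j + 1) rfl).hom (classOf (D.𝒰.levelComplex Y.X₃) j w) =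
      classOf (D.𝒰.levelComplex Y.X₁) (j + 1)
        ⟨b, mem_Z_of_f_eq_d (D.𝒰.map_levelComplexFunctor_shortExact hY hdY) w₂ b hb⟩ :=
    δ_classOf (D.𝒰.map_levelComplexFunctor_shortExact hY hdY) j w w₂ hw₂ b hb
  rw [hδ, cupHc_classOf, cupHc_classOf, ← map_smul, classOf_eq_classOf_iff_succ]
  refine ⟨D.coneCup φ₂ (rfl : i + j = i + j) y₂ w₂, ?_⟩
  rw [d_coneCup, ← ha, ← hb]
  have e1 := D.coneCup_coneMap_adjoint φ₁ φ₂ X.f Y.g hf
    (show i + 1 + j = i + j + 1 by omega) a w₂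
  have e2 := D.coneCup_coneMap_adjoint φ₂ φ₃ X.g Y.f (fun a b => (hg a b).symm)
    (show i + (j + 1) = i + j + 1 by omega) y₂ b
  rw [e1, ← e2, hw₂, hy₂, pow_succ, mul_neg_one, neg_smul, Submodule.coe_neg, sub_neg_eq_add,
    Submodule.coe_smul, coneCupZ_coe, coneCupZ_coe]

end delta

section deltaEvaluation

variable {F : Type} [Field F] (χ : G →* Fˣ) {X : ShortComplex (Rep F G)} (hX : X.ShortExact)

/-- (C3) for the evaluation pairings and the transposed sequence `0 → X₃' → X₂' → X₁' → 0`: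
for `x ∈ Hⁱ_c(X₃)` and `y ∈ Hʲ(X₁')`, `⟨δ_c x, y⟩_{X₁} = (-1)^(i+1) • ⟨x, δ y⟩_{X₃}`. -/
theorem cupHc_evPairing_Hcδ (D : LocDatum G) (hdX : D.𝒰.IsDiscrete X.X₂)
    (hdX' : D.𝒰.IsDiscrete (X.X₂.dualTwist χ)) {i j l : ℕ} (h : i + j + 1 = l)
    (x : D.Hc X.X₃ i) (y : D.𝒰.levelCohomology (X.X₁.dualTwist χ) j) :
    D.cupHc (evPairing χ X.X₁) (show i + 1 + j = l by omega) (D.Hcδ hX hdX i (i + 1) rfl x) y =
      (-1 : F) ^ (i + 1) •
        D.cupHc (evPairing χ X.X₃) (show i + (j + 1) = l by omega) x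
          ((D.𝒰.δ (DualTwist.transposeSeq_shortExact χ hX)
            (X := DualTwist.transposeSeq χ X) hdX' j (j + 1) rfl).hom y) :=
  D.cupHc_Hcδ_adjoint hX (DualTwist.transposeSeq_shortExact χ hX) hdX hdX'
    (evPairing χ X.X₁) (evPairing χ X.X₂) (evPairing χ X.X₃)
    (fun a b => evPairing_transpose χ X.f a b)
    (fun a b => (evPairing_transpose χ X.g a b).symm) h x y

end deltaEvaluation

/-! ### Aliases (names used by `Duality/GlobalDuality.lean`) -/

section aliases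

/-- Alias of `cupHc_HcMap_adjoint`. -/
theorem cupHc_map_adjoint {A A' B B' C : Rep k G} (φ : Pairing A B C) (φ' : Pairing A' B' C)
    (α : A ⟶ A') (β : B' ⟶ B)
    (hαβ : ∀ (a : A) (b' : B'), φ'.toLin (α.hom a) b' = φ.toLin a (β.hom b'))
    {i j l : ℕ} (h : i + j = l) (x : D.Hc A i) (y : D.𝒰.levelCohomology B' j) :
    D.cupHc φ' h (D.HcMap α i x) y = D.cupHc φ h x ((D.𝒰.levelCohomologyMap β j).hom y) :=
  D.cupHc_HcMap_adjoint φ φ' α β hαβ h x y

/-- Alias of `cupHc_Hcδ_adjoint`. -/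
theorem cupHc_δ_adjoint {X Y : ShortComplex (Rep k G)} (hX : X.ShortExact) (hY : Y.ShortExact)
    (hdX : D.𝒰.IsDiscrete X.X₂) (hdY : D.𝒰.IsDiscrete Y.X₂) {C : Rep k G}
    (φ₁ : Pairing X.X₁ Y.X₃ C) (φ₂ : Pairing X.X₂ Y.X₂ C) (φ₃ : Pairing X.X₃ Y.X₁ C)
    (hf : ∀ (a : X.X₁) (b : Y.X₂), φ₂.toLin (X.f.hom a) b = φ₁.toLin a (Y.g.hom b))
    (hg : ∀ (a : X.X₂) (b : Y.X₁), φ₂.toLin a (Y.f.hom b) = φ₃.toLin (X.g.hom a) b)
    {m n l : ℕ} (h : m + n + 1 = l) (x : D.Hc X.X₃ m) (y : D.𝒰.levelCohomology Y.X₃ n) :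
    D.cupHc φ₁ (show m + 1 + n = l by omega) (D.Hcδ hX hdX m (m + 1) rfl x) y =
      (-1 : k) ^ (m + 1) •
        D.cupHc φ₃ (show m + (n + 1) = l by omega) x ((D.𝒰.δ hY hdY n (n + 1) rfl).hom y) :=
  D.cupHc_Hcδ_adjoint hX hY hdX hdY φ₁ φ₂ φ₃ hf hg h x y

end aliases

end LocDatum

end Fermat.Agent.Lib.CFT.Duality
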