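import Fermat.Agent.Lib.CFT.Duality.DevissageStep
import Fermat.Agent.Lib.CFT.Duality.ConeLES
import Fermat.Agent.Lib.CFT.Duality.ConeCup
import Fermat.Agent.Lib.CFT.Duality.ConeCupNat
import Fermat.Agent.Lib.CFT.Duality.EvPairing

/-!
# Global duality: the devissage for the compactly supported cup product pairing

For a localisation datum `D : LocDatum G` (a "global" group `G` with a family of "local" groups
mapping to it), a character `χ : G →* kˣ` and a "trace" `tr : Hⁿ⁺¹_c(k(χ)) → k`, the cup product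
with the evaluation pairing `M × M' → k(χ)` (`M' = Hom(M, k(χ))`) gives

* `beta0 M : Hⁿ_c(M) → Dual H¹(M')` and
* `beta1 M : Hⁿ⁺¹_c(M) → Dual H⁰(M')`.

The main theorem `beta_bijective` reduces their bijectivity on all finite discrete modules to the
base case `M = Coind_V k` for normal levels `V` on which `χ` is trivial, provided the cohomology of
the global and local groups on finite discrete modules vanishes in degree `n + 1`.
(Global use: `n = 2`.)
-/

set_option autoImplicit false

open CategoryTheory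

namespace Fermat.Agent.Lib.CFT.Duality.GlobalDuality

open Fermat.Agent.Lib.CFT.Profinite Fermat.Agent.Lib.CFT.Profinite.LevelFamily
open Fermat.Agent.Lib.CFT.ConcreteHomology Fermat.Agent.Lib.CFT.Coh.Cup
open Fermat.Agent.Lib.CFT.Duality.LocDatum

section Additive

variable {k : Type} [CommRing k] {G : Type} [Group G] (D : LocDatum G)

theorem locComplexMap_add {M N : Rep k G} (f g : M ⟶ N) :
    D.locComplexMap (f + g) = D.locComplexMap f + D.locComplexMap g := by
  ext n x : 3
  rfl

theorem coneMap_add {M N : Rep k G} (f g : M ⟶ N) :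
    D.coneMap (f + g) = D.coneMap f + D.coneMap g := by
  ext n x : 3
  cases n with
  | zero => exact natCone.ext_zero _ rfl
  | succ m => exact natCone.ext_succ _ rfl rfl

theorem HcMap_add {M N : Rep k G} (f g : M ⟶ N) (n : ℕ) :
    D.HcMap (f + g) n = D.HcMap f n + D.HcMap g n := by
  unfold LocDatum.HcMap
  rw [coneMap_add, HomologicalComplex.homologyMap_add]
  rfl

end Additive

open DevissageStep

variable {k : Type} [Field k] {G : Type} [Group G] (D : LocDatum G)

/-- The `F`-side of the devissage given by compactly supported cohomology in degrees `n`,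
`n + 1`, provided the cohomology of the global group and of the local groups with finite discrete
coefficients vanishes in degree `n + 1`. -/
noncomputable def hcFSide (n : ℕ)
    (hg : ∀ (N : Rep k G) [Finite N], D.𝒰.IsDiscrete N →
      Subsingleton (D.𝒰.levelCohomology N (n + 1)))
    (hl : ∀ (N : Rep k G) [Finite N], D.𝒰.IsDiscrete N →
      ∀ i, Subsingleton ((D.𝒱 i).levelCohomology (D.resRep N i) (n + 1))) :
    FSide (k := k) D.𝒰 where
  F0 M := D.Hc M n
  F1 M := D.Hc M (n + 1)
  map0 f := D.HcMap f n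
  map1 f := D.HcMap f (n + 1)
  map0_id M := D.HcMap_id n
  map1_id M := D.HcMap_id (n + 1)
  map0_comp f g := D.HcMap_comp f g n
  map1_comp f g := D.HcMap_comp f g (n + 1)
  map0_add f g := HcMap_add D f g n
  map1_add f g := HcMap_add D f g (n + 1)
  δ X hX hd := D.Hcδ hX hd n (n + 1) rfl
  exact_map0 X hX hd _ := D.Hc_exact₂ hX hd n
  exact_map0_δ X hX hd _ := D.Hc_exact₃ hX hd rfl
  exact_δ_map1 X hX hd _ := D.Hc_exact₁ hX hd rfl
  exact_map1 X hX hd _ := D.Hc_exact₂ hX hd (n + 1)
  surj_map1 X hX hd _ := by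
    have hinj : Function.Injective X.f.hom := (Rep.mono_iff_injective X.f).1 hX.mono_f
    have hsurj : Function.Surjective X.g.hom := (Rep.epi_iff_surjective X.g).1 hX.epi_g
    have : Finite X.X₁ := Finite.of_injective _ hinj
    have : Finite X.X₃ := Finite.of_surjective _ hsurj
    have hd₁ : D.𝒰.IsDiscrete X.X₁ := DevissageRep.isDiscrete_of_injective D.𝒰 X.f hinj hd
    have hd₃ : D.𝒰.IsDiscrete X.X₃ := DevissageRep.isDiscrete_of_surjective D.𝒰 X.g hsurj hd
    exact D.HcMap_surjective_of_subsingleton hX hd n (hg X.X₃ hd₃) (hl X.X₁ hd₁)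

/-! ### The comparison maps -/

variable (χ : G →* kˣ) (n : ℕ) (tr : D.Hc (groupCohomology.ofChar χ) (n + 1) →ₗ[k] k)

/-- `β^n_M : Hⁿ_c(M) → Dual H¹(M')`, `x ↦ (y ↦ tr (x ∪ y))`. -/
noncomputable def beta0 (M : Rep k G) : D.Hc M n →ₗ[k] GG D.𝒰 χ 1 M :=
  (D.cupHc (evPairing χ M) (rfl : n + 1 = n + 1)).compr₂ tr

/-- `β^{n+1}_M : Hⁿ⁺¹_c(M) → Dual H⁰(M')`, `x ↦ (y ↦ tr (x ∪ y))`. -/
noncomputable def beta1 (M : Rep k G) : D.Hc M (n + 1) →ₗ[k] GG D.𝒰 χ 0 M :=
  (D.cupHc (evPairing χ M) (show n + 1 + 0 = n + 1 by omega)).compr₂ tr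

theorem beta0_apply (M : Rep k G) (x : D.Hc M n)
    (y : D.𝒰.levelCohomology (M.dualTwist χ) 1) :
    beta0 D χ n tr M x y = tr (D.cupHc (evPairing χ M) (rfl : n + 1 = n + 1) x y) := rfl

theorem beta1_apply (M : Rep k G) (x : D.Hc M (n + 1))
    (y : D.𝒰.levelCohomology (M.dualTwist χ) 0) :
    beta1 D χ n tr M x y =
      tr (D.cupHc (evPairing χ M) (show n + 1 + 0 = n + 1 by omega) x y) := rfl

/-- Naturality of `β^n`. -/
theorem beta0_HcMap {M N : Rep k G} (f : M ⟶ N) (x : D.Hc M n) :
    beta0 D χ n tr N (D.HcMap f n x) = Gmap D.𝒰 χ 1 f (beta0 D χ n tr M x) := by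
  ext y
  show tr (D.cupHc (evPairing χ N) (rfl : n + 1 = n + 1) (D.HcMap f n x) y) =
    tr (D.cupHc (evPairing χ M) (rfl : n + 1 = n + 1) x
      ((D.𝒰.levelCohomologyMap (DualTwist.transpose χ f) 1).hom y))
  congr 1
  exact cupHc_evPairing_transpose χ D f rfl x y

/-- Naturality of `β^{n+1}`. -/
theorem beta1_HcMap {M N : Rep k G} (f : M ⟶ N) (x : D.Hc M (n + 1)) :
    beta1 D χ n tr N (D.HcMap f (n + 1) x) = Gmap D.𝒰 χ 0 f (beta1 D χ n tr M x) := by
  ext y
  show tr (D.cupHc (evPairing χ N) (show n + 1 + 0 = n + 1 by omega)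
      (D.HcMap f (n + 1) x) y) =
    tr (D.cupHc (evPairing χ M) (show n + 1 + 0 = n + 1 by omega) x
      ((D.𝒰.levelCohomologyMap (DualTwist.transpose χ f) 0).hom y))
  congr 1
  exact cupHc_evPairing_transpose χ D f _ x y

/-- Compatibility of `β` with the connecting homomorphisms, with the sign `(-1)^(n+1)`. -/
theorem beta1_Hcδ {X : ShortComplex (Rep k G)} (hX : X.ShortExact) (hd : D.𝒰.IsDiscrete X.X₂)
    (hd' : D.𝒰.IsDiscrete (X.X₂.dualTwist χ)) (x : D.Hc X.X₃ n) :
    beta1 D χ n tr X.X₁ (D.Hcδ hX hd n (n + 1) rfl x) =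
      (-1 : k) ^ (n + 1) • Gδ hX hd' (beta0 D χ n tr X.X₃ x) := by
  ext y
  show tr (D.cupHc (evPairing χ X.X₁) (show n + 1 + 0 = n + 1 by omega)
      (D.Hcδ hX hd n (n + 1) rfl x) y) =
    (-1 : k) ^ (n + 1) • tr (D.cupHc (evPairing χ X.X₃) (rfl : n + 1 = n + 1) x
      ((D.𝒰.δ (DualTwist.transposeSeq_shortExact χ hX) hd' 0 1 rfl).hom y))
  have := cupHc_evPairing_Hcδ χ hX D hd hd' (i := n) (j := 0) (l := n + 1) rfl x y
  exact (congrArg tr this).trans (map_smul tr _ _)

/-- The comparison datum for the devissage. -/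
noncomputable def compare
    (hg : ∀ (N : Rep k G) [Finite N], D.𝒰.IsDiscrete N →
      Subsingleton (D.𝒰.levelCohomology N (n + 1)))
    (hl : ∀ (N : Rep k G) [Finite N], D.𝒰.IsDiscrete N →
      ∀ i, Subsingleton ((D.𝒱 i).levelCohomology (D.resRep N i) (n + 1))) :
    Compare (hcFSide D n hg hl) χ where
  β0 := beta0 D χ n tr
  β1 := beta1 D χ n tr
  nat0 := fun _ _ f x => beta0_HcMap D χ n tr f x
  nat1 := fun _ _ f x => beta1_HcMap D χ n tr f x
  ε := (-1 : k) ^ (n + 1)
  hε := by
    rcases Nat.even_or_odd (n + 1) with h | h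
    · left; exact h.neg_one_pow
    · right; exact h.neg_one_pow
  δ_compat := fun X hX hd hd' _ x => beta1_Hcδ D χ n tr hX hd hd' x

/-- **Global duality, devissage step.**  Suppose that the cohomology of the global group and of
the local groups vanishes in degree `n + 1` on finite discrete modules, and that `χ` is trivial on
some level.  If `β^n` and `β^{n+1}` are bijective on `Coind_V k` for all normal levels `V` on
which `χ` is trivial, then they are bijective on every finite discrete module. -/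
theorem beta_bijective [Finite k]
    (hg : ∀ (N : Rep k G) [Finite N], D.𝒰.IsDiscrete N →
      Subsingleton (D.𝒰.levelCohomology N (n + 1)))
    (hl : ∀ (N : Rep k G) [Finite N], D.𝒰.IsDiscrete N →
      ∀ i, Subsingleton ((D.𝒱 i).levelCohomology (D.resRep N i) (n + 1)))
    (hχ : ∃ U ∈ D.𝒰.levels, ∀ s ∈ U, χ s = 1)
    (base : ∀ V : Subgroup G, V.Normal → V ∈ D.𝒰.levels → (∀ s ∈ V, χ s = 1) →
      Function.Bijective (beta0 D χ n tr (Additivity.PV V)) ∧
        Function.Bijective (beta1 D χ n tr (Additivity.PV V)))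
    (M : Rep k G) [Finite M] (hM : D.𝒰.IsDiscrete M) :
    Function.Bijective (beta0 D χ n tr M) ∧ Function.Bijective (beta1 D χ n tr M) :=
  DevissageStep.bijective χ (hcFSide D n hg hl) (compare D χ n tr hg hl) hχ base M hM

end Fermat.Agent.Lib.CFT.Duality.GlobalDuality
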