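import Fermat.Agent.Lib.CFT.Profinite.LevelCochains

/-!
# The devissage resolution `0 ⟶ K ⟶ Coind_V^G (M|_V) ⟶ M ⟶ 0`

For a finite index subgroup `V` of `G` and a representation `M` of `G` we provide the short exact
sequence `0 ⟶ K V M ⟶ P V M ⟶ M ⟶ 0` with `P V M = Coind_V^G (M|_V)` (Mathlib's `Rep.coind`,
isomorphic to `Rep.ind` by `Rep.indCoindIso`), and show that discreteness (with respect to a level
family one of whose members is contained in `V`) and finiteness pass from `M` to `P V M` and
`K V M`.  This is the concrete input of the abstract descending devissage of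
`Fermat.Agent.Lib.CFT.Duality.Devissage`.
-/

set_option autoImplicit false

universe u

open CategoryTheory CategoryTheory.Limits Fermat.Agent.Lib.CFT.Profinite

namespace Fermat.Agent.Lib.CFT.Duality.DevissageRep

variable {k G : Type u} [CommRing k] [Group G]

section Discrete

variable (𝒰 : LevelFamily G)

/-- Discreteness passes to subobjects. -/
theorem isDiscrete_of_injective {A B : Rep.{u} k G} (φ : A ⟶ B)
    (hφ : Function.Injective φ.hom) (hB : 𝒰.IsDiscrete B) : 𝒰.IsDiscrete A := by
  intro a
  obtain ⟨U, hU, h⟩ := hB (φ.hom a)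
  refine ⟨U, hU, fun s hs => hφ ?_⟩
  rw [Rep.hom_comm_apply, h s hs]

/-- Discreteness passes to quotients. -/
theorem isDiscrete_of_surjective {A B : Rep.{u} k G} (φ : A ⟶ B)
    (hφ : Function.Surjective φ.hom) (hA : 𝒰.IsDiscrete A) : 𝒰.IsDiscrete B := by
  intro b
  obtain ⟨a, rfl⟩ := hφ b
  obtain ⟨U, hU, h⟩ := hA a
  refine ⟨U, hU, fun s hs => ?_⟩
  rw [← Rep.hom_comm_apply, h s hs]

/-- A finite discrete module is fixed pointwise by some normal level. -/
theorem exists_normal_level_acting_trivially {A : Rep.{u} k G} [Finite A]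
    (hA : 𝒰.IsDiscrete A) : ∃ W ∈ 𝒰.levels, W.Normal ∧ ∀ s ∈ W, ∀ a : A, A.ρ s a = a := by
  choose U hU hfix using hA
  obtain ⟨W, hW, hn, hle⟩ := 𝒰.exists_normal_le_of_finite U hU
  exact ⟨W, hW, hn, fun s hs a => hfix a s (hle a hs)⟩

end Discrete

variable (V : Subgroup G) (M : Rep.{u} k G)

/-- The (co)induced module `Coind_V^G (M|_V)`. -/
noncomputable abbrev P : Rep.{u} k G := Rep.coind V.subtype (Rep.res V.subtype M)

theorem P_ρ_apply (s : G) (f : P V M) (g : G) : ((P V M).ρ s f).1 g = f.1 (g * s) := rfl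

theorem P_prop (f : P V M) (v : G) (hv : v ∈ V) (g : G) : f.1 (v * g) = M.ρ v (f.1 g) :=
  f.2 ⟨v, hv⟩ g

/-- The left `V`-invariant function `g ↦ ρ(g)⁻¹ f(g)` attached to an element of `P V M`. -/
def twist (f : P V M) : G → M := fun g => M.ρ g⁻¹ (f.1 g)

theorem twist_mul (f : P V M) (v : G) (hv : v ∈ V) (g : G) :
    twist V M f (v * g) = twist V M f g := by
  simp only [twist]
  rw [P_prop V M f v hv g, mul_inv_rev, map_mul, Module.End.mul_apply,
    ← Module.End.mul_apply (M.ρ v⁻¹), ← map_mul, inv_mul_cancel, map_one, Module.End.one_apply]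

theorem apply_eq_twist (f : P V M) (g : G) : f.1 g = M.ρ g (twist V M f g) := by
  simp only [twist]
  rw [← Module.End.mul_apply, ← map_mul, mul_inv_cancel, map_one, Module.End.one_apply]

/-- The function on `V \ G` induced by `twist`. -/
def twistQ (f : P V M) : Quotient (QuotientGroup.rightRel V) → M :=
  Quotient.lift (twist V M f) (by
    intro a b hab
    have hab' : b * a⁻¹ ∈ V := QuotientGroup.rightRel_apply.1 hab
    have := twist_mul V M f _ hab' a
    rw [inv_mul_cancel_right] at this
    exact this.symm)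

theorem twistQ_mk (f : P V M) (g : G) : twistQ V M f (Quotient.mk _ g) = twist V M f g := rfl

theorem twistQ_injective : Function.Injective (twistQ V M) := by
  intro f f' h
  apply Subtype.ext
  funext g
  rw [apply_eq_twist, apply_eq_twist, ← twistQ_mk, ← twistQ_mk, h]

variable [V.FiniteIndex]

instance finite_rightQuotient : Finite (Quotient (QuotientGroup.rightRel V)) := by
  have := Subgroup.finite_quotient_of_finiteIndex (H := V)
  exact Finite.of_equiv _ (QuotientGroup.quotientRightRelEquivQuotientLeftRel V).symm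

/-- `Coind_V^G (M|_V)` is finite if `M` is. -/
instance finite_P [Finite M] : Finite (P V M) :=
  Finite.of_injective _ (twistQ_injective V M)

/-- `Coind_V^G (M|_V)` is discrete if `M` is and `V` contains a level. -/
theorem isDiscrete_P (𝒰 : LevelFamily G) (hV : ∃ U ∈ 𝒰.levels, U ≤ V) (hM : 𝒰.IsDiscrete M) :
    𝒰.IsDiscrete (P V M) := by
  intro f
  have hfin : (Set.range (twist V M f)).Finite := by
    have : Set.range (twist V M f) ⊆ Set.range (twistQ V M f) := by
      rintro _ ⟨g, rfl⟩
      exact ⟨Quotient.mk _ g, rfl⟩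
    exact (Set.finite_range _).subset this
  have : Finite (Set.range (twist V M f)) := hfin
  choose U hU hfix using fun x : Set.range (twist V M f) => hM x.1
  obtain ⟨U₀, hU₀, hU₀V⟩ := hV
  obtain ⟨W, hW, hWn, hle⟩ := 𝒰.exists_normal_le_of_finite U hU
  obtain ⟨W', hW', h1, h2, hn⟩ := 𝒰.exists_normal_le_inf hW hU₀
  refine ⟨W', hW', fun s hs => Subtype.ext (funext fun g => ?_)⟩
  rw [P_ρ_apply]
  have hconj : g * s * g⁻¹ ∈ W' := hn.conj_mem s hs g
  have e : g * s = (g * s * g⁻¹) * g := by group
  rw [e, P_prop V M f _ (hU₀V (h2 hconj)) g, apply_eq_twist V M f g, ← Module.End.mul_apply,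
    ← map_mul]
  have : g * s * g⁻¹ * g = g * s := by group
  rw [this, map_mul, Module.End.mul_apply]
  congr 1
  exact hfix ⟨twist V M f g, ⟨g, rfl⟩⟩ s (hle _ (h1 hs))

open scoped Classical in
/-- The canonical map `Coind_V^G (M|_V) ⟶ M` for a finite index subgroup `V`: the counit of
Mathlib's adjunction `Rep.coindResAdjunction`. -/
noncomputable def proj : P V M ⟶ M :=
  (Rep.coindResAdjunction k V).counit.app M

open scoped Classical in
theorem proj_surjective : Function.Surjective (proj V M).hom := by
  intro m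
  refine ⟨(Rep.indCoindIso (Rep.res V.subtype M)).hom.hom
    (Representation.IndV.mk V.subtype _ 1 m), ?_⟩
  unfold proj
  rw [Rep.coindResAdjunction_counit_app]
  simp [Rep.indResAdjunction, Rep.indResHomEquiv]

instance epi_proj : Epi (proj V M) := (Rep.epi_iff_surjective _).2 (proj_surjective V M)

/-- The kernel of `Coind_V^G (M|_V) ⟶ M`. -/
noncomputable abbrev K : Rep.{u} k G := kernel (proj V M)

/-- The short complex `0 ⟶ K ⟶ Coind_V^G (M|_V) ⟶ M ⟶ 0`. -/
noncomputable def seq : ShortComplex (Rep.{u} k G) :=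
  ShortComplex.mk (kernel.ι (proj V M)) (proj V M) (kernel.condition _)

@[simp] theorem seq_X₁ : (seq V M).X₁ = K V M := rfl
@[simp] theorem seq_X₂ : (seq V M).X₂ = P V M := rfl
@[simp] theorem seq_X₃ : (seq V M).X₃ = M := rfl
@[simp] theorem seq_f : (seq V M).f = kernel.ι (proj V M) := rfl
@[simp] theorem seq_g : (seq V M).g = proj V M := rfl

theorem seq_shortExact : (seq V M).ShortExact where
  exact := ShortComplex.exact_of_f_is_kernel _ (kernelIsKernel (proj V M))
  mono_f := by dsimp [seq]; infer_instance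
  epi_g := by dsimp [seq]; infer_instance

theorem ι_injective : Function.Injective (kernel.ι (proj V M)).hom :=
  (Rep.mono_iff_injective _).1 inferInstance

/-- The kernel is finite if `M` is. -/
instance finite_K [Finite M] : Finite (K V M) :=
  Finite.of_injective _ (ι_injective V M)

/-- The kernel is discrete if `M` is and `V` contains a level. -/
theorem isDiscrete_K (𝒰 : LevelFamily G) (hV : ∃ U ∈ 𝒰.levels, U ≤ V) (hM : 𝒰.IsDiscrete M) :
    𝒰.IsDiscrete (K V M) :=
  isDiscrete_of_injective 𝒰 _ (ι_injective V M) (isDiscrete_P V M 𝒰 hV hM)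

end Fermat.Agent.Lib.CFT.Duality.DevissageRep
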