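/-
helper9 (P-CFT, L4 duality layer).  Glue between the Sylow criteria of `Profinite/CdCriterion.lean`
(helper90) and the global duality layer.

For the level family `𝒰 = levelsS S` on `Γℚ = Gal(ℚ̄/ℚ)` and the mod `p` cyclotomic character
`χ = cycloChar p` (with `p ∈ S`):

* `χ.ker` is normal, open (`isOpenSubgroup_ker_cycloChar`) and of index prime to `p`
  (`not_dvd_index_ker_cycloChar`, `index_ker_cycloChar_dvd`);
* `subsingleton_three`: if `H³(W, 𝔽_p) = 0` for all open `W ≤ χ.ker` (`GlobalVan`), then
  `H³(Γℚ, M) = 0` for every finite discrete `𝔽_p[Γℚ]`-module `M`;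
* `finite_levelCohomology`: the same with finiteness in any degree `n` (`GlobalFin`);
* `HcMap_three_surjective`: together with the local vanishing (`LocalBase.subsingleton_three`,
  helper34) this gives the right exactness of `H³_c` for the arithmetic datum, in the shape of
  `LocDatum.HcMap_surjective_of_subsingleton` (helper1);
* Shapiro forms of the hypotheses: `H^n(W, 𝔽_p) = 0` (resp. finite) if and only if
  `H^n(Γℚ, Coind_W 𝔽_p) = 0` (resp. finite), for any level family and any open subgroup.
-/
import Fermat.Agent.Lib.CFT.Duality.LocalTateArith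
import Fermat.Agent.Lib.CFT.Duality.ConeLES
import Fermat.Agent.Lib.CFT.Duality.DevissageRep

set_option autoImplicit false

open CategoryTheory

namespace Fermat.Agent.Lib.CFT.Duality.GlobalVanishing

open Fermat.Agent.Lib.CFT.Profinite Fermat.Agent.Lib.CFT.Profinite.LevelFamily
open Fermat.Agent.Lib.CFT.Profinite.LES Fermat.Agent.Lib.CFT.Profinite.Bridge ExtCitation

local notation "Γℚ" => (AlgebraicClosure ℚ ≃ₐ[ℚ] AlgebraicClosure ℚ)

/-! ### Shapiro forms of vanishing and finiteness with trivial coefficients -/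

section Shapiro

variable (p : ℕ) [Fact p.Prime] {G : Type} [Group G] (𝒰 : LevelFamily G)

/-- The trivial module of an open subgroup is discrete for the restricted level family. -/
theorem isDiscrete_trivial (W : Subgroup G) :
    (restrict 𝒰 W).IsDiscrete (Rep.trivial (ZMod p) W (ZMod p)) := by
  obtain ⟨U₀, hU₀⟩ := (restrict 𝒰 W).nonempty
  exact fun m => ⟨U₀, hU₀, fun s _ => rfl⟩

/-- Shapiro's lemma with trivial coefficients, as a linear equivalence
`Hⁿ(G, Coind_W 𝔽_p) ≃ Hⁿ(W, 𝔽_p)`. -/
noncomputable def shapiroTrivialEquiv {W : Subgroup G} (hW : IsOpenSubgroup 𝒰 W) (n : ℕ) :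
    𝒰.levelCohomology (Additivity.PV (k := ZMod p) W) n ≃ₗ[ZMod p]
      (restrict 𝒰 W).levelCohomology (Rep.trivial (ZMod p) W (ZMod p)) n :=
  (shapiroIso hW (isDiscrete_trivial p 𝒰 W) n).toLinearEquiv

/-- `Hⁿ(W, 𝔽_p) = 0` if and only if `Hⁿ(G, Coind_W 𝔽_p) = 0`. -/
theorem subsingleton_restrict_iff_coind {W : Subgroup G} (hW : IsOpenSubgroup 𝒰 W) (n : ℕ) :
    Subsingleton ((restrict 𝒰 W).levelCohomology (Rep.trivial (ZMod p) W (ZMod p)) n) ↔
      Subsingleton (𝒰.levelCohomology (Additivity.PV (k := ZMod p) W) n) :=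
  ⟨fun _ => (shapiroTrivialEquiv p 𝒰 hW n).injective.subsingleton,
    fun _ => (shapiroTrivialEquiv p 𝒰 hW n).symm.injective.subsingleton⟩

/-- `Hⁿ(W, 𝔽_p)` is finite if and only if `Hⁿ(G, Coind_W 𝔽_p)` is. -/
theorem finite_restrict_iff_coind {W : Subgroup G} (hW : IsOpenSubgroup 𝒰 W) (n : ℕ) :
    Module.Finite (ZMod p)
        ((restrict 𝒰 W).levelCohomology (Rep.trivial (ZMod p) W (ZMod p)) n) ↔
      Module.Finite (ZMod p) (𝒰.levelCohomology (Additivity.PV (k := ZMod p) W) n) :=
  ⟨fun _ => Module.Finite.equiv (shapiroTrivialEquiv p 𝒰 hW n).symm,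
    fun _ => Module.Finite.equiv (shapiroTrivialEquiv p 𝒰 hW n)⟩

end Shapiro

/-! ### The kernel of the cyclotomic character -/

section Kernel

variable (p : ℕ) [Fact p.Prime] (S : Finset Nat.Primes)

/-- The kernel of the mod `p` cyclotomic character is open for `levelsS S` as soon as `p ∈ S`. -/
theorem isOpenSubgroup_ker_cycloChar (hpS : pPrime p ∈ S) :
    IsOpenSubgroup (levelsS S) (cycloChar p).ker :=
  exists_level_le_ker_cycloChar p S hpS

/-- The index of the kernel of the mod `p` cyclotomic character is prime to `p`. -/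
theorem not_dvd_index_ker_cycloChar : ¬ p ∣ (cycloChar p).ker.index :=
  LocalTate.not_dvd_index_ker _

/-- The index of the kernel of the mod `p` cyclotomic character divides `p - 1`. -/
theorem index_ker_cycloChar_dvd : (cycloChar p).ker.index ∣ p - 1 := by
  rw [Subgroup.index_ker]
  have h1 : Nat.card (cycloChar p).range ∣ Nat.card (ZMod p)ˣ :=
    Subgroup.card_subgroup_dvd_card _
  have h2 : Nat.card (ZMod p)ˣ = p - 1 := by
    rw [Nat.card_eq_fintype_card, ZMod.card_units]
  rwa [h2] at h1

end Kernel

/-! ### Vanishing and finiteness for all finite discrete modules -/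

section Global

variable (p : ℕ) [Fact p.Prime] (S : Finset Nat.Primes)

/-- The global vanishing input in degree `n`: `Hⁿ(W, 𝔽_p) = 0` for every open subgroup `W` of
`Γℚ` (for `levelsS S`) on which the mod `p` cyclotomic character is trivial. -/
def GlobalVan (n : ℕ) : Prop :=
  ∀ W : Subgroup Γℚ, W ≤ (cycloChar p).ker → IsOpenSubgroup (levelsS S) W →
    Subsingleton ((restrict (levelsS S) W).levelCohomology (Rep.trivial (ZMod p) W (ZMod p)) n)

/-- The global finiteness input in degree `n`: `Hⁿ(W, 𝔽_p)` is finite for every open subgroup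
`W` of `Γℚ` (for `levelsS S`) on which the mod `p` cyclotomic character is trivial. -/
def GlobalFin (n : ℕ) : Prop :=
  ∀ W : Subgroup Γℚ, W ≤ (cycloChar p).ker → IsOpenSubgroup (levelsS S) W →
    Module.Finite (ZMod p)
      ((restrict (levelsS S) W).levelCohomology (Rep.trivial (ZMod p) W (ZMod p)) n)

/-- The global vanishing input in coinduced (Shapiro) form. -/
def GlobalVanCoind (n : ℕ) : Prop :=
  ∀ W : Subgroup Γℚ, W ≤ (cycloChar p).ker → IsOpenSubgroup (levelsS S) W →
    Subsingleton ((levelsS S).levelCohomology (Additivity.PV (k := ZMod p) W) n)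

/-- The global finiteness input in coinduced (Shapiro) form. -/
def GlobalFinCoind (n : ℕ) : Prop :=
  ∀ W : Subgroup Γℚ, W ≤ (cycloChar p).ker → IsOpenSubgroup (levelsS S) W →
    Module.Finite (ZMod p) ((levelsS S).levelCohomology (Additivity.PV (k := ZMod p) W) n)

theorem globalVan_iff_coind (n : ℕ) : GlobalVan p S n ↔ GlobalVanCoind p S n :=
  ⟨fun h W hW hWo => (subsingleton_restrict_iff_coind p (levelsS S) hWo n).1 (h W hW hWo),
    fun h W hW hWo => (subsingleton_restrict_iff_coind p (levelsS S) hWo n).2 (h W hW hWo)⟩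

theorem globalFin_iff_coind (n : ℕ) : GlobalFin p S n ↔ GlobalFinCoind p S n :=
  ⟨fun h W hW hWo => (finite_restrict_iff_coind p (levelsS S) hWo n).1 (h W hW hWo),
    fun h W hW hWo => (finite_restrict_iff_coind p (levelsS S) hWo n).2 (h W hW hWo)⟩

variable {p S}

/-- **Vanishing for all finite discrete modules** (any degree `n`): if `Hⁿ(W, 𝔽_p) = 0` for all
open `W ≤ ker χ`, then `Hⁿ(Γℚ, M) = 0` for every finite discrete `𝔽_p[Γℚ]`-module `M`. -/
theorem subsingleton_levelCohomology (hpS : pPrime p ∈ S) {n : ℕ} (hvan : GlobalVan p S n)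
    (M : Rep (ZMod p) Γℚ) [Finite M] (hM : (levelsS S).IsDiscrete M) :
    Subsingleton ((levelsS S).levelCohomology M n) := by
  have : Module.Finite (ZMod p) M := Module.Finite.of_finite
  exact CdBound.levelCohomology_eq_zero_of_trivial n (cycloChar p).ker
    (isOpenSubgroup_ker_cycloChar p S hpS) (not_dvd_index_ker_cycloChar p) hvan M hM

/-- **Global `H³ = 0`**: the case `n = 3` of `subsingleton_levelCohomology`. -/
theorem subsingleton_three (hpS : pPrime p ∈ S) (hvan : GlobalVan p S 3)
    (M : Rep (ZMod p) Γℚ) [Finite M] (hM : (levelsS S).IsDiscrete M) :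
    Subsingleton ((levelsS S).levelCohomology M 3) :=
  subsingleton_levelCohomology hpS hvan M hM

/-- **Finiteness for all finite discrete modules** (any degree `n`): if `Hⁿ(W, 𝔽_p)` is finite
for all open `W ≤ ker χ`, then `Hⁿ(Γℚ, M)` is finite for every finite discrete
`𝔽_p[Γℚ]`-module `M`. -/
theorem finite_levelCohomology (hpS : pPrime p ∈ S) {n : ℕ} (hfin : GlobalFin p S n)
    (M : Rep (ZMod p) Γℚ) [Finite M] (hM : (levelsS S).IsDiscrete M) :
    Module.Finite (ZMod p) ((levelsS S).levelCohomology M n) := by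
  have : Module.Finite (ZMod p) M := Module.Finite.of_finite
  exact CdBound.levelCohomology_finite_of_trivial n (cycloChar p).ker
    (isOpenSubgroup_ker_cycloChar p S hpS) (not_dvd_index_ker_cycloChar p) hfin M hM

/-- Finiteness of `H¹(Γℚ, M)` and `H²(Γℚ, M)`. -/
theorem finite_one_two (hpS : pPrime p ∈ S) (h1 : GlobalFin p S 1) (h2 : GlobalFin p S 2)
    (M : Rep (ZMod p) Γℚ) [Finite M] (hM : (levelsS S).IsDiscrete M) :
    Module.Finite (ZMod p) ((levelsS S).levelCohomology M 1) ∧
      Module.Finite (ZMod p) ((levelsS S).levelCohomology M 2) :=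
  ⟨finite_levelCohomology hpS h1 M hM, finite_levelCohomology hpS h2 M hM⟩

end Global

/-! ### Right exactness of `H³_c` for the arithmetic datum -/

section RightExact

variable {p : ℕ} [Fact p.Prime] {S : Finset Nat.Primes}

/-- The local `H³` of the restriction of a finite discrete global module vanishes. -/
theorem subsingleton_three_local (B : ∀ q : S, LocalTate.LocalBase p q.1)
    (M : Rep (ZMod p) Γℚ) [Finite M] (hM : (levelsS S).IsDiscrete M) (q : (arithDatum S).ι) :
    Subsingleton (((arithDatum S).𝒱 q).levelCohomology ((arithDatum S).resRep M q) 3) := by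
  have hfin : Finite ((arithDatum S).resRep M q) := ‹Finite M›
  exact (B q).subsingleton_three ((arithDatum S).resRep M q)
    ((arithDatum S).isDiscrete_resRep M hM q)

/-- The product of the local `H³` of a finite discrete global module vanishes. -/
theorem subsingleton_locH_three (B : ∀ q : S, LocalTate.LocalBase p q.1)
    (M : Rep (ZMod p) Γℚ) [Finite M] (hM : (levelsS S).IsDiscrete M) :
    Subsingleton ((arithDatum S).locH M 3) := by
  have := fun q => subsingleton_three_local B M hM q
  exact inferInstanceAs (Subsingleton (∀ q, _))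

/-- **Right exactness of `H³_c`** for a short exact sequence of finite discrete modules: the
hypotheses of `LocDatum.HcMap_surjective_of_subsingleton` for the arithmetic datum. -/
theorem HcMap_three_surjective (hpS : pPrime p ∈ S) (hvan : GlobalVan p S 3)
    (B : ∀ q : S, LocalTate.LocalBase p q.1)
    {X : ShortComplex (Rep (ZMod p) Γℚ)} (hX : X.ShortExact) [Finite X.X₂]
    (hd : (levelsS S).IsDiscrete X.X₂) :
    Function.Surjective ((arithDatum S).HcMap X.g 3) := by
  have hinj : Function.Injective X.f.hom := (Rep.mono_iff_injective _).1 hX.mono_f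
  have hsurj : Function.Surjective X.g.hom := (Rep.epi_iff_surjective _).1 hX.epi_g
  have hfin₁ : Finite X.X₁ := Finite.of_injective _ hinj
  have hfin₃ : Finite X.X₃ := Finite.of_surjective _ hsurj
  have hd₁ : (levelsS S).IsDiscrete X.X₁ :=
    DevissageRep.isDiscrete_of_injective (levelsS S) X.f hinj hd
  have hd₃ : (levelsS S).IsDiscrete X.X₃ :=
    DevissageRep.isDiscrete_of_surjective (levelsS S) X.g hsurj hd
  exact (arithDatum S).HcMap_surjective_of_subsingleton hX hd 2
    (subsingleton_three hpS hvan X.X₃ hd₃)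
    (fun q => subsingleton_three_local B X.X₁ hd₁ q)

end RightExact

end Fermat.Agent.Lib.CFT.Duality.GlobalVanishing
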