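import Mathlib

/-!
P-CFT, layer L4 (duality), step (D5): the pure linear algebra behind
`dim Sha^2(M) = dim Sha^1(M')`.

Setting (all spaces over a field `k`):

  P1 --d--> H2c --f--> H2            exact at H2c,   K2 := range f   (= ker loc2 = Sha^2),
  a perfect pairing  bg : H2c x H1' --> k    (global duality, `beta^2` is an isomorphism),
  K1 := the annihilator in H1' of `range d` with respect to `bg`.

Core statement: `K2` is finite dimensional and `finrank K2 = finrank K1`.
Only `H1'` is assumed finite dimensional.

In the application `K1 = ker (loc1' : H1' --> P1')` because of a local pairing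
`bl : P1 x P1' --> k`, nondegenerate on the right, with `bg (d x) h = bl x (loc1' h)`.
The corresponding corollaries are `finrank_eq_finrank_ker_of_pairings` and
`finrank_eq_finrank_inf_ker` (the second one has the shape `C ⊓ ker L` of the frozen `sha₁`).
The target `P1'` of the localisation map is only required to be an additive commutative monoid,
so that dependent products of quotient modules can be plugged in without instance problems.
-/

set_option autoImplicit false

namespace Fermat.Agent.Lib.CFT.Duality.PTLinAlg

open Module LinearMap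

variable {k : Type*} [Field k]

section Core

variable {H2c H2 P1 H1' : Type*}
  [AddCommGroup H2c] [Module k H2c] [AddCommGroup H2] [Module k H2]
  [AddCommMonoid P1] [Module k P1] [AddCommGroup H1'] [Module k H1']

/-- A pairing which is nondegenerate on both sides, with one side finite dimensional, is perfect. -/
theorem isPerfPair_of_nondegenerate [FiniteDimensional k H1'] (bg : H2c →ₗ[k] H1' →ₗ[k] k)
    (hbg_left : ∀ x, (∀ h, bg x h = 0) → x = 0) (hbg_right : ∀ h, (∀ x, bg x h = 0) → h = 0) :
    bg.IsPerfPair := by
  have hinj : Function.Injective bg := by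
    rw [← LinearMap.ker_eq_bot, LinearMap.ker_eq_bot']
    intro x hx
    exact hbg_left x fun h => by rw [hx]; rfl
  have hinj' : Function.Injective bg.flip := by
    rw [← LinearMap.ker_eq_bot, LinearMap.ker_eq_bot']
    intro h hh
    exact hbg_right h fun x => by
      have := LinearMap.congr_fun hh x
      simpa using this
  exact LinearMap.IsPerfPair.of_injective' hinj hinj'

/-- Core form. `K2 = range f` and `K1` is the annihilator of `range d` under the perfect
pairing `bg`. -/
theorem finrank_eq_finrank_annihilator [FiniteDimensional k H1']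
    (d : P1 →ₗ[k] H2c) (f : H2c →ₗ[k] H2) (hdf : range d = ker f)
    (K2 : Submodule k H2) (hfl : range f = K2)
    (bg : H2c →ₗ[k] H1' →ₗ[k] k)
    (hbg_left : ∀ x, (∀ h, bg x h = 0) → x = 0) (hbg_right : ∀ h, (∀ x, bg x h = 0) → h = 0)
    (K1 : Submodule k H1') (hK1 : ∀ h, h ∈ K1 ↔ ∀ x, bg (d x) h = 0) :
    Module.Finite k K2 ∧ finrank k K2 = finrank k K1 := by
  have : bg.IsPerfPair := isPerfPair_of_nondegenerate bg hbg_left hbg_right
  let β : H2c ≃ₗ[k] Dual k H1' := bg.toPerfPair
  have : FiniteDimensional k H2c := β.symm.finiteDimensional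
  have hfin : Module.Finite k K2 := by
    rw [← hfl]; infer_instance
  refine ⟨hfin, ?_⟩
  -- W := image of `range d` in the dual of H1'
  let W : Subspace k (Dual k H1') := (range d).map (β : H2c →ₗ[k] Dual k H1')
  have hW : finrank k W = finrank k (range d) :=
    (Submodule.equivMapOfInjective (β : H2c →ₗ[k] Dual k H1') β.injective (range d)).symm.finrank_eq
  have hK1' : K1 = W.dualCoannihilator := by
    ext h
    rw [hK1, Submodule.mem_dualCoannihilator]
    constructor
    · rintro hh φ ⟨y, ⟨x, rfl⟩, rfl⟩
      simpa [β] using hh x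
    · intro hh x
      have := hh (β (d x)) ⟨d x, ⟨x, rfl⟩, rfl⟩
      simpa [β] using this
  have h0 : finrank k W + finrank k W.dualCoannihilator = finrank k H1' :=
    Subspace.finrank_add_finrank_dualCoannihilator_eq W
  have h1 : finrank k (range f) + finrank k (ker f) = finrank k H2c :=
    f.finrank_range_add_finrank_ker
  have h3 : finrank k H2c = finrank k H1' := by
    rw [β.finrank_eq, Subspace.dual_finrank_eq]
  rw [← hfl, hK1']
  rw [← hdf, ← hW] at h1
  omega

end Core

section Main

variable {H2c H2 P1 H1' P1' : Type*}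
  [AddCommGroup H2c] [Module k H2c] [AddCommGroup H2] [Module k H2]
  [AddCommMonoid P1] [Module k P1] [AddCommGroup H1'] [Module k H1']
  [AddCommMonoid P1'] [Module k P1']

/-- Main form: `bg` is the global pairing (`H^2_c(M) x H^1(M') -> k`, perfect), `bl` is the sum
of the local pairings (`P^1(M) x P^1(M') -> k`, nondegenerate on the right), `K2 = range f`
(`= ker loc2`).  Only `H1'` is assumed finite dimensional. -/
theorem finrank_eq_finrank_ker_of_pairings [FiniteDimensional k H1']
    (d : P1 →ₗ[k] H2c) (f : H2c →ₗ[k] H2) (hdf : range d = ker f)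
    (K2 : Submodule k H2) (hfl : range f = K2)
    (loc1' : H1' →ₗ[k] P1')
    (bg : H2c →ₗ[k] H1' →ₗ[k] k)
    (hbg_left : ∀ x, (∀ h, bg x h = 0) → x = 0) (hbg_right : ∀ h, (∀ x, bg x h = 0) → h = 0)
    (bl : P1 →ₗ[k] P1' →ₗ[k] k) (hbl_right : ∀ y, (∀ x, bl x y = 0) → y = 0)
    (hcomp : ∀ x h, bg (d x) h = bl x (loc1' h)) :
    Module.Finite k K2 ∧ finrank k K2 = finrank k (ker loc1') := by
  refine finrank_eq_finrank_annihilator d f hdf K2 hfl bg hbg_left hbg_right (ker loc1') ?_
  intro h
  rw [LinearMap.mem_ker]
  constructor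
  · intro hh x
    rw [hcomp, hh, map_zero]
  · intro hh
    exact hbl_right _ fun x => by rw [← hcomp]; exact hh x

/-- Variant where `loc1'` is the restriction to a submodule `C` (the continuous / unramified
classes) of a map `L` defined on a bigger space `H`; the conclusion is phrased with `C ⊓ ker L`,
the shape of the frozen `sha₁`. -/
theorem finrank_eq_finrank_inf_ker {H : Type*} [AddCommGroup H] [Module k H]
    (C : Submodule k H) [FiniteDimensional k C] (L : H →ₗ[k] P1')
    (d : P1 →ₗ[k] H2c) (f : H2c →ₗ[k] H2) (hdf : range d = ker f)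
    (K2 : Submodule k H2) (hfl : range f = K2)
    (bg : H2c →ₗ[k] C →ₗ[k] k)
    (hbg_left : ∀ x, (∀ h, bg x h = 0) → x = 0) (hbg_right : ∀ h, (∀ x, bg x h = 0) → h = 0)
    (bl : P1 →ₗ[k] P1' →ₗ[k] k) (hbl_right : ∀ y, (∀ x, bl x y = 0) → y = 0)
    (hcomp : ∀ x (h : C), bg (d x) h = bl x (L h)) :
    Module.Finite k K2 ∧ Module.Finite k ↥(C ⊓ ker L) ∧
      finrank k K2 = finrank k ↥(C ⊓ ker L) := by
  have key := finrank_eq_finrank_ker_of_pairings d f hdf K2 hfl (L.domRestrict C) bg hbg_left
    hbg_right bl hbl_right (fun x h => by simpa using hcomp x h)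
  have hmap : (ker (L.domRestrict C)).map C.subtype = C ⊓ ker L := by
    ext x
    simp only [Submodule.mem_map, LinearMap.mem_ker, LinearMap.domRestrict_apply,
      Submodule.subtype_apply, Subtype.exists, exists_and_right, exists_eq_right,
      Submodule.mem_inf]
    constructor
    · rintro ⟨hx, h0⟩; exact ⟨hx, h0⟩
    · rintro ⟨hx, h0⟩; exact ⟨hx, h0⟩
  let e : ker (L.domRestrict C) ≃ₗ[k] ↥(C ⊓ ker L) :=
    (Submodule.equivMapOfInjective C.subtype C.injective_subtype _).trans
      (LinearEquiv.ofEq _ _ hmap)
  refine ⟨key.1, ?_, ?_⟩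
  · exact Module.Finite.equiv e
  · rw [key.2]; exact e.finrank_eq

end Main

section ExactForm

variable {H2c H2 P2 P1 H1' P1' : Type*}
  [AddCommGroup H2c] [Module k H2c] [AddCommGroup H2] [Module k H2]
  [AddCommMonoid P2] [Module k P2]
  [AddCommMonoid P1] [Module k P1] [AddCommGroup H1'] [Module k H1']
  [AddCommMonoid P1'] [Module k P1']

/-- Over a field, a vector killed by all linear functionals is zero (the space is only assumed
to be an additive commutative monoid with a module structure). -/
theorem eq_zero_of_forall_dual_eq_zero (y : P1') (hy : ∀ φ : Dual k P1', φ y = 0) : y = 0 := by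
  let _ : AddCommGroup P1' := Module.addCommMonoidToAddCommGroup k
  exact (Module.forall_dual_apply_eq_zero_iff k y).1 hy

/-- The shape of the L4 blueprint: exact sequences as `Function.Exact`, `β` bijective, `lam`
surjective, compatibility up to a nonzero scalar `ε` (a sign in practice). -/
theorem finrank_ker_eq_of_exact [FiniteDimensional k H1']
    (δ : P1 →ₗ[k] H2c) (j : H2c →ₗ[k] H2) (loc2 : H2 →ₗ[k] P2) (loc1' : H1' →ₗ[k] P1')
    (β : H2c →ₗ[k] Dual k H1') (lam : P1 →ₗ[k] Dual k P1')
    (h1 : Function.Exact δ j) (h2 : Function.Exact j loc2) (hβ : Function.Bijective β)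
    (hlam : Function.Surjective lam) (ε : k) (hε : ε ≠ 0)
    (hcomp : ∀ x, β (δ x) = ε • loc1'.dualMap (lam x)) :
    Module.Finite k (ker loc2) ∧ Module.Finite k (ker loc1') ∧
      finrank k (ker loc2) = finrank k (ker loc1') := by
  have hdf : range δ = ker j := ((LinearMap.exact_iff).1 h1).symm
  have hfl : range j = ker loc2 := ((LinearMap.exact_iff).1 h2).symm
  have key := finrank_eq_finrank_annihilator δ j hdf (ker loc2) hfl β
    (fun x hx => by
      apply hβ.1
      rw [map_zero]
      exact LinearMap.ext hx)
    (fun h hh => by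
      apply (Module.forall_dual_apply_eq_zero_iff k h).1
      intro φ
      obtain ⟨x, rfl⟩ := hβ.2 φ
      exact hh x)
    (ker loc1')
    (fun h => by
      rw [LinearMap.mem_ker]
      constructor
      · intro hh x
        rw [hcomp]
        simp [hh]
      · intro hh
        apply eq_zero_of_forall_dual_eq_zero (k := k)
        intro φ
        obtain ⟨x, rfl⟩ := hlam φ
        have := hh x
        rw [hcomp] at this
        simpa [hε] using this)
  exact ⟨key.1, inferInstance, key.2⟩

end ExactForm

end Fermat.Agent.Lib.CFT.Duality.PTLinAlg
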