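import Fermat.Agent.Lib.CFT.Duality.Cone
import Fermat.Agent.Lib.CFT.Duality.PTLinAlg

/-!
P-CFT, layer L4 (duality), step (D5) on a localisation datum.

For a localisation datum `D` over a field `k` and two representations `M`, `M'` (in the
application `M' = M.dualTwist χ`): from
* finite dimensionality of `H¹(G, M')`,
* a perfect pairing `bg : H²_c(M) × H¹(G, M') → k`            (global duality, `β²` bijective),
* a pairing `bl : P¹(M) × P¹(M') → k` nondegenerate on the right   (local duality),
* the compatibility `bg (∂ x) h = ε • bl x (loc h)` with `ε ≠ 0`   (cup products, `ε = ±1`),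
we get `dim Ш²(M) = dim Ш¹(M')` (both finite), where `Шⁿ = D.shaLevel _ n`.
-/

set_option autoImplicit false

open CategoryTheory

namespace Fermat.Agent.Lib.CFT.Duality

open Fermat.Agent.Lib.CFT.Profinite Fermat.Agent.Lib.CFT.Profinite.LevelFamily

namespace LocDatum

variable {k : Type} [Field k] {G : Type} [Group G] (D : LocDatum G) (M M' : Rep k G)

/-- Step (D5): the dimension equality `dim Ш²(M) = dim Ш¹(M')` from global and local duality. -/
theorem finrank_shaLevel_of_pairings
    [Module.Finite k (D.𝒰.levelCohomology M' 1)]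
    (bg : D.Hc M 2 →ₗ[k] D.𝒰.levelCohomology M' 1 →ₗ[k] k)
    (hbg_left : ∀ x, (∀ h, bg x h = 0) → x = 0) (hbg_right : ∀ h, (∀ x, bg x h = 0) → h = 0)
    (bl : D.locH M 1 →ₗ[k] D.locH M' 1 →ₗ[k] k)
    (hbl_right : ∀ y, (∀ x, bl x y = 0) → y = 0)
    (ε : k) (hε : ε ≠ 0)
    (hcomp : ∀ x h, bg (D.HcOfLocal M 1 x) h = ε * bl x (D.locMapH M' 1 h)) :
    Module.Finite k (D.shaLevel M 2) ∧ Module.Finite k (D.shaLevel M' 1) ∧
      Module.finrank k (D.shaLevel M 2) = Module.finrank k (D.shaLevel M' 1) := by
  have hdf : LinearMap.range (D.HcOfLocal M 1) = LinearMap.ker (D.HcToGlobal M 2) :=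
    ((LinearMap.exact_iff).1 (D.exact_ofLocal_toGlobal M 1)).symm
  have hfl : LinearMap.range (D.HcToGlobal M 2) = D.shaLevel M 2 :=
    (D.shaLevel_eq_range M 2).symm
  have key := PTLinAlg.finrank_eq_finrank_annihilator (D.HcOfLocal M 1) (D.HcToGlobal M 2) hdf
    (D.shaLevel M 2) hfl bg hbg_left hbg_right (D.shaLevel M' 1) (fun h => by
      rw [shaLevel, LinearMap.mem_ker]
      constructor
      · intro hh x
        rw [hcomp, hh, map_zero, mul_zero]
      · intro hh
        apply hbl_right
        intro x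
        have := hh x
        rw [hcomp] at this
        exact (mul_eq_zero.1 this).resolve_left hε)
  exact ⟨key.1, inferInstance, key.2⟩

end LocDatum

end Fermat.Agent.Lib.CFT.Duality
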