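import Fermat.Agent.Lib.CFT.Profinite.BridgeContract
import Fermat.Agent.Lib.CFT.Duality.PoitouTateAbstract

/-!
P-CFT, layer L4 (duality): the frozen statement S55 from the global and local duality pairings on
the arithmetic localisation datum `arithDatum S` (hypothesis form of `Duality/PoitouTate`).

What remains to be constructed for S55 (with `M' = M.dualTwist (cycloChar p)`, `D = arithDatum S`):
* finiteness of `H¹(G_S, M')` (level cohomology),
* `bg : H²_c(M) × H¹(G_S, M') → 𝔽_p` perfect (global duality `β²`),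
* `bl : P¹(M) × P¹(M') → 𝔽_p` nondegenerate on the right (local Tate duality),
* `bg (∂ x) h = ε * bl x (loc h)` with `ε ≠ 0`.
-/

set_option autoImplicit false

open CategoryTheory groupCohomology

namespace Fermat.Agent.Lib.CFT.Duality

open Fermat.Agent.Lib.CFT.Profinite LevelFamily ExtCitation Fermat.Agent.Lib.CFT.Profinite.Bridge

local notation "Qbar" => AlgebraicClosure ℚ
local notation "Γℚ" => (AlgebraicClosure ℚ ≃ₐ[ℚ] AlgebraicClosure ℚ)

variable {p : ℕ} [Fact p.Prime]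

/-- The frozen S55 conclusion from the duality pairings on `arithDatum S`. -/
theorem s55_of_arith_pairings (hp2 : p ≠ 2) (S : Finset Nat.Primes) (hpS : pPrime p ∈ S)
    (M : Rep (ZMod p) Γℚ) [FiniteDimensional (ZMod p) M]
    (hsm : ∀ m : M, ∃ F : IntermediateField ℚ Qbar, FiniteDimensional ℚ F ∧
      ∀ s ∈ F.fixingSubgroup, M.ρ s m = m)
    (hMur : ∀ q : Nat.Primes, q ∉ S → ∀ A : ValuationSubring Qbar,
      A.LiesOverPrime (q : ℕ) → ∀ g ∈ A.inertiaSubgroupIn ℚ, M.ρ g = 1)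
    [Module.Finite (ZMod p)
      ((arithDatum S).𝒰.levelCohomology (M.dualTwist (cycloChar p)) 1)]
    (bg : (arithDatum S).Hc M 2 →ₗ[ZMod p]
      (arithDatum S).𝒰.levelCohomology (M.dualTwist (cycloChar p)) 1 →ₗ[ZMod p] ZMod p)
    (hbg_left : ∀ x, (∀ h, bg x h = 0) → x = 0) (hbg_right : ∀ h, (∀ x, bg x h = 0) → h = 0)
    (bl : (arithDatum S).locH M 1 →ₗ[ZMod p]
      (arithDatum S).locH (M.dualTwist (cycloChar p)) 1 →ₗ[ZMod p] ZMod p)
    (hbl_right : ∀ y, (∀ x, bl x y = 0) → y = 0)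
    (ε : ZMod p) (hε : ε ≠ 0)
    (hcomp : ∀ x h, bg ((arithDatum S).HcOfLocal M 1 x) h =
      ε * bl x ((arithDatum S).locMapH (M.dualTwist (cycloChar p)) 1 h)) :
    ∃ B : sha₁ S (M.dualTwist (cycloChar p)) →ₗ[ZMod p] sha₂ S M →ₗ[ZMod p] ZMod p,
      (∀ y, (∀ x, B y x = 0) → y = 0) ∧ (∀ x, (∀ y, B y x = 0) → x = 0) := by
  obtain ⟨h2, h1, heq⟩ := (arithDatum S).finrank_shaLevel_of_pairings M
    (M.dualTwist (cycloChar p)) bg hbg_left hbg_right bl hbl_right ε hε hcomp
  exact s55_of_finrank_shaLevel hp2 S M hpS hsm hMur h1 h2 heq.symm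

end Fermat.Agent.Lib.CFT.Duality
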