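/-
helper1 (P-CFT, L4 duality layer).  The final assembly of the duality layer: from global duality
(`Duality/GlobalDuality.lean`), local Tate duality in product form (`Duality/LocalTateProd.lean`)
and the compatibility of the global trace with the local invariants we get the equality of
dimensions of the two Tate-Shafarevich groups, hence the frozen statement S55
(`Duality/S55OfPairings.lean`), modulo ONE explicit input structure `GlobalInput`.
-/
import Fermat.Agent.Lib.CFT.Duality.GlobalDuality
import Fermat.Agent.Lib.CFT.Duality.LocalTateProd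
import Fermat.Agent.Lib.CFT.Duality.S55OfPairings
import Fermat.Agent.Lib.CFT.Duality.GlobalVanishing

set_option autoImplicit false

open CategoryTheory groupCohomology

namespace Fermat.Agent.Lib.CFT.Duality.PoitouTate

open Fermat.Agent.Lib.CFT.Profinite Fermat.Agent.Lib.CFT.Profinite.LevelFamily ExtCitation
open Fermat.Agent.Lib.CFT.Profinite.Bridge
open Fermat.Agent.Lib.CFT.Coh.Cup Fermat.Agent.Lib.CFT.Duality.LocalTate
open Fermat.Agent.Lib.CFT.Duality.GlobalDuality

local notation "Qbar" => AlgebraicClosure ℚ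
local notation "Γℚ" => (AlgebraicClosure ℚ ≃ₐ[ℚ] AlgebraicClosure ℚ)

/-! ### The abstract assembly on a localisation datum -/

section Abstract

variable {k : Type} [Field k] {G : Type} [Group G] (D : LocDatum G) (χ : G →* kˣ)
  (tr : D.Hc (groupCohomology.ofChar χ) (2 + 1) →ₗ[k] k)
  (inv : ∀ v, (D.𝒱 v).levelCohomology (groupCohomology.ofChar (χ.comp (D.φ v))) (1 + 1) →ₗ[k] k)

/-- (T1) The global trace restricted to the local cohomology groups is the sum of the local
invariant maps. -/
def TraceCompat : Prop :=
  ∀ z : D.locH (groupCohomology.ofChar χ) 2,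
    tr (D.HcOfLocal (groupCohomology.ofChar χ) 2 z) = ∑ v, inv v (z v)

open Classical in
/-- (T1) follows from its version on the single components. -/
theorem traceCompat_of_single
    (h : ∀ (v : D.ι) (x : (D.𝒱 v).levelCohomology (D.resRep (groupCohomology.ofChar χ) v) 2),
      tr (D.HcOfLocal (groupCohomology.ofChar χ) 2 (Pi.single v x)) = inv v x) :
    TraceCompat D χ tr inv := by
  intro z
  have hz : z = ∑ v, Pi.single v (z v) := by
    funext w
    rw [Finset.sum_apply, Finset.sum_eq_single w]
    · rw [Pi.single_eq_same]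
    · intro v _ hvw
      rw [Pi.single_eq_of_ne (Ne.symm hvw)]
    · intro hw
      exact absurd (Finset.mem_univ w) hw
  conv_lhs => rw [hz]
  rw [map_sum, map_sum]
  exact Finset.sum_congr rfl fun v _ => h v (z v)

variable {D χ tr inv}

/-- The compatibility of the global and the local pairings:
`β²(∂ x)(y) = ∑ᵥ invᵥ (xᵥ ∪ locᵥ y)`. -/
theorem beta0_HcOfLocal (hT : TraceCompat D χ tr inv) (M : Rep k G) (x : D.locH M 1)
    (y : D.𝒰.levelCohomology (M.dualTwist χ) 1) :
    beta0 D χ 2 tr M (D.HcOfLocal M 1 x) y =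
      lamLoc D χ inv (rfl : 1 + 1 = 1 + 1) M x (D.locMapH (M.dualTwist χ) 1 y) := by
  rw [lamLoc_apply]
  have h1 := D.cupHc_HcOfLocal (evPairing χ M) (rfl : 1 + 1 = 2) x y
  have h2 := hT (fun v => (D.𝒱 v).cupH ((evPairing χ M).res (D.φ v)) (rfl : 1 + 1 = 2) (x v)
    (D.locMapHAt (M.dualTwist χ) 1 v y))
  exact (congrArg tr h1).trans h2

/-- **Poitou-Tate, dimension form** on a localisation datum: if `β²_M` is bijective, the product
of the local duality maps is surjective, the trace is compatible with the local invariants and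
`H¹(G, M')` is finite dimensional, then `Ш²(M)` and `Ш¹(M')` are finite dimensional of the same
dimension. -/
theorem finrank_shaLevel_of_duality (hT : TraceCompat D χ tr inv) (M : Rep k G)
    [Module.Finite k (D.𝒰.levelCohomology (M.dualTwist χ) 1)]
    (hβ : Function.Bijective (beta0 D χ 2 tr M))
    (hlam : Function.Surjective (lamLoc D χ inv (rfl : 1 + 1 = 1 + 1) M)) :
    Module.Finite k (D.shaLevel M 2) ∧ Module.Finite k (D.shaLevel (M.dualTwist χ) 1) ∧
      Module.finrank k (D.shaLevel M 2) = Module.finrank k (D.shaLevel (M.dualTwist χ) 1) := by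
  refine D.finrank_shaLevel_of_pairings M (M.dualTwist χ) (beta0 D χ 2 tr M) ?_ ?_
    (lamLoc D χ inv (rfl : 1 + 1 = 1 + 1) M) ?_ 1 one_ne_zero ?_
  · intro x hx
    apply hβ.1
    rw [map_zero]
    exact LinearMap.ext hx
  · intro h hh
    refine (Module.forall_dual_apply_eq_zero_iff k h).1 fun ψ => ?_
    obtain ⟨x, rfl⟩ := hβ.2 ψ
    exact hh x
  · intro y hy
    refine (Module.forall_dual_apply_eq_zero_iff k y).1 fun ψ => ?_
    obtain ⟨x, rfl⟩ := hlam ψ
    exact hy x
  · intro x h
    rw [one_mul]
    exact beta0_HcOfLocal hT M x h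

end Abstract

/-! ### The arithmetic input and the final theorems -/

section Arith

variable (p : ℕ) [Fact p.Prime] (S : Finset Nat.Primes)

/-- **The input of the duality layer** for the arithmetic datum `arithDatum S` and coefficients
`ZMod p`: a global trace on `H³_c(μ_p)`, the inputs of local Tate duality at the primes of `S`,
their compatibility (T1), the vanishing of `H³(G_S, N)` and finiteness of `H¹(G_S, N)` for finite
discrete `N`, and global duality for the modules `Coind_V 𝔽_p`, `V` a normal level on which the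
cyclotomic character is trivial. -/
structure GlobalInput where
  /-- the global trace -/
  tr : (arithDatum S).Hc (muRep p) (2 + 1) →ₗ[ZMod p] ZMod p
  /-- the inputs of local Tate duality -/
  loc : ∀ q : S, LocalBase p q.1
  /-- (T1) the trace restricted to the local `H²` is the sum of the local invariants -/
  tr_ofLocal : TraceCompat (arithDatum S) (cycloChar p) tr (arithInv S loc)
  /-- `H³(G_S, N) = 0` for finite discrete `N` -/
  van : ∀ (N : Rep (ZMod p) Γℚ) [Finite N], (arithDatum S).𝒰.IsDiscrete N →
    Subsingleton ((arithDatum S).𝒰.levelCohomology N (2 + 1))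
  /-- `H¹(G_S, N)` is finite for finite discrete `N` -/
  fin : ∀ (N : Rep (ZMod p) Γℚ) [Finite N], (arithDatum S).𝒰.IsDiscrete N →
    Module.Finite (ZMod p) ((arithDatum S).𝒰.levelCohomology N 1)
  /-- global duality for `Coind_V 𝔽_p` -/
  base : ∀ V : Subgroup Γℚ, V.Normal → V ∈ (arithDatum S).𝒰.levels →
    (∀ s ∈ V, cycloChar p s = 1) →
    Function.Bijective (beta0 (arithDatum S) (cycloChar p) 2 tr (Additivity.PV V)) ∧
      Function.Bijective (beta1 (arithDatum S) (cycloChar p) 2 tr (Additivity.PV V))

variable {p S}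

/-- The input structure from its "raw" form: vanishing of `H³(W, 𝔽_p)` and finiteness of
`H¹(W, 𝔽_p)` for the open subgroups `W` of the kernel of the cyclotomic character (instead of
all finite discrete coefficient modules), via the Sylow criteria (`Duality/GlobalVanishing`). -/
noncomputable def GlobalInput.ofTrivial (hpS : pPrime p ∈ S)
    (tr : (arithDatum S).Hc (muRep p) (2 + 1) →ₗ[ZMod p] ZMod p)
    (loc : ∀ q : S, LocalBase p q.1)
    (tr_ofLocal : TraceCompat (arithDatum S) (cycloChar p) tr (arithInv S loc))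
    (van : GlobalVanishing.GlobalVan p S 3) (fin : GlobalVanishing.GlobalFin p S 1)
    (base : ∀ V : Subgroup Γℚ, V.Normal → V ∈ (arithDatum S).𝒰.levels →
      (∀ s ∈ V, cycloChar p s = 1) →
      Function.Bijective (beta0 (arithDatum S) (cycloChar p) 2 tr (Additivity.PV V)) ∧
        Function.Bijective (beta1 (arithDatum S) (cycloChar p) 2 tr (Additivity.PV V))) :
    GlobalInput p S where
  tr := tr
  loc := loc
  tr_ofLocal := tr_ofLocal
  van N _ hN := GlobalVanishing.subsingleton_three hpS van N hN
  fin N _ hN := GlobalVanishing.finite_levelCohomology hpS fin N hN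
  base := base

/-- The cyclotomic character is trivial on some level unramified outside `S ∋ p`. -/
theorem exists_level_cycloChar_eq_one (hpS : pPrime p ∈ S) :
    ∃ U ∈ (arithDatum S).𝒰.levels, ∀ s ∈ U, cycloChar p s = 1 := by
  obtain ⟨U, hU, hle⟩ := exists_level_le_ker_cycloChar (p := p) S hpS
  exact ⟨U, hU, fun s hs => MonoidHom.mem_ker.1 (hle hs)⟩

/-- **Global duality** for all finite discrete modules. -/
theorem GlobalInput.beta_bijective (I : GlobalInput p S) (hpS : pPrime p ∈ S)
    (M : Rep (ZMod p) Γℚ) [Finite M] (hM : (arithDatum S).𝒰.IsDiscrete M) :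
    Function.Bijective (beta0 (arithDatum S) (cycloChar p) 2 I.tr M) ∧
      Function.Bijective (beta1 (arithDatum S) (cycloChar p) 2 I.tr M) := by
  have : NeZero p := ⟨(Fact.out : p.Prime).ne_zero⟩
  refine GlobalDuality.beta_bijective (arithDatum S) (cycloChar p) 2 I.tr
    (fun N _ hN => I.van N hN) (fun N _ hN v => ?_) (exists_level_cycloChar_eq_one hpS)
    I.base M hM
  have : Finite (Rep.res (primeLocalToGlobal v.1) N) := ‹Finite N›
  exact (I.loc v).subsingleton_three (Rep.res (primeLocalToGlobal v.1) N)
    ((arithDatum S).isDiscrete_resRep N hN v)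

/-- **Poitou-Tate, dimension form**: `Ш²(M)` and `Ш¹(M^*(1))` are finite dimensional of the same
dimension, for every finite discrete module `M` unramified outside `S`. -/
theorem GlobalInput.finrank_shaLevel (I : GlobalInput p S) (hpS : pPrime p ∈ S)
    (M : Rep (ZMod p) Γℚ) [Finite M] (hM : (arithDatum S).𝒰.IsDiscrete M) :
    Module.Finite (ZMod p) ((arithDatum S).shaLevel M 2) ∧
      Module.Finite (ZMod p) ((arithDatum S).shaLevel (M.dualTwist (cycloChar p)) 1) ∧
      Module.finrank (ZMod p) ((arithDatum S).shaLevel M 2) =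
        Module.finrank (ZMod p) ((arithDatum S).shaLevel (M.dualTwist (cycloChar p)) 1) := by
  have : NeZero p := ⟨(Fact.out : p.Prime).ne_zero⟩
  have hM' : (arithDatum S).𝒰.IsDiscrete (M.dualTwist (cycloChar p)) :=
    DualTwist.isDiscrete_dualTwist (cycloChar p) (arithDatum S).𝒰 M hM
      (exists_level_cycloChar_eq_one hpS)
  have : Module.Finite (ZMod p)
      ((arithDatum S).𝒰.levelCohomology (M.dualTwist (cycloChar p)) 1) :=
    I.fin (M.dualTwist (cycloChar p)) hM'
  exact finrank_shaLevel_of_duality I.tr_ofLocal M (I.beta_bijective hpS M hM).1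
    (bijective_lamLoc_arith S I.loc M hM).1.2

/-- **The frozen statement S55 from the input of the duality layer.** -/
theorem s55_of_globalInput (hp2 : p ≠ 2) (hpS : pPrime p ∈ S) (I : GlobalInput p S)
    (M : Rep (ZMod p) Γℚ) [FiniteDimensional (ZMod p) M]
    (hsm : ∀ m : M, ∃ F : IntermediateField ℚ Qbar, FiniteDimensional ℚ F ∧
      ∀ s ∈ F.fixingSubgroup, M.ρ s m = m)
    (hMur : ∀ q : Nat.Primes, q ∉ S → ∀ A : ValuationSubring Qbar,
      A.LiesOverPrime (q : ℕ) → ∀ g ∈ A.inertiaSubgroupIn ℚ, M.ρ g = 1) :
    ∃ B : sha₁ S (M.dualTwist (cycloChar p)) →ₗ[ZMod p] sha₂ S M →ₗ[ZMod p] ZMod p,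
      (∀ y, (∀ x, B y x = 0) → y = 0) ∧ (∀ x, (∀ y, B y x = 0) → x = 0) := by
  have : NeZero p := ⟨(Fact.out : p.Prime).ne_zero⟩
  have : Finite M := Module.finite_of_finite (ZMod p)
  have hM : (arithDatum S).𝒰.IsDiscrete M := isDiscrete_levelsS S M hsm hMur
  obtain ⟨h2, h1, heq⟩ := I.finrank_shaLevel hpS M hM
  exact s55_of_finrank_shaLevel hp2 S M hpS hsm hMur h1 h2 heq.symm

end Arith

end Fermat.Agent.Lib.CFT.Duality.PoitouTate
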