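import Fermat.Agent.Lib.CFT.Duality.CoindDual
import Fermat.Agent.Lib.CFT.Duality.Additivity
import Fermat.Agent.Lib.CFT.Profinite.LevelLowDegree

/-!
# The devissage step for duality, assembled

Input: a level family `𝒰` on `G`, a character `χ` trivial on some level, an `F`-side
(`FSide 𝒰`: two functors `F0 = F^{n-1}`, `F1 = F^n` with a connecting map, exact on short exact
sequences of finite discrete modules, right exact in the top degree) and comparison maps
(`Compare FS χ`) `β0 M : F0 M → Dual H¹(𝒰, M')`, `β1 M : F1 M → Dual H⁰(𝒰, M')`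
(`M' = M.dualTwist χ`), natural and compatible with the connecting maps up to a fixed sign.

Output (`bijective`): if `β0`, `β1` are bijective on `Coind_V k` for all small normal levels
`V`, then they are bijective on every finite discrete module.

The dual side (bottom row) is built here from the long exact sequence of level cohomology of the
transposed sequence; `levelFSide n` is the `F`-side given by level cohomology itself in degrees
`n`, `n + 1` (local duality).
-/

set_option autoImplicit false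

universe u

open CategoryTheory CategoryTheory.Limits Fermat.Agent.Lib.CFT.Profinite
open Fermat.Agent.Lib.CFT.Duality.DevissageRep

namespace Fermat.Agent.Lib.CFT.Duality.DevissageStep

variable {k G : Type u} [CommRing k] [Group G] (𝒰 : LevelFamily G)

/-! ### Functoriality of level cohomology -/

theorem levelCohomologyMap_id (M : Rep.{u} k G) (n : ℕ) :
    𝒰.levelCohomologyMap (𝟙 M) n = 𝟙 _ := by
  show HomologicalComplex.homologyMap ((𝒰.levelComplexFunctor (k := k)).map (𝟙 M)) n = 𝟙 _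
  rw [CategoryTheory.Functor.map_id]
  exact HomologicalComplex.homologyMap_id _ n

theorem levelCohomologyMap_comp {M N L : Rep.{u} k G} (f : M ⟶ N) (g : N ⟶ L) (n : ℕ) :
    𝒰.levelCohomologyMap (f ≫ g) n = 𝒰.levelCohomologyMap f n ≫ 𝒰.levelCohomologyMap g n := by
  show HomologicalComplex.homologyMap ((𝒰.levelComplexFunctor (k := k)).map (f ≫ g)) n = _
  rw [CategoryTheory.Functor.map_comp]
  exact HomologicalComplex.homologyMap_comp _ _ n

theorem levelCohomologyMap_add {M N : Rep.{u} k G} (f g : M ⟶ N) (n : ℕ) :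
    𝒰.levelCohomologyMap (f + g) n = 𝒰.levelCohomologyMap f n + 𝒰.levelCohomologyMap g n := by
  show HomologicalComplex.homologyMap ((𝒰.levelComplexFunctor (k := k)).map (f + g)) n = _
  rw [CategoryTheory.Functor.map_add]
  exact HomologicalComplex.homologyMap_add _ _ n

theorem levelCohomologyMap_zero {M N : Rep.{u} k G} (n : ℕ) :
    𝒰.levelCohomologyMap (0 : M ⟶ N) n = 0 := by
  show HomologicalComplex.homologyMap ((𝒰.levelComplexFunctor (k := k)).map (0 : M ⟶ N)) n = _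
  rw [CategoryTheory.Functor.map_zero]
  exact HomologicalComplex.homologyMap_zero _ _ n

/-- `H⁰` of an injective morphism is injective. -/
theorem levelCohomologyMap_zero_injective {M N : Rep.{u} k G} (f : M ⟶ N)
    (hf : Function.Injective f.hom) : Function.Injective (𝒰.levelCohomologyMap f 0).hom := by
  rw [injective_iff_map_eq_zero]
  intro x hx
  obtain ⟨c, rfl⟩ := 𝒰.classMk_surjective M 0 x
  have h1 : (𝒰.levelCohomologyMap f 0).hom (𝒰.classMk M 0 c) =
      𝒰.classMk N 0 (LevelFamily.levelCocyclesMap (MonoidHom.id G) 𝒰.isCompatible_id f 0 c) :=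
    LevelFamily.levelCohomologyMapOfHom_classMk (MonoidHom.id G) 𝒰.isCompatible_id f 0 c
  rw [h1, LevelFamily.classMk_eq_zero_iff_zero] at hx
  have : c = 0 := by
    apply Subtype.ext
    funext g
    apply hf
    have := congr_fun (congr_arg Subtype.val hx) g
    rw [LevelFamily.levelCocyclesMap_coe] at this
    simpa using this
  rw [this, map_zero]

theorem function_exact_of_moduleCat_exact {S : ShortComplex (ModuleCat.{u} k)} (h : S.Exact) :
    Function.Exact S.f.hom S.g.hom :=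
  (ShortComplex.ShortExact.moduleCat_exact_iff_function_exact S).1 h

end Fermat.Agent.Lib.CFT.Duality.DevissageStep

namespace Fermat.Agent.Lib.CFT.Duality.DevissageStep

variable {k G : Type u} [Field k] [Group G] (𝒰 : LevelFamily G) (χ : G →* kˣ)

/-! ### The dual side `G^j(M) = Dual (H^j(M'))` -/

/-- `G^j(M) = Dual (H^j(𝒰, M'))`. -/
abbrev GG (j : ℕ) (M : Rep.{u} k G) : Type u :=
  Module.Dual k (𝒰.levelCohomology (M.dualTwist χ) j)

/-- Covariant functoriality of `G^j`. -/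
noncomputable def Gmap (j : ℕ) {M N : Rep.{u} k G} (f : M ⟶ N) :
    GG 𝒰 χ j M →ₗ[k] GG 𝒰 χ j N :=
  (𝒰.levelCohomologyMap (DualTwist.transpose χ f) j).hom.dualMap

theorem Gmap_apply (j : ℕ) {M N : Rep.{u} k G} (f : M ⟶ N) (φ : GG 𝒰 χ j M)
    (y : 𝒰.levelCohomology (N.dualTwist χ) j) :
    Gmap 𝒰 χ j f φ y = φ ((𝒰.levelCohomologyMap (DualTwist.transpose χ f) j).hom y) := rfl

theorem Gmap_id (j : ℕ) (M : Rep.{u} k G) : Gmap 𝒰 χ j (𝟙 M) = LinearMap.id := by
  ext φ y
  rw [Gmap_apply, DualTwist.transpose_id, levelCohomologyMap_id]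
  rfl

theorem Gmap_comp (j : ℕ) {M N L : Rep.{u} k G} (f : M ⟶ N) (g : N ⟶ L) :
    Gmap 𝒰 χ j (f ≫ g) = Gmap 𝒰 χ j g ∘ₗ Gmap 𝒰 χ j f := by
  ext φ y
  rw [Gmap_apply, DualTwist.transpose_comp, levelCohomologyMap_comp]
  rfl

theorem Gmap_add (j : ℕ) {M N : Rep.{u} k G} (f g : M ⟶ N) :
    Gmap 𝒰 χ j (f + g) = Gmap 𝒰 χ j f + Gmap 𝒰 χ j g := by
  ext φ y
  rw [Gmap_apply, DualTwist.transpose_add, levelCohomologyMap_add]
  simp only [ModuleCat.hom_add, LinearMap.add_apply, map_add]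
  rfl

theorem Gmap_zero (j : ℕ) {M N : Rep.{u} k G} : Gmap 𝒰 χ j (0 : M ⟶ N) = 0 := by
  ext φ y
  rw [Gmap_apply, DualTwist.transpose_zero, levelCohomologyMap_zero]
  simp

theorem Gmap_sum (j : ℕ) {M N : Rep.{u} k G} {ι : Type*} (s : Finset ι) (f : ι → (M ⟶ N)) :
    Gmap 𝒰 χ j (∑ i ∈ s, f i) = ∑ i ∈ s, Gmap 𝒰 χ j (f i) := by
  classical
  induction s using Finset.induction_on with
  | empty => simp [Gmap_zero]
  | insert i s hi ih => rw [Finset.sum_insert hi, Finset.sum_insert hi, Gmap_add, ih]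

section BottomRow

variable {𝒰 χ} {X : ShortComplex (Rep.{u} k G)} (hX : X.ShortExact)
  (hd' : 𝒰.IsDiscrete (X.X₂.dualTwist χ))

/-- The connecting map of the bottom row, `G^1(X₃) → G^0(X₁)`. -/
noncomputable def Gδ : GG 𝒰 χ 1 X.X₃ →ₗ[k] GG 𝒰 χ 0 X.X₁ :=
  (𝒰.δ (DualTwist.transposeSeq_shortExact χ hX) hd' 0 1 rfl).hom.dualMap

theorem Gδ_apply (φ : GG 𝒰 χ 1 X.X₃) (y : 𝒰.levelCohomology (X.X₁.dualTwist χ) 0) :
    Gδ hX hd' φ y = φ ((𝒰.δ (DualTwist.transposeSeq_shortExact χ hX) hd' 0 1 rfl).hom y) := rfl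

include hX hd' in
theorem exact_Gmap_one : Function.Exact (Gmap 𝒰 χ 1 X.f) (Gmap 𝒰 χ 1 X.g) :=
  Devissage.exact_dualMap (function_exact_of_moduleCat_exact
    (𝒰.exact₂ (DualTwist.transposeSeq_shortExact χ hX) hd' 1))

theorem exact_Gmap_one_Gδ : Function.Exact (Gmap 𝒰 χ 1 X.g) (Gδ hX hd') :=
  Devissage.exact_dualMap (function_exact_of_moduleCat_exact
    (𝒰.exact₁ (DualTwist.transposeSeq_shortExact χ hX) hd' (i := 0) (j := 1) rfl))

theorem exact_Gδ_Gmap_zero : Function.Exact (Gδ hX hd') (Gmap 𝒰 χ 0 X.f) :=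
  Devissage.exact_dualMap (function_exact_of_moduleCat_exact
    (𝒰.exact₃ (DualTwist.transposeSeq_shortExact χ hX) hd' (i := 0) (j := 1) rfl))

include hX hd' in
theorem exact_Gmap_zero : Function.Exact (Gmap 𝒰 χ 0 X.f) (Gmap 𝒰 χ 0 X.g) :=
  Devissage.exact_dualMap (function_exact_of_moduleCat_exact
    (𝒰.exact₂ (DualTwist.transposeSeq_shortExact χ hX) hd' 0))

include hX in
theorem surjective_Gmap_zero : Function.Surjective (Gmap 𝒰 χ 0 X.g) :=
  LinearMap.dualMap_surjective_of_injective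
    (levelCohomologyMap_zero_injective 𝒰 _
      (DualTwist.transpose_injective_of_surjective χ X.g
        ((Rep.epi_iff_surjective _).1 hX.epi_g)))

end BottomRow

/-! ### The module coinduced from the trivial module -/

section PV

variable {k G : Type u} [CommRing k] [Group G] (𝒰 : LevelFamily G) (V : Subgroup G)

open Additivity in
theorem PV_prop (f : PV (k := k) V) (v : G) (hv : v ∈ V) (g : G) : f.1 (v * g) = f.1 g :=
  f.2 ⟨v, hv⟩ g

open Additivity in
theorem isDiscrete_PV (hV : ∃ U ∈ 𝒰.levels, U ≤ V) : 𝒰.IsDiscrete (PV (k := k) V) := by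
  obtain ⟨U, hU, hUV⟩ := hV
  obtain ⟨W, hW, hWU, hn⟩ := 𝒰.normal_le U hU
  intro f
  refine ⟨W, hW, fun s hs => Subtype.ext (funext fun g => ?_)⟩
  show f.1 (g * s) = f.1 g
  have hconj : g * s * g⁻¹ ∈ W := hn.conj_mem s hs g
  have e : g * s = (g * s * g⁻¹) * g := by group
  rw [e, PV_prop V f _ (hUV (hWU hconj)) g]

open Additivity in
instance finite_PV [V.FiniteIndex] [Finite k] : Finite (PV (k := k) V) := by
  have : Finite (Quotient (QuotientGroup.rightRel V)) := DevissageRep.finite_rightQuotient V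
  refine Finite.of_injective
    (fun (f : PV (k := k) V) (q : Quotient (QuotientGroup.rightRel V)) => f.1 q.out) ?_
  intro f f' h
  apply Subtype.ext
  funext g
  have hq : (QuotientGroup.rightRel V) (Quotient.mk _ g : Quotient (QuotientGroup.rightRel V)).out g :=
    Quotient.exact (Quotient.out_eq _)
  have hmem : g * ((Quotient.mk _ g : Quotient (QuotientGroup.rightRel V)).out)⁻¹ ∈ V :=
    QuotientGroup.rightRel_apply.1 hq
  have e : g = (g * ((Quotient.mk _ g : Quotient (QuotientGroup.rightRel V)).out)⁻¹) *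
      (Quotient.mk _ g : Quotient (QuotientGroup.rightRel V)).out := by group
  rw [e, PV_prop V f _ hmem, PV_prop V f' _ hmem]
  exact congr_fun h _

end PV

/-! ### The abstract input and the main theorem -/

section Main

variable {k G : Type u} [Field k] [Group G] (𝒰 : LevelFamily G) (χ : G →* kˣ)

/-- The `F`-side input of the devissage: two functors (values in degrees `n-1`, `n`) on
representations with a connecting map, exact on short exact sequences of finite discrete modules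
and right exact in the top degree. -/
structure FSide where
  /-- the functor in degree `n - 1` -/
  F0 : Rep.{u} k G → ModuleCat.{u} k
  /-- the functor in degree `n` -/
  F1 : Rep.{u} k G → ModuleCat.{u} k
  /-- functoriality -/
  map0 : ∀ {M N : Rep.{u} k G}, (M ⟶ N) → (F0 M →ₗ[k] F0 N)
  map1 : ∀ {M N : Rep.{u} k G}, (M ⟶ N) → (F1 M →ₗ[k] F1 N)
  map0_id : ∀ M : Rep.{u} k G, map0 (𝟙 M) = LinearMap.id
  map1_id : ∀ M : Rep.{u} k G, map1 (𝟙 M) = LinearMap.id
  map0_comp : ∀ {M N L : Rep.{u} k G} (f : M ⟶ N) (g : N ⟶ L), map0 (f ≫ g) = map0 g ∘ₗ map0 f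
  map1_comp : ∀ {M N L : Rep.{u} k G} (f : M ⟶ N) (g : N ⟶ L), map1 (f ≫ g) = map1 g ∘ₗ map1 f
  map0_add : ∀ {M N : Rep.{u} k G} (f g : M ⟶ N), map0 (f + g) = map0 f + map0 g
  map1_add : ∀ {M N : Rep.{u} k G} (f g : M ⟶ N), map1 (f + g) = map1 f + map1 g
  /-- the connecting map -/
  δ : ∀ (X : ShortComplex (Rep.{u} k G)), X.ShortExact → 𝒰.IsDiscrete X.X₂ → (F0 X.X₃ →ₗ[k] F1 X.X₁)
  exact_map0 : ∀ (X : ShortComplex (Rep.{u} k G)) (_ : X.ShortExact) (_ : 𝒰.IsDiscrete X.X₂)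
    [Finite X.X₂], Function.Exact (map0 X.f) (map0 X.g)
  exact_map0_δ : ∀ (X : ShortComplex (Rep.{u} k G)) (hX : X.ShortExact) (hd : 𝒰.IsDiscrete X.X₂)
    [Finite X.X₂], Function.Exact (map0 X.g) (δ X hX hd)
  exact_δ_map1 : ∀ (X : ShortComplex (Rep.{u} k G)) (hX : X.ShortExact) (hd : 𝒰.IsDiscrete X.X₂)
    [Finite X.X₂], Function.Exact (δ X hX hd) (map1 X.f)
  exact_map1 : ∀ (X : ShortComplex (Rep.{u} k G)) (_ : X.ShortExact) (_ : 𝒰.IsDiscrete X.X₂)
    [Finite X.X₂], Function.Exact (map1 X.f) (map1 X.g)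
  surj_map1 : ∀ (X : ShortComplex (Rep.{u} k G)) (_ : X.ShortExact) (_ : 𝒰.IsDiscrete X.X₂)
    [Finite X.X₂], Function.Surjective (map1 X.g)

variable {𝒰}

namespace FSide

variable (FS : FSide (k := k) 𝒰)

theorem map0_zero {M N : Rep.{u} k G} : FS.map0 (0 : M ⟶ N) = 0 := by
  have := FS.map0_add (0 : M ⟶ N) 0
  rw [add_zero] at this
  exact left_eq_add.mp this

theorem map1_zero {M N : Rep.{u} k G} : FS.map1 (0 : M ⟶ N) = 0 := by
  have := FS.map1_add (0 : M ⟶ N) 0
  rw [add_zero] at this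
  exact left_eq_add.mp this

theorem map0_sum {M N : Rep.{u} k G} {ι : Type*} (s : Finset ι) (f : ι → (M ⟶ N)) :
    FS.map0 (∑ i ∈ s, f i) = ∑ i ∈ s, FS.map0 (f i) := by
  classical
  induction s using Finset.induction_on with
  | empty => simp [map0_zero]
  | insert i s hi ih => rw [Finset.sum_insert hi, Finset.sum_insert hi, FS.map0_add, ih]

theorem map1_sum {M N : Rep.{u} k G} {ι : Type*} (s : Finset ι) (f : ι → (M ⟶ N)) :
    FS.map1 (∑ i ∈ s, f i) = ∑ i ∈ s, FS.map1 (f i) := by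
  classical
  induction s using Finset.induction_on with
  | empty => simp [map1_zero]
  | insert i s hi ih => rw [Finset.sum_insert hi, Finset.sum_insert hi, FS.map1_add, ih]

end FSide

/-- The comparison maps `β^{n-1}_M : F^{n-1}(M) → Dual H¹(M')`, `β^n_M : F^n(M) → Dual H⁰(M')`,
natural on finite discrete modules and compatible with the connecting maps up to a sign. -/
structure Compare (FS : FSide (k := k) 𝒰) (χ : G →* kˣ) where
  β0 : ∀ M : Rep.{u} k G, FS.F0 M →ₗ[k] GG 𝒰 χ 1 M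
  β1 : ∀ M : Rep.{u} k G, FS.F1 M →ₗ[k] GG 𝒰 χ 0 M
  nat0 : ∀ {M N : Rep.{u} k G} [Finite M] [Finite N], 𝒰.IsDiscrete M → 𝒰.IsDiscrete N →
    ∀ (f : M ⟶ N) (x : FS.F0 M), β0 N (FS.map0 f x) = Gmap 𝒰 χ 1 f (β0 M x)
  nat1 : ∀ {M N : Rep.{u} k G} [Finite M] [Finite N], 𝒰.IsDiscrete M → 𝒰.IsDiscrete N →
    ∀ (f : M ⟶ N) (x : FS.F1 M), β1 N (FS.map1 f x) = Gmap 𝒰 χ 0 f (β1 M x)
  /-- the sign -/
  ε : k
  hε : ε = 1 ∨ ε = -1
  δ_compat : ∀ (X : ShortComplex (Rep.{u} k G)) (hX : X.ShortExact) (hd : 𝒰.IsDiscrete X.X₂)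
    (hd' : 𝒰.IsDiscrete (X.X₂.dualTwist χ)) [Finite X.X₂] (x : FS.F0 X.X₃),
    β1 X.X₁ (FS.δ X hX hd x) = ε • Gδ hX hd' (β0 X.X₃ x)

section Theorems

variable [Finite k] (FS : FSide (k := k) 𝒰) (C : Compare FS χ)

open Additivity in
/-- Additivity: the base case for `Coind_V k` implies bijectivity on `Coind_V (M|_V)` when `V`
acts trivially on the finite module `M`. -/
theorem bijective_P (V : Subgroup G) [V.FiniteIndex] (hVlev : ∃ U ∈ 𝒰.levels, U ≤ V)
    (M : Rep.{u} k G) [Finite M] (hM : 𝒰.IsDiscrete M) (hV : ∀ s ∈ V, ∀ m : M, M.ρ s m = m)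
    (hbase : Function.Bijective (C.β0 (PV V)) ∧ Function.Bijective (C.β1 (PV V))) :
    Function.Bijective (C.β0 (P V M)) ∧ Function.Bijective (C.β1 (P V M)) := by
  have hfd : FiniteDimensional k M := Module.Finite.of_finite
  obtain ⟨n, i, p, -, hsum⟩ := exists_decomposition (k := k) hV
  have hdP : 𝒰.IsDiscrete (P V M) := isDiscrete_P V M 𝒰 hVlev hM
  have hdPV : 𝒰.IsDiscrete (PV (k := k) V) := isDiscrete_PV 𝒰 V hVlev
  constructor
  · refine bijective_of_sum (ι := Fin n)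
      (Fi := fun j => (FS.map0 (i j)).toAddMonoidHom) (Fp := fun j => (FS.map0 (p j)).toAddMonoidHom)
      (Gi := fun j => (Gmap 𝒰 χ 1 (i j)).toAddMonoidHom)
      (Gp := fun j => (Gmap 𝒰 χ 1 (p j)).toAddMonoidHom)
      (βA := fun _ => (C.β0 (PV V)).toAddMonoidHom) (βC := (C.β0 (P V M)).toAddMonoidHom)
      ?_ ?_ ?_ ?_ (fun _ => hbase.1)
    · intro x
      have h1 : ∀ j, FS.map0 (i j) (FS.map0 (p j) x) = FS.map0 (p j ≫ i j) x := fun j => by
        rw [FS.map0_comp]; rfl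
      show ∑ j, FS.map0 (i j) (FS.map0 (p j) x) = x
      simp only [h1]
      rw [← LinearMap.sum_apply, ← FS.map0_sum, hsum, FS.map0_id]
      rfl
    · intro y
      have h1 : ∀ j, Gmap 𝒰 χ 1 (i j) (Gmap 𝒰 χ 1 (p j) y) = Gmap 𝒰 χ 1 (p j ≫ i j) y :=
        fun j => by rw [Gmap_comp]; rfl
      show ∑ j, Gmap 𝒰 χ 1 (i j) (Gmap 𝒰 χ 1 (p j) y) = y
      simp only [h1]
      rw [← LinearMap.sum_apply, ← Gmap_sum, hsum, Gmap_id]
      rfl
    · intro j a
      exact C.nat0 hdPV hdP (i j) a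
    · intro j x
      exact C.nat0 hdP hdPV (p j) x
  · refine bijective_of_sum (ι := Fin n)
      (Fi := fun j => (FS.map1 (i j)).toAddMonoidHom) (Fp := fun j => (FS.map1 (p j)).toAddMonoidHom)
      (Gi := fun j => (Gmap 𝒰 χ 0 (i j)).toAddMonoidHom)
      (Gp := fun j => (Gmap 𝒰 χ 0 (p j)).toAddMonoidHom)
      (βA := fun _ => (C.β1 (PV V)).toAddMonoidHom) (βC := (C.β1 (P V M)).toAddMonoidHom)
      ?_ ?_ ?_ ?_ (fun _ => hbase.2)
    · intro x
      have h1 : ∀ j, FS.map1 (i j) (FS.map1 (p j) x) = FS.map1 (p j ≫ i j) x := fun j => by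
        rw [FS.map1_comp]; rfl
      show ∑ j, FS.map1 (i j) (FS.map1 (p j) x) = x
      simp only [h1]
      rw [← LinearMap.sum_apply, ← FS.map1_sum, hsum, FS.map1_id]
      rfl
    · intro y
      have h1 : ∀ j, Gmap 𝒰 χ 0 (i j) (Gmap 𝒰 χ 0 (p j) y) = Gmap 𝒰 χ 0 (p j ≫ i j) y :=
        fun j => by rw [Gmap_comp]; rfl
      show ∑ j, Gmap 𝒰 χ 0 (i j) (Gmap 𝒰 χ 0 (p j) y) = y
      simp only [h1]
      rw [← LinearMap.sum_apply, ← Gmap_sum, hsum, Gmap_id]
      rfl
    · intro j a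
      exact C.nat1 hdPV hdP (i j) a
    · intro j x
      exact C.nat1 hdP hdPV (p j) x

/-- The objects of the devissage: finite discrete modules. -/
abbrev Obj (𝒰 : LevelFamily G) : Type (u + 1) := {M : Rep.{u} k G // Finite M ∧ 𝒰.IsDiscrete M}

/-- The devissage step attached to a short exact sequence of finite discrete modules whose middle
term satisfies duality. -/
noncomputable def stepOfShortExact (X : ShortComplex (Rep.{u} k G)) (hX : X.ShortExact)
    [Finite X.X₁] [Finite X.X₂] [Finite X.X₃]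
    (hd₁ : 𝒰.IsDiscrete X.X₁) (hd₂ : 𝒰.IsDiscrete X.X₂) (hd₃ : 𝒰.IsDiscrete X.X₃)
    (hd' : 𝒰.IsDiscrete (X.X₂.dualTwist χ))
    (hbij : Function.Bijective (C.β0 X.X₂) ∧ Function.Bijective (C.β1 X.X₂)) :
    Devissage.LinearStep (R := k) (Obj := Obj (k := k) 𝒰)
      (fun M => FS.F0 M.1) (fun M => FS.F1 M.1) (fun M => GG 𝒰 χ 1 M.1) (fun M => GG 𝒰 χ 0 M.1)
      (fun M => C.β0 M.1) (fun M => C.β1 M.1) ⟨X.X₃, inferInstance, hd₃⟩ where
  K := ⟨X.X₁, inferInstance, hd₁⟩
  P := ⟨X.X₂, inferInstance, hd₂⟩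
  f0 := FS.map0 X.f
  g0 := FS.map0 X.g
  d := FS.δ X hX hd₂
  f1 := FS.map1 X.f
  g1 := FS.map1 X.g
  f0' := Gmap 𝒰 χ 1 X.f
  g0' := Gmap 𝒰 χ 1 X.g
  d' := Gδ hX hd'
  f1' := Gmap 𝒰 χ 0 X.f
  g1' := Gmap 𝒰 χ 0 X.g
  exact_f0_g0 := FS.exact_map0 X hX hd₂
  exact_g0_d := FS.exact_map0_δ X hX hd₂
  exact_d_f1 := FS.exact_δ_map1 X hX hd₂
  exact_f1_g1 := FS.exact_map1 X hX hd₂
  surj_g1 := FS.surj_map1 X hX hd₂
  exact_f0'_g0' := exact_Gmap_one hX hd'
  exact_g0'_d' := exact_Gmap_one_Gδ hX hd'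
  exact_d'_f1' := exact_Gδ_Gmap_zero hX hd'
  exact_f1'_g1' := exact_Gmap_zero hX hd'
  surj_g1' := surjective_Gmap_zero hX
  comm_f0 := fun x => C.nat0 hd₁ hd₂ X.f x
  comm_g0 := fun x => C.nat0 hd₂ hd₃ X.g x
  comm_d := by
    rcases C.hε with h | h
    · left
      intro x
      have := C.δ_compat X hX hd₂ hd' x
      rw [h, one_smul] at this
      exact this
    · right
      intro x
      have := C.δ_compat X hX hd₂ hd' x
      have e : C.ε • (Gδ hX hd' (C.β0 X.X₃ x)) = -(Gδ hX hd' (C.β0 X.X₃ x)) := by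
        rw [h]
        exact neg_one_smul k (Gδ hX hd' (C.β0 X.X₃ x))
      exact this.trans e
  comm_f1 := fun x => C.nat1 hd₁ hd₂ X.f x
  comm_g1 := fun x => C.nat1 hd₂ hd₃ X.g x
  bij0 := hbij.1
  bij1 := hbij.2

open Additivity in
/-- **Descending devissage for duality.** If the comparison maps are bijective on
`Coind_V k` for all sufficiently small normal levels `V`, they are bijective on every finite
discrete module. -/
theorem bijective (hχ : ∃ U ∈ 𝒰.levels, ∀ s ∈ U, χ s = 1)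
    (base : ∀ V : Subgroup G, V.Normal → V ∈ 𝒰.levels → (∀ s ∈ V, χ s = 1) →
      Function.Bijective (C.β0 (PV V)) ∧ Function.Bijective (C.β1 (PV V)))
    (M : Rep.{u} k G) [hMf : Finite M] (hM : 𝒰.IsDiscrete M) :
    Function.Bijective (C.β0 M) ∧ Function.Bijective (C.β1 M) := by
  have key := Devissage.bijective_linear (R := k) (Obj := Obj (k := k) 𝒰)
    (F0 := fun M => FS.F0 M.1) (F1 := fun M => FS.F1 M.1)
    (G0 := fun M => GG 𝒰 χ 1 M.1) (G1 := fun M => GG 𝒰 χ 0 M.1)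
    (β0 := fun M => C.β0 M.1) (β1 := fun M => C.β1 M.1) ?_ ⟨M, hMf, hM⟩
  · exact key
  rintro ⟨M, hMf, hMd⟩
  obtain ⟨W, hW, -, hfix⟩ := exists_normal_level_acting_trivially 𝒰 hMd
  obtain ⟨U, hU, hχU⟩ := hχ
  obtain ⟨V, hV, hVW, hVU, hVn⟩ := 𝒰.exists_normal_le_inf hW hU
  have : V.FiniteIndex := 𝒰.finiteIndex V hV
  have hVlev : ∃ U ∈ 𝒰.levels, U ≤ V := ⟨V, hV, le_rfl⟩
  have hVfix : ∀ s ∈ V, ∀ m : M, M.ρ s m = m := fun s hs m => hfix s (hVW hs) m
  have hdP : 𝒰.IsDiscrete (P V M) := isDiscrete_P V M 𝒰 hVlev hMd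
  have hdK : 𝒰.IsDiscrete (K V M) := isDiscrete_K V M 𝒰 hVlev hMd
  have hdP' : 𝒰.IsDiscrete ((P V M).dualTwist χ) :=
    DualTwist.isDiscrete_dualTwist χ 𝒰 (P V M) hdP ⟨U, hU, hχU⟩
  have hbij := bijective_P χ FS C V hVlev M hMd hVfix
    (base V hVn hV (fun s hs => hχU s (hVU hs)))
  have i1 : Finite (seq V M).X₁ := finite_K V M
  have i2 : Finite (seq V M).X₂ := finite_P V M
  have i3 : Finite (seq V M).X₃ := hMf
  exact ⟨stepOfShortExact χ FS C (seq V M) (seq_shortExact V M) hdK hdP hMd hdP' hbij⟩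

end Theorems

/-! ### Level cohomology as an `F`-side -/

/-- The `F`-side given by level cohomology in degrees `n`, `n + 1`, provided the cohomology of
finite discrete modules vanishes in degree `n + 2`. -/
noncomputable def levelFSide (𝒰 : LevelFamily G) (n : ℕ)
    (hvan : ∀ (N : Rep.{u} k G) [Finite N], 𝒰.IsDiscrete N →
      Subsingleton (𝒰.levelCohomology N (n + 2))) : FSide (k := k) 𝒰 where
  F0 M := 𝒰.levelCohomology M n
  F1 M := 𝒰.levelCohomology M (n + 1)
  map0 f := (𝒰.levelCohomologyMap f n).hom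
  map1 f := (𝒰.levelCohomologyMap f (n + 1)).hom
  map0_id M := by rw [levelCohomologyMap_id]; rfl
  map1_id M := by rw [levelCohomologyMap_id]; rfl
  map0_comp f g := by rw [levelCohomologyMap_comp]; rfl
  map1_comp f g := by rw [levelCohomologyMap_comp]; rfl
  map0_add f g := by rw [levelCohomologyMap_add]; rfl
  map1_add f g := by rw [levelCohomologyMap_add]; rfl
  δ X hX hd := (𝒰.δ hX hd n (n + 1) rfl).hom
  exact_map0 X hX hd _ := function_exact_of_moduleCat_exact (𝒰.exact₂ hX hd n)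
  exact_map0_δ X hX hd _ :=
    function_exact_of_moduleCat_exact (𝒰.exact₃ hX hd (i := n) (j := n + 1) rfl)
  exact_δ_map1 X hX hd _ :=
    function_exact_of_moduleCat_exact (𝒰.exact₁ hX hd (i := n) (j := n + 1) rfl)
  exact_map1 X hX hd _ := function_exact_of_moduleCat_exact (𝒰.exact₂ hX hd (n + 1))
  surj_map1 X hX hd _ := by
    intro z
    have hinj : Function.Injective X.f.hom := (Rep.mono_iff_injective X.f).1 hX.mono_f
    have : Finite X.X₁ := Finite.of_injective _ hinj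
    have hd₁ : 𝒰.IsDiscrete X.X₁ := isDiscrete_of_injective 𝒰 X.f hinj hd
    have := hvan X.X₁ hd₁
    exact 𝒰.exists_of_δ_eq_zero hX hd (i := n + 1) (j := n + 2) rfl z (Subsingleton.elim _ _)

end Main

end Fermat.Agent.Lib.CFT.Duality.DevissageStep
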