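import Fermat.Agent.Lib.CFT.Duality.LocalTateBase
import Fermat.Agent.Lib.CFT.Duality.ArithDiscrete
import Fermat.Agent.Lib.CFT.Profinite.CdCriterion

/-!
# Local Tate duality for the local Galois groups `G_q`

Instantiation of the abstract local duality (`Duality/LocalTate.lean`, `Duality/LocalTateBase.lean`)
for the local Galois group `G_q = primeLocalGaloisGroup q`, its level family of open subgroups
`primeLocalLevels q`, coefficients `ZMod p` and the local mod `p` cyclotomic character.  The inputs
from local class field theory are kept as hypotheses (`LocalBase`): a linear form `inv` on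
`H²(G_q, μ_p)`, the vanishing of `H³(W, 𝔽_p)` for the open subgroups `W` of `ker χ`, and duality
for the modules `Coind_W^{G_q} 𝔽_p`, `W` a normal level on which `χ` is trivial.
-/

set_option autoImplicit false

open CategoryTheory

namespace Fermat.Agent.Lib.CFT.Duality.LocalTate

open Fermat.Agent.Lib.CFT.Profinite Fermat.Agent.Lib.CFT.Profinite.LevelFamily
open Fermat.Agent.Lib.CFT.Profinite.LES ExtCitation
open Fermat.Agent.Lib.CFT.Coh.Cup

/-! ### Characters with values in `(ZMod p)ˣ` -/

section Char

variable {p : ℕ} [Fact p.Prime] {G : Type} [Group G]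

/-- The kernel of a character with values in `(ZMod p)ˣ` has index prime to `p`. -/
theorem not_dvd_index_ker (χ : G →* (ZMod p)ˣ) : ¬ p ∣ χ.ker.index := by
  have hp : p.Prime := Fact.out
  rw [Subgroup.index_ker]
  intro hdvd
  have h1 : Nat.card χ.range ∣ Nat.card (ZMod p)ˣ := Subgroup.card_subgroup_dvd_card _
  have h2 : Nat.card (ZMod p)ˣ = p - 1 := by
    rw [Nat.card_eq_fintype_card, ZMod.card_units]
  rw [h2] at h1
  have h3 : p ∣ p - 1 := hdvd.trans h1
  have h4 : p ≤ p - 1 := Nat.le_of_dvd (by have := hp.two_le; omega) h3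
  have := hp.two_le
  omega

end Char

/-! ### Duality maps for the restriction of a module along a group homomorphism -/

section Res

universe u

variable {k G H : Type u} [Field k] [Group G] [Group H] (χ : G →* kˣ) (φ : H →* G)
  (𝒱 : LevelFamily H) {r : ℕ}
  (inv : 𝒱.levelCohomology (groupCohomology.ofChar (χ.comp φ)) (r + 1) →ₗ[k] k)

/-- The duality map for the restriction to `H` of a `G`-module `M`, expressed with the
restriction of the twisted dual of `M`:
`Hⁱ(H, M|_H) → Dual (Hʲ(H, (M')|_H))`, `x ↦ (y ↦ inv (x ∪ y))`. -/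
noncomputable def lamRes {i j : ℕ} (h : i + j = r + 1) (M : Rep.{u} k G) :
    𝒱.levelCohomology (Rep.res φ M) i →ₗ[k]
      Module.Dual k (𝒱.levelCohomology (Rep.res φ (M.dualTwist χ)) j) :=
  (𝒱.cupH ((evPairing χ M).res φ) h).compr₂ inv

theorem lamRes_apply {i j : ℕ} (h : i + j = r + 1) (M : Rep.{u} k G)
    (x : 𝒱.levelCohomology (Rep.res φ M) i)
    (y : 𝒱.levelCohomology (Rep.res φ (M.dualTwist χ)) j) :
    lamRes χ φ 𝒱 inv h M x y = inv (𝒱.cupH ((evPairing χ M).res φ) h x y) := rfl

/-- `lamRes` is the duality map `lam` of the `H`-module `M|_H`, up to the identification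
`(M')|_H ≅ (M|_H)'`. -/
theorem lamRes_eq {i j : ℕ} (h : i + j = r + 1) (M : Rep.{u} k G)
    (x : 𝒱.levelCohomology (Rep.res φ M) i)
    (y : 𝒱.levelCohomology (Rep.res φ (M.dualTwist χ)) j) :
    lamRes χ φ 𝒱 inv h M x y =
      lam (χ.comp φ) 𝒱 inv h (Rep.res φ M) x
        ((𝒱.levelCohomologyMap (resDualTwistIso χ φ M).hom j).hom y) := by
  rw [lamRes_apply, lam_apply]
  congr 1
  have key := 𝒱.cupH_map_adjoint (evPairing (χ.comp φ) (Rep.res φ M)) ((evPairing χ M).res φ)
    (𝟙 (Rep.res φ M)) (resDualTwistIso χ φ M).hom (fun a b' => evPairing_res χ φ M a b') h x y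
  rw [levelCohomologyMap_id_apply] at key
  exact key

theorem bijective_levelCohomologyMap_of_iso {A B : Rep.{u} k H} (e : A ≅ B) (n : ℕ) :
    Function.Bijective (𝒱.levelCohomologyMap e.hom n).hom := by
  refine Function.bijective_iff_has_inverse.2 ⟨(𝒱.levelCohomologyMap e.inv n).hom, ?_, ?_⟩
  · intro x
    rw [levelCohomologyMap_comp_apply, e.hom_inv_id, levelCohomologyMap_id_apply]
  · intro x
    rw [levelCohomologyMap_comp_apply, e.inv_hom_id, levelCohomologyMap_id_apply]

/-- `lamRes` is bijective as soon as `lam` is. -/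
theorem bijective_lamRes {i j : ℕ} (h : i + j = r + 1) (M : Rep.{u} k G)
    (hb : Function.Bijective (lam (χ.comp φ) 𝒱 inv h (Rep.res φ M))) :
    Function.Bijective (lamRes χ φ 𝒱 inv h M) := by
  have hiso := bijective_levelCohomologyMap_of_iso 𝒱 (resDualTwistIso χ φ M) j
  let E : 𝒱.levelCohomology (Rep.res φ (M.dualTwist χ)) j ≃ₗ[k]
      𝒱.levelCohomology ((Rep.res φ M).dualTwist (χ.comp φ)) j :=
    LinearEquiv.ofBijective (𝒱.levelCohomologyMap (resDualTwistIso χ φ M).hom j).hom hiso
  have heq : ⇑(lamRes χ φ 𝒱 inv h M) =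
      ⇑E.dualMap ∘ ⇑(lam (χ.comp φ) 𝒱 inv h (Rep.res φ M)) := by
    funext x
    refine LinearMap.ext fun y => ?_
    exact lamRes_eq χ φ 𝒱 inv h M x y
  rw [heq]
  exact E.dualMap.bijective.comp hb

end Res

/-! ### The local cyclotomic character -/

section Local

variable (p : ℕ) [Fact p.Prime] (q : Nat.Primes)

/-- The mod `p` cyclotomic character of the local Galois group at `q`. -/
noncomputable abbrev localCycloChar : primeLocalGaloisGroup q →* (ZMod p)ˣ :=
  (cycloChar p).comp (primeLocalToGlobal q)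

/-- The local mod `p` cyclotomic character is trivial on an open subgroup. -/
theorem exists_level_localCycloChar :
    ∃ U ∈ (primeLocalLevels q).levels, ∀ s ∈ U, localCycloChar p q s = 1 := by
  obtain ⟨U, hU, hle⟩ := exists_level_le_ker_cycloChar (p := p) {pPrime p} (Finset.mem_singleton_self _)
  obtain ⟨U', hU', hle'⟩ := isCompatible_primeLocalLevels {pPrime p} q U hU
  exact ⟨U', hU', fun s hs => hle (hle' hs)⟩

/-- The inputs from local class field theory for local Tate duality at `q` with coefficients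
`ZMod p`. -/
structure LocalBase where
  /-- the invariant map on `H²(G_q, μ_p)` -/
  inv : (primeLocalLevels q).levelCohomology
    (groupCohomology.ofChar (k := ZMod p) (localCycloChar p q)) 2 →ₗ[ZMod p] ZMod p
  /-- `H³(W, 𝔽_p) = 0` for every open subgroup `W` on which the cyclotomic character is trivial -/
  van : ∀ W : Subgroup (primeLocalGaloisGroup q), W ≤ (localCycloChar p q).ker →
    IsOpenSubgroup (primeLocalLevels q) W →
    Subsingleton ((restrict (primeLocalLevels q) W).levelCohomology
      (Rep.trivial (ZMod p) W (ZMod p)) 3)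
  /-- finiteness of `H¹` and `H²` of `Coind_W^{G_q} 𝔽_p` -/
  fin : ∀ W ∈ (primeLocalLevels q).levels, W.Normal → (∀ s ∈ W, localCycloChar p q s = 1) →
    Module.Finite (ZMod p)
      ((primeLocalLevels q).levelCohomology (Additivity.PV (k := ZMod p) W) 1) ∧
    Module.Finite (ZMod p)
      ((primeLocalLevels q).levelCohomology (Additivity.PV (k := ZMod p) W) 2)
  /-- duality for `Coind_W^{G_q} 𝔽_p` -/
  base : ∀ W ∈ (primeLocalLevels q).levels, W.Normal → (∀ s ∈ W, localCycloChar p q s = 1) →
    Function.Bijective (lam₀ (r := 1) (localCycloChar p q) (primeLocalLevels q) inv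
      (Additivity.PV (k := ZMod p) W)) ∧
    Function.Bijective (lam₁ (r := 1) (localCycloChar p q) (primeLocalLevels q) inv
      (Additivity.PV (k := ZMod p) W))

/-- The vanishing hypothesis of `LocalBase` in coinduced form: `H³(G_q, Coind_W^{G_q} 𝔽_p) = 0`
implies `H³(W, 𝔽_p) = 0` (Shapiro's lemma). -/
theorem subsingleton_restrict_of_coind {G : Type} [Group G] (𝒰 : LevelFamily G) (W : Subgroup G)
    (hW : IsOpenSubgroup 𝒰 W) (n : ℕ)
    (h : Subsingleton (𝒰.levelCohomology (Additivity.PV (k := ZMod p) W) n)) :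
    Subsingleton ((restrict 𝒰 W).levelCohomology (Rep.trivial (ZMod p) W (ZMod p)) n) := by
  obtain ⟨U₀, hU₀⟩ := (restrict 𝒰 W).nonempty
  have hB : (restrict 𝒰 W).IsDiscrete (Rep.trivial (ZMod p) W (ZMod p)) :=
    fun m => ⟨U₀, hU₀, fun s _ => rfl⟩
  exact (shapiroIso hW hB n).toLinearEquiv.symm.injective.subsingleton

variable {p q}

/-- `H³(G_q, N) = 0` for every finite discrete `𝔽_p[G_q]`-module `N`. -/
theorem LocalBase.subsingleton_three (B : LocalBase p q) (N : Rep (ZMod p) (primeLocalGaloisGroup q))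
    [Finite N] (hN : (primeLocalLevels q).IsDiscrete N) :
    Subsingleton ((primeLocalLevels q).levelCohomology N 3) := by
  obtain ⟨U, hU, hUχ⟩ := exists_level_localCycloChar p q
  have : Module.Finite (ZMod p) N := Module.Finite.of_finite
  exact CdBound.levelCohomology_eq_zero_of_trivial 3 (localCycloChar p q).ker
    ⟨U, hU, fun s hs => MonoidHom.mem_ker.2 (hUχ s hs)⟩ (not_dvd_index_ker _) B.van N hN

/-- **Local Tate duality** for finite discrete `𝔽_p[G_q]`-modules (`q = p` allowed): the cup
product pairings `H¹(G_q, M) × H¹(G_q, M') → H²(G_q, μ_p) → 𝔽_p` and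
`H²(G_q, M) × H⁰(G_q, M') → 𝔽_p` induce bijections
`H¹(G_q, M) ≃ Dual (H¹(G_q, M'))` and `H²(G_q, M) ≃ Dual (H⁰(G_q, M'))`. -/
theorem LocalBase.localTate (B : LocalBase p q) (M : Rep (ZMod p) (primeLocalGaloisGroup q))
    [Finite M] (hM : (primeLocalLevels q).IsDiscrete M) :
    Function.Bijective (lam₀ (r := 1) (localCycloChar p q) (primeLocalLevels q) B.inv M) ∧
    Function.Bijective (lam₁ (r := 1) (localCycloChar p q) (primeLocalLevels q) B.inv M) :=
  bijective_lam_of_trivial' (localCycloChar p q) (primeLocalLevels q) B.inv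
    (exists_level_localCycloChar p q)
    (fun N hNf hN => by
      have := hNf
      exact B.subsingleton_three N hN)
    B.base M hM

/-- `H¹(G_q, M)` and `H²(G_q, M)` are finite for every finite discrete `𝔽_p[G_q]`-module. -/
theorem LocalBase.finite (B : LocalBase p q) (M : Rep (ZMod p) (primeLocalGaloisGroup q))
    [Finite M] (hM : (primeLocalLevels q).IsDiscrete M) :
    Module.Finite (ZMod p) ((primeLocalLevels q).levelCohomology M 1) ∧
    Module.Finite (ZMod p) ((primeLocalLevels q).levelCohomology M 2) := by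
  refine finite_levelCohomology_of_trivial (r := 1) (primeLocalLevels q)
    (fun N hNf hN => by
      have := hNf
      exact B.subsingleton_three N hN)
    (fun U hU => ?_) M hM
  obtain ⟨U₀, hU₀, hχ₀⟩ := exists_level_localCycloChar p q
  obtain ⟨V, hV, hVU, hVU₀, hn⟩ := (primeLocalLevels q).exists_normal_le_inf hU hU₀
  exact ⟨V, hV, hVU, B.fin V hV hn fun s hs => hχ₀ s (hVU₀ hs)⟩

/-- Local Tate duality for the restriction to `G_q` of a finite discrete global module. -/
theorem LocalBase.localTate_res (B : LocalBase p q)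
    (M : Rep (ZMod p) (AlgebraicClosure ℚ ≃ₐ[ℚ] AlgebraicClosure ℚ)) [Finite M]
    (hM : (primeLocalLevels q).IsDiscrete (Rep.res (primeLocalToGlobal q) M)) :
    Function.Bijective (lamRes (r := 1) (cycloChar p) (primeLocalToGlobal q) (primeLocalLevels q)
      B.inv (rfl : 1 + 1 = 1 + 1) M) ∧
    Function.Bijective (lamRes (r := 1) (cycloChar p) (primeLocalToGlobal q) (primeLocalLevels q)
      B.inv (rfl : 2 + 0 = 1 + 1) M) := by
  have : Finite (Rep.res (primeLocalToGlobal q) M) := ‹Finite M›
  obtain ⟨h0, h1⟩ := B.localTate (Rep.res (primeLocalToGlobal q) M) hM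
  exact ⟨bijective_lamRes _ _ _ _ _ M h0, bijective_lamRes _ _ _ _ _ M h1⟩

/-- The hypotheses of `LocalBase` for a given invariant map `inv` (unbundled form). -/
structure LocalBaseFor (inv : (primeLocalLevels q).levelCohomology
    (groupCohomology.ofChar (k := ZMod p) (localCycloChar p q)) 2 →ₗ[ZMod p] ZMod p) : Prop where
  van : ∀ W : Subgroup (primeLocalGaloisGroup q), W ≤ (localCycloChar p q).ker →
    IsOpenSubgroup (primeLocalLevels q) W →
    Subsingleton ((restrict (primeLocalLevels q) W).levelCohomology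
      (Rep.trivial (ZMod p) W (ZMod p)) 3)
  fin : ∀ W ∈ (primeLocalLevels q).levels, W.Normal → (∀ s ∈ W, localCycloChar p q s = 1) →
    Module.Finite (ZMod p)
      ((primeLocalLevels q).levelCohomology (Additivity.PV (k := ZMod p) W) 1) ∧
    Module.Finite (ZMod p)
      ((primeLocalLevels q).levelCohomology (Additivity.PV (k := ZMod p) W) 2)
  base : ∀ W ∈ (primeLocalLevels q).levels, W.Normal → (∀ s ∈ W, localCycloChar p q s = 1) →
    Function.Bijective (lam₀ (r := 1) (localCycloChar p q) (primeLocalLevels q) inv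
      (Additivity.PV (k := ZMod p) W)) ∧
    Function.Bijective (lam₁ (r := 1) (localCycloChar p q) (primeLocalLevels q) inv
      (Additivity.PV (k := ZMod p) W))

/-- Bundling of `LocalBaseFor`. -/
def LocalBaseFor.toLocalBase {inv : (primeLocalLevels q).levelCohomology
    (groupCohomology.ofChar (k := ZMod p) (localCycloChar p q)) 2 →ₗ[ZMod p] ZMod p}
    (h : LocalBaseFor inv) : LocalBase p q :=
  ⟨inv, h.van, h.fin, h.base⟩

@[simp]
theorem LocalBaseFor.toLocalBase_inv {inv : (primeLocalLevels q).levelCohomology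
    (groupCohomology.ofChar (k := ZMod p) (localCycloChar p q)) 2 →ₗ[ZMod p] ZMod p}
    (h : LocalBaseFor inv) : h.toLocalBase.inv = inv := rfl

theorem LocalBase.localBaseFor (B : LocalBase p q) : LocalBaseFor B.inv :=
  ⟨B.van, B.fin, B.base⟩

end Local

end Fermat.Agent.Lib.CFT.Duality.LocalTate
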