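import Fermat.Agent.Lib.CFT.Duality.ConeCup
import Fermat.Agent.Lib.CFT.Duality.BaseCase.Zigzag

/-!
# Cup product with a fixed `1`-cocycle as a degree-one map of cones

For a level `1`-cocycle `y` of `B` the maps `x ↦ x ∪ y` form degree-one maps (in the sense of
`Zigzag.Deg1Map`, i.e. commuting with the differentials without sign) on the level complexes, on
the products of the local complexes and on the compactly supported cones; the latter is the
`Zigzag.cone1` of the former two, and it induces `x ↦ D.cupHc φ _ x [y]` on cohomology.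
-/

set_option autoImplicit false
set_option linter.unusedSectionVars false

open CategoryTheory

namespace Fermat.Agent.Lib.CFT.Profinite.LevelFamily

open Fermat.Agent.Lib.CFT.ConcreteHomology Fermat.Agent.Lib.CFT.Coh.Cup
open Fermat.Agent.Lib.CFT.Duality

universe u

variable {k G : Type u} [CommRing k] [Group G] (𝒰 : LevelFamily G)
variable {A B C : Rep.{u} k G} (φ : Pairing A B C)

/-- Cup product with a fixed level `1`-cocycle, as a degree-one map of level complexes. -/
noncomputable def cupDeg1 (y : Z (𝒰.levelComplex B) 1) :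
    Zigzag.Deg1Map (𝒰.levelComplex A) (𝒰.levelComplex C) where
  f n := (𝒰.cupL φ (rfl : n + 1 = n + 1)).flip y.1
  comm n a := by
    have hy : ((𝒰.levelComplex B).d 1 (1 + 1)).hom y.1 = 0 := y.2
    have := 𝒰.d_cupL φ (rfl : n + 1 = n + 1) a y.1
    rw [hy, map_zero, smul_zero, add_zero] at this
    exact this.symm

@[simp]
theorem cupDeg1_f (y : Z (𝒰.levelComplex B) 1) (n : ℕ) (a : 𝒰.levelCochains A n) :
    (𝒰.cupDeg1 φ y).f n a = 𝒰.cupL φ (rfl : n + 1 = n + 1) a y.1 := rfl

/-- On cohomology, `cupDeg1 y` is the cup product with the class of `y`. -/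
theorem cupDeg1_homologyMap (y : Z (𝒰.levelComplex B) 1) (n : ℕ)
    (x : 𝒰.levelCohomology A n) :
    (𝒰.cupDeg1 φ y).homologyMap n x =
      𝒰.cupH φ (rfl : n + 1 = n + 1) x (classOf (𝒰.levelComplex B) 1 y) := by
  obtain ⟨z, rfl⟩ := classOf_surjective (𝒰.levelComplex A) n x
  rw [Zigzag.Deg1Map.homologyMap_classOf, cupH_classOf]
  rfl

end Fermat.Agent.Lib.CFT.Profinite.LevelFamily

namespace Fermat.Agent.Lib.CFT.Duality

open Fermat.Agent.Lib.CFT.Profinite Fermat.Agent.Lib.CFT.Profinite.LevelFamily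
open Fermat.Agent.Lib.CFT.ConcreteHomology Fermat.Agent.Lib.CFT.Coh.Cup NatCone

namespace LocDatum

variable {k : Type} [CommRing k] {G : Type} [Group G] (D : LocDatum G)
variable {A B C : Rep k G} (φ : Pairing A B C)

/-- Cup product with a fixed level `1`-cocycle, as a degree-one map of level complexes. -/
noncomputable abbrev cupDeg1 (y : Z (D.𝒰.levelComplex B) 1) :
    Zigzag.Deg1Map (D.𝒰.levelComplex A) (D.𝒰.levelComplex C) := D.𝒰.cupDeg1 φ y

/-- Cup product with a fixed `1`-cocycle of the product of the local complexes, as a degree-one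
map. -/
noncomputable def locCupDeg1 (y : Z (D.locComplex B) 1) :
    Zigzag.Deg1Map (D.locComplex A) (D.locComplex C) where
  f n := (D.locCup φ (rfl : n + 1 = n + 1)).flip y.1
  comm n b := by
    have hy : ((D.locComplex B).d 1 (1 + 1)).hom y.1 = 0 := y.2
    have := D.d_locCup φ (rfl : n + 1 = n + 1) b y.1
    rw [hy, map_zero, smul_zero, add_zero] at this
    exact this.symm

@[simp]
theorem locCupDeg1_f (y : Z (D.locComplex B) 1) (n : ℕ) (b : (D.locComplex A).X n) :
    (D.locCupDeg1 φ y).f n b = D.locCup φ (rfl : n + 1 = n + 1) b y.1 := rfl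

theorem locMap_cupDeg1 (y : Z (D.𝒰.levelComplex B) 1) (n : ℕ) (a : (D.𝒰.levelComplex A).X n) :
    ((D.locMap C).f (n + 1)).hom ((D.cupDeg1 φ y).f n a) =
      (D.locCupDeg1 φ (mapZ (D.locMap B) 1 y)).f n (((D.locMap A).f n).hom a) :=
  D.locMap_cupL φ (rfl : n + 1 = n + 1) a y.1

/-- Cup product with a fixed level `1`-cocycle, as a degree-one map of the compactly supported
cones: the `Zigzag.cone1` of `cupDeg1` and `locCupDeg1`. -/
noncomputable def coneCupDeg1 (y : Z (D.𝒰.levelComplex B) 1) :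
    Zigzag.Deg1Map (D.coneComplex A) (D.coneComplex C) :=
  Zigzag.cone1 (D.locMap A) (D.locMap C) (D.cupDeg1 φ y)
    (D.locCupDeg1 φ (mapZ (D.locMap B) 1 y)) (D.locMap_cupDeg1 φ y)

theorem coneCupDeg1_eq (y : Z (D.𝒰.levelComplex B) 1) :
    D.coneCupDeg1 φ y = Zigzag.cone1 (D.locMap A) (D.locMap C) (D.cupDeg1 φ y)
      (D.locCupDeg1 φ (mapZ (D.locMap B) 1 y)) (D.locMap_cupDeg1 φ y) := rfl

/-- The components of `coneCupDeg1` are the cup products of cone cochains with `y`. -/
theorem coneCupDeg1_f (y : Z (D.𝒰.levelComplex B) 1) (n : ℕ) (x : (D.coneComplex A).X n) :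
    (D.coneCupDeg1 φ y).f n x = D.coneCup φ (rfl : n + 1 = n + 1) x y.1 := by
  unfold coneCupDeg1
  rw [Zigzag.cone1_f]
  refine natCone.ext_succ _ ?_ ?_
  · rw [Zigzag.fstL_cone1L, fstL_coneCup]
    rfl
  · cases n with
    | zero =>
      rw [Zigzag.sndL_cone1L_zero, sndL_coneCup_zero]
    | succ m =>
      rw [Zigzag.sndL_cone1L_succ, sndL_coneCup_succ]
      rfl

/-- On cohomology, `coneCupDeg1 y` is the cup product with the class of `y`. -/
theorem coneCupDeg1_homologyMap (y : Z (D.𝒰.levelComplex B) 1) (n : ℕ) (x : D.Hc A n) :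
    (D.coneCupDeg1 φ y).homologyMap n x =
      D.cupHc φ (rfl : n + 1 = n + 1) x (classOf (D.𝒰.levelComplex B) 1 y) := by
  obtain ⟨z, rfl⟩ := classOf_surjective (D.coneComplex A) n x
  rw [Zigzag.Deg1Map.homologyMap_classOf, cupHc_classOf]
  congr 1
  apply Subtype.ext
  rw [Zigzag.Deg1Map.mapZ1_coe, coneCupZ_coe, coneCupDeg1_f]

end LocDatum

end Fermat.Agent.Lib.CFT.Duality
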