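import Fermat.Agent.Lib.CFT.Duality.ConeCupNat
import Fermat.Agent.Lib.CFT.Duality.CupDeltaAdjoint

/-!
# Local cup products for the restricted evaluation pairing

The compatibility (C1) of `ConeCup.lean` expresses `∂ x ∪ y` through the local cup products for the
*restricted* pairings `(evPairing χ M).res φᵥ` on `(M.dualTwist χ)|_{Hᵥ}`.  Local duality is stated
for the evaluation pairing of `M|_{Hᵥ}` on `(M|_{Hᵥ}).dualTwist (χ ∘ φᵥ)`.  The two differ by the
identity isomorphism `resDualTwistIso`; here we record the translation.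
-/

set_option autoImplicit false
set_option linter.unusedSectionVars false

open CategoryTheory

namespace Fermat.Agent.Lib.CFT.Duality

open Fermat.Agent.Lib.CFT.Profinite Fermat.Agent.Lib.CFT.Profinite.LevelFamily
open Fermat.Agent.Lib.CFT.Coh.Cup

section general

universe u

variable {k G H : Type u} [Field k] [Group G] [Group H] (χ : G →* kˣ) (φ : H →* G)
  (𝒱 : LevelFamily H) (M : Rep.{u} k G)

/-- The restricted evaluation pairing, with values in `k(χ ∘ φ)`. -/
noncomputable def evPairingRes :
    Pairing (Rep.res φ M) (Rep.res φ (M.dualTwist χ)) (groupCohomology.ofChar (χ.comp φ)) :=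
  (evPairing χ M).res φ

@[simp]
theorem evPairingRes_toLin_apply (m : M) (f : Module.Dual k M) :
    (evPairingRes χ φ M).toLin m f = f m := rfl

/-- The cup product for the restricted evaluation pairing in terms of the evaluation pairing of the
restricted module. -/
theorem cupH_evPairingRes {m n l : ℕ} (h : m + n = l) (x : 𝒱.levelCohomology (Rep.res φ M) m)
    (y : 𝒱.levelCohomology (Rep.res φ (M.dualTwist χ)) n) :
    𝒱.cupH (evPairingRes χ φ M) h x y =
      𝒱.cupH (evPairing (χ.comp φ) (Rep.res φ M)) h x
        ((𝒱.levelCohomologyMap (resDualTwistIso χ φ M).hom n).hom y) := by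
  have := 𝒱.cupH_map_adjoint (evPairing (χ.comp φ) (Rep.res φ M)) (evPairingRes χ φ M)
    (𝟙 (Rep.res φ M)) (resDualTwistIso χ φ M).hom (fun a b' => rfl) h x y
  rw [← this]
  congr 2
  have hid : 𝒱.levelCohomologyMap (𝟙 (Rep.res φ M)) m = 𝟙 _ := by
    unfold levelCohomologyMap
    rw [CategoryTheory.Functor.map_id, HomologicalComplex.homologyMap_id]
    rfl
  rw [hid]
  rfl

end general

namespace LocDatum

variable {k : Type} [Field k] {G : Type} [Group G] (D : LocDatum G) (χ : G →* kˣ) (M : Rep k G)

/-- (C1) for the evaluation pairing, with the local cup products expressed through the evaluation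
pairings of the restricted modules. -/
theorem cupHc_evPairing_HcOfLocal {i j l : ℕ} (h : i + j = l) (x : D.locH M i)
    (y : D.𝒰.levelCohomology (M.dualTwist χ) j) :
    D.cupHc (evPairing χ M) (show i + 1 + j = l + 1 by omega) (D.HcOfLocal M i x) y =
      D.HcOfLocal (groupCohomology.ofChar χ) l (fun v =>
        (D.𝒱 v).cupH (evPairing (χ.comp (D.φ v)) (D.resRep M v)) h (x v)
          (((D.𝒱 v).levelCohomologyMap (resDualTwistIso χ (D.φ v) M).hom j).hom
            (D.locMapHAt (M.dualTwist χ) j v y))) := by
  rw [D.cupHc_HcOfLocal (evPairing χ M) h x y]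
  congr 1
  funext v
  exact cupH_evPairingRes χ (D.φ v) (D.𝒱 v) M h (x v) (D.locMapHAt (M.dualTwist χ) j v y)

end LocDatum

end Fermat.Agent.Lib.CFT.Duality
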