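import Fermat.Agent.Lib.CFT.Duality.CupDeltaAdjoint
import Fermat.Agent.Lib.CFT.Duality.Devissage
import Fermat.Agent.Lib.CFT.Duality.DevissageRep
import Fermat.Agent.Lib.CFT.Duality.DualTwist
import Fermat.Agent.Lib.CFT.Duality.EvPairing

/-!
# Abstract local (Tate) duality by descending devissage

`G` is a group with a level family `𝒰`, `k` a field, `χ : G →* kˣ` a character, `μ = ofChar χ` the
one-dimensional representation on which `G` acts through `χ`, and `M' = M.dualTwist χ` the twisted
dual of a representation `M`.  Given a linear form `inv : H^(r+1)_𝒰(G, μ) → k` we obtain pairings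

  `lam i j : Hⁱ(M) → Dual (Hʲ(M'))`,  `i + j = r + 1`,  `x ↦ (y ↦ inv (x ∪ y))`.

The main theorem `bijective_lam` says: if `H^(r+2)` vanishes on finite discrete modules, and if
every finite discrete module `M` has a finite index subgroup `V` (containing a level) such that
the pairings in degrees `(r, 1)` and `(r + 1, 0)` are perfect on the left for the coinduced module
`Coind_V^G (M|_V)`, then they are perfect on the left for every finite discrete `M`.

For the local Galois groups `r = 1`.
-/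

set_option autoImplicit false
set_option linter.unusedSectionVars false

universe u

open CategoryTheory CategoryTheory.Limits

namespace Fermat.Agent.Lib.CFT.Duality.LocalTate

open Fermat.Agent.Lib.CFT.Profinite Fermat.Agent.Lib.CFT.Profinite.LevelFamily
open Fermat.Agent.Lib.CFT.Coh.Cup Fermat.Agent.Lib.CFT.Duality.DualTwist

variable {k G : Type u} [Field k] [Group G] (χ : G →* kˣ)

/-! ### The long exact sequence in `Function.Exact` form -/

section LES

variable (𝒰 : LevelFamily G) {X : ShortComplex (Rep.{u} k G)} (hX : X.ShortExact)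
  (hd : 𝒰.IsDiscrete X.X₂)

include hX hd in
theorem exact_f_g (i : ℕ) :
    Function.Exact (𝒰.levelCohomologyMap X.f i).hom (𝒰.levelCohomologyMap X.g i).hom :=
  (ShortComplex.ShortExact.moduleCat_exact_iff_function_exact _).mp (𝒰.exact₂ hX hd i)

theorem exact_g_δ {i j : ℕ} (hij : i + 1 = j) :
    Function.Exact (𝒰.levelCohomologyMap X.g i).hom (𝒰.δ hX hd i j hij).hom :=
  (ShortComplex.ShortExact.moduleCat_exact_iff_function_exact _).mp (𝒰.exact₃ hX hd hij)

theorem exact_δ_f {i j : ℕ} (hij : i + 1 = j) :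
    Function.Exact (𝒰.δ hX hd i j hij).hom (𝒰.levelCohomologyMap X.f j).hom :=
  (ShortComplex.ShortExact.moduleCat_exact_iff_function_exact _).mp (𝒰.exact₁ hX hd hij)

include hX in
/-- `H⁰` is left exact. -/
theorem levelCohomologyMap_zero_injective :
    Function.Injective (𝒰.levelCohomologyMap X.f 0).hom := by
  rw [injective_iff_map_eq_zero]
  intro a ha
  obtain ⟨x, hx, rfl⟩ := 𝒰.cls_surjective a
  rw [levelCohomologyMap_cls, cls_eq_zero_iff] at ha
  rw [cls_eq_zero_iff]
  have hinj : Function.Injective X.f.hom := (Rep.mono_iff_injective X.f).1 hX.mono_f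
  have ha' : (fun g => X.f.hom (x g)) = 0 := ha
  show x = 0
  funext g
  apply hinj
  rw [Pi.zero_apply, map_zero]
  exact congr_fun ha' g

end LES

/-! ### The duality maps -/

section Lam

variable (𝒰 : LevelFamily G) {r : ℕ}
  (inv : 𝒰.levelCohomology (groupCohomology.ofChar χ) (r + 1) →ₗ[k] k)

/-- The duality map `Hⁱ(M) → Dual (Hʲ(M'))`, `i + j = r + 1`, `x ↦ (y ↦ inv (x ∪ y))`. -/
noncomputable def lam {i j : ℕ} (h : i + j = r + 1) (M : Rep.{u} k G) :
    𝒰.levelCohomology M i →ₗ[k] Module.Dual k (𝒰.levelCohomology (M.dualTwist χ) j) :=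
  (𝒰.cupH (evPairing χ M) h).compr₂ inv

theorem lam_apply {i j : ℕ} (h : i + j = r + 1) (M : Rep.{u} k G)
    (x : 𝒰.levelCohomology M i) (y : 𝒰.levelCohomology (M.dualTwist χ) j) :
    lam χ 𝒰 inv h M x y = inv (𝒰.cupH (evPairing χ M) h x y) := rfl

/-- Naturality of the duality maps. -/
theorem lam_map {i j : ℕ} (h : i + j = r + 1) {M N : Rep.{u} k G} (f : M ⟶ N)
    (x : 𝒰.levelCohomology M i) (y : 𝒰.levelCohomology (N.dualTwist χ) j) :
    lam χ 𝒰 inv h N ((𝒰.levelCohomologyMap f i).hom x) y =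
      lam χ 𝒰 inv h M x ((𝒰.levelCohomologyMap (transpose χ f) j).hom y) := by
  rw [lam_apply, lam_apply]
  congr 1
  exact 𝒰.cupH_map_adjoint (evPairing χ M) (evPairing χ N) f (transpose χ f)
    (fun a b' => evPairing_transpose χ f a b') h x y

/-- Naturality of the duality maps, in terms of dual maps. -/
theorem lam_map' {i j : ℕ} (h : i + j = r + 1) {M N : Rep.{u} k G} (f : M ⟶ N)
    (x : 𝒰.levelCohomology M i) :
    lam χ 𝒰 inv h N ((𝒰.levelCohomologyMap f i).hom x) =
      (𝒰.levelCohomologyMap (transpose χ f) j).hom.dualMap (lam χ 𝒰 inv h M x) := by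
  ext y
  exact lam_map χ 𝒰 inv h f x y

/-- Compatibility of the duality maps with the connecting homomorphisms of a short exact sequence
and of its transposed sequence. -/
theorem lam_δ {X : ShortComplex (Rep.{u} k G)} (hX : X.ShortExact) (hdX : 𝒰.IsDiscrete X.X₂)
    (hdY : 𝒰.IsDiscrete (transposeSeq χ X).X₂) {i j : ℕ} (h : i + j + 1 = r + 1)
    (x : 𝒰.levelCohomology X.X₃ i) (y : 𝒰.levelCohomology (transposeSeq χ X).X₃ j) :
    lam χ 𝒰 inv (show i + 1 + j = r + 1 by omega) X.X₁
        ((𝒰.δ hX hdX i (i + 1) rfl).hom x) y =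
      (-1 : k) ^ (i + 1) • lam χ 𝒰 inv (show i + (j + 1) = r + 1 by omega) X.X₃ x
        ((𝒰.δ (transposeSeq_shortExact χ hX) hdY j (j + 1) rfl).hom y) := by
  have key := 𝒰.cupH_δ_adjoint hX (transposeSeq_shortExact χ hX) hdX hdY (evPairing χ X.X₁)
    (evPairing χ X.X₂) (evPairing χ X.X₃) (fun _ _ => rfl) (fun _ _ => rfl) h x y
  exact (congrArg inv key).trans (map_smul inv _ _)

end Lam

/-! ### The devissage -/

section Main

variable (𝒰 : LevelFamily G) {r : ℕ}
  (inv : 𝒰.levelCohomology (groupCohomology.ofChar χ) (r + 1) →ₗ[k] k)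

/-- Finite discrete modules. -/
abbrev Obj : Type (u + 1) := {M : Rep.{u} k G // Finite M ∧ 𝒰.IsDiscrete M}

/-- The first duality map `Hʳ(M) → Dual (H¹(M'))`. -/
noncomputable abbrev lam₀ (M : Rep.{u} k G) :
    𝒰.levelCohomology M r →ₗ[k] Module.Dual k (𝒰.levelCohomology (M.dualTwist χ) 1) :=
  lam χ 𝒰 inv (rfl : r + 1 = r + 1) M

/-- The second duality map `H^(r+1)(M) → Dual (H⁰(M'))`. -/
noncomputable abbrev lam₁ (M : Rep.{u} k G) :
    𝒰.levelCohomology M (r + 1) →ₗ[k] Module.Dual k (𝒰.levelCohomology (M.dualTwist χ) 0) :=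
  lam χ 𝒰 inv (add_zero (r + 1)) M

variable (hχ : ∃ U ∈ 𝒰.levels, ∀ s ∈ U, χ s = 1)
  (hvan : ∀ N : Rep.{u} k G, Finite N → 𝒰.IsDiscrete N →
    Subsingleton (𝒰.levelCohomology N (r + 2)))

include hχ hvan in
/-- One devissage step for a finite discrete module `M`, given a finite index subgroup `V`
containing a level such that the duality maps are bijective for `Coind_V^G (M|_V)`. -/
noncomputable def step (M : Obj (k := k) 𝒰) (V : Subgroup G) [V.FiniteIndex]
    (hV : ∃ U ∈ 𝒰.levels, U ≤ V)
    (hb0 : Function.Bijective (lam₀ χ 𝒰 inv (DevissageRep.P V M.1)))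
    (hb1 : Function.Bijective (lam₁ χ 𝒰 inv (DevissageRep.P V M.1))) :
    Devissage.LinearStep (R := k) (Obj := Obj (k := k) 𝒰)
      (fun M => 𝒰.levelCohomology M.1 r) (fun M => 𝒰.levelCohomology M.1 (r + 1))
      (fun M => Module.Dual k (𝒰.levelCohomology (M.1.dualTwist χ) 1))
      (fun M => Module.Dual k (𝒰.levelCohomology (M.1.dualTwist χ) 0))
      (fun M => lam₀ χ 𝒰 inv M.1) (fun M => lam₁ χ 𝒰 inv M.1) M :=
  have : Finite M.1 := M.2.1
  let X := DevissageRep.seq V M.1
  have hX : X.ShortExact := DevissageRep.seq_shortExact V M.1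
  have hdX : 𝒰.IsDiscrete X.X₂ := DevissageRep.isDiscrete_P V M.1 𝒰 hV M.2.2
  have hY : (transposeSeq χ X).ShortExact := transposeSeq_shortExact χ hX
  have hdY : 𝒰.IsDiscrete (transposeSeq χ X).X₂ :=
    isDiscrete_dualTwist χ 𝒰 (DevissageRep.P V M.1) hdX hχ
  { K := ⟨DevissageRep.K V M.1, inferInstance, DevissageRep.isDiscrete_K V M.1 𝒰 hV M.2.2⟩
    P := ⟨DevissageRep.P V M.1, inferInstance, hdX⟩
    f0 := (𝒰.levelCohomologyMap X.f r).hom
    g0 := (𝒰.levelCohomologyMap X.g r).hom
    d := (𝒰.δ hX hdX r (r + 1) rfl).hom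
    f1 := (𝒰.levelCohomologyMap X.f (r + 1)).hom
    g1 := (𝒰.levelCohomologyMap X.g (r + 1)).hom
    f0' := (𝒰.levelCohomologyMap (transposeSeq χ X).g 1).hom.dualMap
    g0' := (𝒰.levelCohomologyMap (transposeSeq χ X).f 1).hom.dualMap
    d' := (𝒰.δ hY hdY 0 1 rfl).hom.dualMap
    f1' := (𝒰.levelCohomologyMap (transposeSeq χ X).g 0).hom.dualMap
    g1' := (𝒰.levelCohomologyMap (transposeSeq χ X).f 0).hom.dualMap
    exact_f0_g0 := exact_f_g 𝒰 hX hdX r
    exact_g0_d := exact_g_δ 𝒰 hX hdX rfl
    exact_d_f1 := exact_δ_f 𝒰 hX hdX rfl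
    exact_f1_g1 := exact_f_g 𝒰 hX hdX (r + 1)
    surj_g1 := by
      intro z
      have : Subsingleton (𝒰.levelCohomology X.X₁ (r + 1 + 1)) :=
        hvan (DevissageRep.K V M.1) inferInstance (DevissageRep.isDiscrete_K V M.1 𝒰 hV M.2.2)
      exact 𝒰.exists_of_δ_eq_zero hX hdX (rfl : r + 1 + 1 = r + 1 + 1) z
        (Subsingleton.elim _ _)
    exact_f0'_g0' := Devissage.exact_dualMap (exact_f_g 𝒰 hY hdY 1)
    exact_g0'_d' := Devissage.exact_dualMap (exact_δ_f 𝒰 hY hdY rfl)
    exact_d'_f1' := Devissage.exact_dualMap (exact_g_δ 𝒰 hY hdY rfl)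
    exact_f1'_g1' := Devissage.exact_dualMap (exact_f_g 𝒰 hY hdY 0)
    surj_g1' := LinearMap.dualMap_surjective_of_injective
      (levelCohomologyMap_zero_injective 𝒰 hY)
    comm_f0 := fun x => lam_map' χ 𝒰 inv _ X.f x
    comm_g0 := fun x => lam_map' χ 𝒰 inv _ X.g x
    comm_d := by
      rcases neg_one_pow_eq_or k (r + 1) with h1 | h1
      · left
        intro x
        ext y
        have := lam_δ χ 𝒰 inv hX hdX hdY (i := r) (j := 0) (show r + 0 + 1 = r + 1 by omega) x y
        rw [h1, one_smul] at this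
        exact this
      · right
        intro x
        ext y
        have := lam_δ χ 𝒰 inv hX hdX hdY (i := r) (j := 0) (show r + 0 + 1 = r + 1 by omega) x y
        rw [h1, neg_one_smul] at this
        exact this
    comm_f1 := fun x => lam_map' χ 𝒰 inv _ X.f x
    comm_g1 := fun x => lam_map' χ 𝒰 inv _ X.g x
    bij0 := hb0
    bij1 := hb1 }

include hχ hvan in
/-- **Abstract local duality.**  If `H^(r+2)` vanishes on finite discrete modules and the duality
maps in degrees `(r, 1)` and `(r + 1, 0)` are bijective for suitable coinduced modules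
`Coind_V^G (M|_V)`, then they are bijective for every finite discrete module `M`. -/
theorem bijective_lam
    (hbase : ∀ M : Rep.{u} k G, Finite M → 𝒰.IsDiscrete M →
      ∃ V : Subgroup G, V.FiniteIndex ∧ (∃ U ∈ 𝒰.levels, U ≤ V) ∧
        Function.Bijective (lam₀ χ 𝒰 inv (DevissageRep.P V M)) ∧
        Function.Bijective (lam₁ χ 𝒰 inv (DevissageRep.P V M)))
    (M : Rep.{u} k G) [Finite M] (hM : 𝒰.IsDiscrete M) :
    Function.Bijective (lam₀ χ 𝒰 inv M) ∧ Function.Bijective (lam₁ χ 𝒰 inv M) := by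
  have key := Devissage.bijective_linear (R := k) (Obj := Obj (k := k) 𝒰)
    (F0 := fun M => 𝒰.levelCohomology M.1 r) (F1 := fun M => 𝒰.levelCohomology M.1 (r + 1))
    (G0 := fun M => Module.Dual k (𝒰.levelCohomology (M.1.dualTwist χ) 1))
    (G1 := fun M => Module.Dual k (𝒰.levelCohomology (M.1.dualTwist χ) 0))
    (β0 := fun M => lam₀ χ 𝒰 inv M.1) (β1 := fun M => lam₁ χ 𝒰 inv M.1)
    (fun N => by
      obtain ⟨V, hVf, hV, hb0, hb1⟩ := hbase N.1 N.2.1 N.2.2
      exact ⟨step χ 𝒰 inv hχ hvan N V hV hb0 hb1⟩)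
    ⟨M, inferInstance, hM⟩
  exact key

/-- The middle term of an exact sequence of vector spaces with finite-dimensional ends is
finite-dimensional. -/
theorem finite_of_exact {A B C : Type*} [AddCommGroup A] [AddCommGroup B] [AddCommGroup C]
    [Module k A] [Module k B] [Module k C] {f : A →ₗ[k] B} {g : B →ₗ[k] C}
    (h : Function.Exact f g) [Module.Finite k A] [Module.Finite k C] : Module.Finite k B := by
  have hker : LinearMap.ker g = LinearMap.range f := by
    ext y
    rw [LinearMap.mem_ker, h y]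
    rfl
  have : Module.Finite k (LinearMap.ker g) := by
    rw [hker]
    exact Module.Finite.range f
  have : Module.Finite k (B ⧸ LinearMap.ker g) := by
    have : IsNoetherian k C := isNoetherian_of_isNoetherianRing_of_finite _ _
    exact Module.Finite.equiv (g.quotKerEquivRange).symm
  exact Module.Finite.of_submodule_quotient (LinearMap.ker g)

include hvan in
/-- **Finiteness by devissage.**  If `H^(r+2)` vanishes on finite discrete modules and `Hʳ`,
`H^(r+1)` are finite-dimensional for suitable coinduced modules `Coind_V^G (M|_V)`, then they are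
finite-dimensional for every finite discrete module `M`. -/
theorem finite_levelCohomology
    (hbase : ∀ M : Rep.{u} k G, Finite M → 𝒰.IsDiscrete M →
      ∃ V : Subgroup G, V.FiniteIndex ∧ (∃ U ∈ 𝒰.levels, U ≤ V) ∧
        Module.Finite k (𝒰.levelCohomology (DevissageRep.P V M) r) ∧
        Module.Finite k (𝒰.levelCohomology (DevissageRep.P V M) (r + 1)))
    (M : Rep.{u} k G) [Finite M] (hM : 𝒰.IsDiscrete M) :
    Module.Finite k (𝒰.levelCohomology M r) ∧ Module.Finite k (𝒰.levelCohomology M (r + 1)) := by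
  -- top degree: `H^(r+1)(M)` is a quotient of `H^(r+1)(P)`
  have top : ∀ N : Rep.{u} k G, Finite N → 𝒰.IsDiscrete N →
      Module.Finite k (𝒰.levelCohomology N (r + 1)) := by
    intro N hNf hN
    obtain ⟨V, hVf, hV, -, hfin⟩ := hbase N hNf hN
    have hX := DevissageRep.seq_shortExact V N
    have hdX : 𝒰.IsDiscrete (DevissageRep.seq V N).X₂ := DevissageRep.isDiscrete_P V N 𝒰 hV hN
    have hsurj : Function.Surjective
        (𝒰.levelCohomologyMap (DevissageRep.seq V N).g (r + 1)).hom := by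
      intro z
      have : Subsingleton (𝒰.levelCohomology (DevissageRep.seq V N).X₁ (r + 1 + 1)) :=
        hvan (DevissageRep.K V N) inferInstance (DevissageRep.isDiscrete_K V N 𝒰 hV hN)
      exact 𝒰.exists_of_δ_eq_zero hX hdX (rfl : r + 1 + 1 = r + 1 + 1) z (Subsingleton.elim _ _)
    have : Module.Finite k (𝒰.levelCohomology (DevissageRep.seq V N).X₂ (r + 1)) := hfin
    exact Module.Finite.of_surjective _ hsurj
  refine ⟨?_, top M inferInstance hM⟩
  obtain ⟨V, hVf, hV, hfin, -⟩ := hbase M inferInstance hM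
  have hX := DevissageRep.seq_shortExact V M
  have hdX : 𝒰.IsDiscrete (DevissageRep.seq V M).X₂ := DevissageRep.isDiscrete_P V M 𝒰 hV hM
  have : Module.Finite k (𝒰.levelCohomology (DevissageRep.seq V M).X₂ r) := hfin
  have : Module.Finite k (𝒰.levelCohomology (DevissageRep.seq V M).X₁ (r + 1)) :=
    top (DevissageRep.K V M) inferInstance (DevissageRep.isDiscrete_K V M 𝒰 hV hM)
  exact finite_of_exact (exact_g_δ 𝒰 hX hdX (rfl : r + 1 = r + 1))

end Main

end Fermat.Agent.Lib.CFT.Duality.LocalTate
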