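import Fermat.Agent.Lib.CFT.Duality.LocalTate
import Fermat.Agent.Lib.CFT.Duality.Additivity
import Fermat.Agent.Lib.CFT.Profinite.Cores

/-!
# Abstract local duality: reduction of the base case to trivial coefficients

If the finite index subgroup `V` acts trivially on the finite dimensional module `M`, then
`Coind_V^G (M|_V)` is a finite direct sum of copies of `PV V = Coind_V^G k`, hence the duality maps
`lam` of `Duality/LocalTate.lean` are bijective for `Coind_V^G (M|_V)` as soon as they are for
`Coind_V^G k`.  Combined with the devissage this gives `bijective_lam_of_trivial`: local duality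
for all finite discrete modules follows from the vanishing of `H^(r+2)` and from duality for the
modules `Coind_V^G k`, `V` running through a cofinal family of levels.  The same reduction is
carried out for finiteness (`finite_levelCohomology_of_trivial`).
-/

set_option autoImplicit false
set_option linter.unusedSectionVars false

universe u

open CategoryTheory CategoryTheory.Limits

namespace Fermat.Agent.Lib.CFT.Duality.LocalTate

open Fermat.Agent.Lib.CFT.Profinite Fermat.Agent.Lib.CFT.Profinite.LevelFamily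
open Fermat.Agent.Lib.CFT.Coh.Cup Fermat.Agent.Lib.CFT.Duality.DualTwist

variable {k G : Type u} [Field k] [Group G] (χ : G →* kˣ)

/-! ### Functoriality of `levelCohomologyMap` -/

section Functoriality

variable (𝒰 : LevelFamily G)

theorem levelCohomologyMap_sum {M N : Rep.{u} k G} {ι : Type*} (s : Finset ι)
    (f : ι → (M ⟶ N)) (n : ℕ) :
    𝒰.levelCohomologyMap (∑ j ∈ s, f j) n = ∑ j ∈ s, 𝒰.levelCohomologyMap (f j) n :=
  (LES.levelCohomologyFunctor (k := k) 𝒰 n).map_sum f s

theorem levelCohomologyMap_id_apply (M : Rep.{u} k G) (n : ℕ) (x : 𝒰.levelCohomology M n) :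
    (𝒰.levelCohomologyMap (𝟙 M) n).hom x = x := by
  rw [LES.levelCohomologyMap_id]
  rfl

theorem levelCohomologyMap_comp_apply {M N L : Rep.{u} k G} (f : M ⟶ N) (g : N ⟶ L) (n : ℕ)
    (x : 𝒰.levelCohomology M n) :
    (𝒰.levelCohomologyMap g n).hom ((𝒰.levelCohomologyMap f n).hom x) =
      (𝒰.levelCohomologyMap (f ≫ g) n).hom x := by
  rw [LES.levelCohomologyMap_comp]
  rfl

theorem levelCohomologyMap_sum_apply {M N : Rep.{u} k G} {ι : Type*} (s : Finset ι)
    (f : ι → (M ⟶ N)) (n : ℕ) (x : 𝒰.levelCohomology M n) :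
    (𝒰.levelCohomologyMap (∑ j ∈ s, f j) n).hom x =
      ∑ j ∈ s, (𝒰.levelCohomologyMap (f j) n).hom x := by
  rw [levelCohomologyMap_sum]
  classical
  induction s using Finset.induction_on with
  | empty => simp
  | insert a s ha ih =>
    rw [Finset.sum_insert ha, Finset.sum_insert ha, ← ih]
    rfl

end Functoriality

/-! ### Direct sums -/

section Sum

variable (𝒰 : LevelFamily G) {r : ℕ}
  (inv : 𝒰.levelCohomology (groupCohomology.ofChar χ) (r + 1) →ₗ[k] k)

/-- If `C` is a retract of a finite direct sum of copies of `A` (more precisely: the identity of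
`C` is a finite sum of endomorphisms factoring through `A`) and the duality map is bijective for
`A`, then it is bijective for `C`. -/
theorem bijective_lam_of_sum {i j : ℕ} (h : i + j = r + 1) {A C : Rep.{u} k G} {n : ℕ}
    (ι : Fin n → (A ⟶ C)) (π : Fin n → (C ⟶ A)) (hsum : ∑ l, π l ≫ ι l = 𝟙 C)
    (hA : Function.Bijective (lam χ 𝒰 inv h A)) : Function.Bijective (lam χ 𝒰 inv h C) := by
  refine Additivity.bijective_of_sum (ι := Fin n)
    (FA := fun _ => 𝒰.levelCohomology A i) (FC := 𝒰.levelCohomology C i)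
    (GA := fun _ => Module.Dual k (𝒰.levelCohomology (A.dualTwist χ) j))
    (GC := Module.Dual k (𝒰.levelCohomology (C.dualTwist χ) j))
    (fun l => (𝒰.levelCohomologyMap (ι l) i).hom.toAddMonoidHom)
    (fun l => (𝒰.levelCohomologyMap (π l) i).hom.toAddMonoidHom)
    (fun l => (𝒰.levelCohomologyMap (transpose χ (ι l)) j).hom.dualMap.toAddMonoidHom)
    (fun l => (𝒰.levelCohomologyMap (transpose χ (π l)) j).hom.dualMap.toAddMonoidHom)
    (fun _ => (lam χ 𝒰 inv h A).toAddMonoidHom) (lam χ 𝒰 inv h C).toAddMonoidHom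
    ?_ ?_ ?_ ?_ (fun _ => hA)
  · intro x
    show ∑ l, (𝒰.levelCohomologyMap (ι l) i).hom ((𝒰.levelCohomologyMap (π l) i).hom x) = x
    simp only [levelCohomologyMap_comp_apply]
    rw [← levelCohomologyMap_sum_apply, hsum, levelCohomologyMap_id_apply]
  · intro y
    show ∑ l, (𝒰.levelCohomologyMap (transpose χ (ι l)) j).hom.dualMap
      ((𝒰.levelCohomologyMap (transpose χ (π l)) j).hom.dualMap y) = y
    ext z
    rw [LinearMap.sum_apply]
    show ∑ l, y ((𝒰.levelCohomologyMap (transpose χ (π l)) j).hom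
      ((𝒰.levelCohomologyMap (transpose χ (ι l)) j).hom z)) = y z
    simp only [levelCohomologyMap_comp_apply, ← transpose_comp]
    rw [← map_sum, ← levelCohomologyMap_sum_apply, ← transpose_sum, hsum, transpose_id,
      levelCohomologyMap_id_apply]
  · intro l a
    exact lam_map' χ 𝒰 inv h (ι l) a
  · intro l x
    exact lam_map' χ 𝒰 inv h (π l) x

/-- Finiteness passes to retracts of finite direct sums. -/
theorem finite_levelCohomology_of_sum (i : ℕ) {A C : Rep.{u} k G} {n : ℕ}
    (ι : Fin n → (A ⟶ C)) (π : Fin n → (C ⟶ A)) (hsum : ∑ l, π l ≫ ι l = 𝟙 C)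
    [Module.Finite k (𝒰.levelCohomology A i)] : Module.Finite k (𝒰.levelCohomology C i) := by
  let F : 𝒰.levelCohomology C i →ₗ[k] (Fin n → 𝒰.levelCohomology A i) :=
    LinearMap.pi fun l => (𝒰.levelCohomologyMap (π l) i).hom
  have hF : Function.Injective F := by
    rw [injective_iff_map_eq_zero]
    intro x hx
    have h1 : ∀ l, (𝒰.levelCohomologyMap (π l) i).hom x = 0 := fun l => congrFun hx l
    have h2 : ∑ l, (𝒰.levelCohomologyMap (ι l) i).hom ((𝒰.levelCohomologyMap (π l) i).hom x) = x := by
      simp only [levelCohomologyMap_comp_apply]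
      rw [← levelCohomologyMap_sum_apply, hsum, levelCohomologyMap_id_apply]
    rw [← h2]
    exact Finset.sum_eq_zero fun l _ => by rw [h1 l, map_zero]
  exact Module.Finite.of_injective F hF

end Sum

/-! ### Reduction of the base case to trivial coefficients -/

section Trivial

variable (𝒰 : LevelFamily G) {r : ℕ}
  (inv : 𝒰.levelCohomology (groupCohomology.ofChar χ) (r + 1) →ₗ[k] k)

/-- If `V` acts trivially on the finite dimensional module `M` and the duality map is bijective
for `Coind_V^G k`, then it is bijective for `Coind_V^G (M|_V)`. -/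
theorem bijective_lam_P_of_PV {i j : ℕ} (h : i + j = r + 1) {V : Subgroup G}
    {M : Rep.{u} k G} [FiniteDimensional k M] (hV : ∀ s ∈ V, ∀ m : M, M.ρ s m = m)
    (hb : Function.Bijective (lam χ 𝒰 inv h (Additivity.PV (k := k) V))) :
    Function.Bijective (lam χ 𝒰 inv h (DevissageRep.P V M)) := by
  obtain ⟨n, ι, π, -, hsum⟩ := Additivity.exists_decomposition (k := k) hV
  exact bijective_lam_of_sum χ 𝒰 inv h ι π hsum hb

/-- If `V` acts trivially on the finite dimensional module `M` and `Hⁱ(Coind_V^G k)` is finite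
dimensional, then so is `Hⁱ(Coind_V^G (M|_V))`. -/
theorem finite_levelCohomology_P_of_PV (i : ℕ) {V : Subgroup G}
    {M : Rep.{u} k G} [FiniteDimensional k M] (hV : ∀ s ∈ V, ∀ m : M, M.ρ s m = m)
    [Module.Finite k (𝒰.levelCohomology (Additivity.PV (k := k) V) i)] :
    Module.Finite k (𝒰.levelCohomology (DevissageRep.P V M) i) := by
  obtain ⟨n, ι, π, -, hsum⟩ := Additivity.exists_decomposition (k := k) hV
  exact finite_levelCohomology_of_sum 𝒰 i ι π hsum

variable (hχ : ∃ U ∈ 𝒰.levels, ∀ s ∈ U, χ s = 1)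
  (hvan : ∀ N : Rep.{u} k G, Finite N → 𝒰.IsDiscrete N →
    Subsingleton (𝒰.levelCohomology N (r + 2)))

include hχ hvan in
/-- **Abstract local duality, trivial coefficient form.**  If `H^(r+2)` vanishes on finite discrete
modules and the duality maps in degrees `(r, 1)` and `(r + 1, 0)` are bijective for the modules
`Coind_V^G k`, `V` running through a cofinal family of levels, then they are bijective for every
finite discrete module `M`. -/
theorem bijective_lam_of_trivial
    (hbase : ∀ U ∈ 𝒰.levels, ∃ V ∈ 𝒰.levels, V ≤ U ∧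
      Function.Bijective (lam₀ χ 𝒰 inv (Additivity.PV (k := k) V)) ∧
      Function.Bijective (lam₁ χ 𝒰 inv (Additivity.PV (k := k) V)))
    (M : Rep.{u} k G) [Finite M] (hM : 𝒰.IsDiscrete M) :
    Function.Bijective (lam₀ χ 𝒰 inv M) ∧ Function.Bijective (lam₁ χ 𝒰 inv M) := by
  refine bijective_lam χ 𝒰 inv hχ hvan (fun N hNf hN => ?_) M hM
  have := hNf
  obtain ⟨W, hW, -, hfix⟩ := DevissageRep.exists_normal_level_acting_trivially 𝒰 hN
  obtain ⟨V, hV, hVW, hb0, hb1⟩ := hbase W hW
  have : FiniteDimensional k N := Module.Finite.of_finite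
  have hfixV : ∀ s ∈ V, ∀ m : N, N.ρ s m = m := fun s hs m => hfix s (hVW hs) m
  exact ⟨V, 𝒰.finiteIndex V hV, ⟨V, hV, le_rfl⟩,
    bijective_lam_P_of_PV χ 𝒰 inv _ hfixV hb0, bijective_lam_P_of_PV χ 𝒰 inv _ hfixV hb1⟩

include hχ hvan in
/-- Variant of `bijective_lam_of_trivial` where the base case is assumed for all normal levels on
which `χ` is trivial. -/
theorem bijective_lam_of_trivial'
    (hbase : ∀ V ∈ 𝒰.levels, V.Normal → (∀ s ∈ V, χ s = 1) →
      Function.Bijective (lam₀ χ 𝒰 inv (Additivity.PV (k := k) V)) ∧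
      Function.Bijective (lam₁ χ 𝒰 inv (Additivity.PV (k := k) V)))
    (M : Rep.{u} k G) [Finite M] (hM : 𝒰.IsDiscrete M) :
    Function.Bijective (lam₀ χ 𝒰 inv M) ∧ Function.Bijective (lam₁ χ 𝒰 inv M) := by
  refine bijective_lam_of_trivial χ 𝒰 inv hχ hvan (fun U hU => ?_) M hM
  obtain ⟨U₀, hU₀, hχ₀⟩ := hχ
  obtain ⟨V, hV, hVU, hVU₀, hn⟩ := 𝒰.exists_normal_le_inf hU hU₀
  exact ⟨V, hV, hVU, hbase V hV hn fun s hs => hχ₀ s (hVU₀ hs)⟩

include hvan in
/-- **Finiteness, trivial coefficient form.**  If `H^(r+2)` vanishes on finite discrete modules and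
`Hʳ`, `H^(r+1)` are finite dimensional for the modules `Coind_V^G k`, `V` running through a cofinal
family of levels, then they are finite dimensional for every finite discrete module. -/
theorem finite_levelCohomology_of_trivial
    (hbase : ∀ U ∈ 𝒰.levels, ∃ V ∈ 𝒰.levels, V ≤ U ∧
      Module.Finite k (𝒰.levelCohomology (Additivity.PV (k := k) V) r) ∧
      Module.Finite k (𝒰.levelCohomology (Additivity.PV (k := k) V) (r + 1)))
    (M : Rep.{u} k G) [Finite M] (hM : 𝒰.IsDiscrete M) :
    Module.Finite k (𝒰.levelCohomology M r) ∧ Module.Finite k (𝒰.levelCohomology M (r + 1)) := by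
  refine finite_levelCohomology 𝒰 hvan (fun N hNf hN => ?_) M hM
  have := hNf
  obtain ⟨W, hW, -, hfix⟩ := DevissageRep.exists_normal_level_acting_trivially 𝒰 hN
  obtain ⟨V, hV, hVW, hb0, hb1⟩ := hbase W hW
  have : FiniteDimensional k N := Module.Finite.of_finite
  have hfixV : ∀ s ∈ V, ∀ m : N, N.ρ s m = m := fun s hs m => hfix s (hVW hs) m
  exact ⟨V, 𝒰.finiteIndex V hV, ⟨V, hV, le_rfl⟩,
    finite_levelCohomology_P_of_PV 𝒰 r hfixV, finite_levelCohomology_P_of_PV 𝒰 (r + 1) hfixV⟩

end Trivial

end Fermat.Agent.Lib.CFT.Duality.LocalTate
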