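import Fermat.Agent.Lib.CFT.Duality.LocalTateTransfer
import Fermat.Agent.Lib.CFT.Profinite.CupZero

/-!
# Abstract local duality: the top degree base case

For a character `χ` which is trivial on the whole group, the duality map
`lam₁ : H^(r+1)(G, k) → Dual (H⁰(G, k'))` of the trivial module is bijective as soon as the
invariant map `inv : H^(r+1)(G, k(χ)) → k` is.  Hence the top degree base case of local Tate
duality amounts to the bijectivity of `inv ∘ cor` on the open subgroups.
-/

set_option autoImplicit false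
set_option linter.unusedSectionVars false

universe u

open CategoryTheory

namespace Fermat.Agent.Lib.CFT.Duality.LocalTate

open Fermat.Agent.Lib.CFT.Profinite Fermat.Agent.Lib.CFT.Profinite.LevelFamily
open Fermat.Agent.Lib.CFT.Profinite.LES
open Fermat.Agent.Lib.CFT.Coh.Cup Fermat.Agent.Lib.CFT.Duality.DualTwist

variable {k G : Type u} [Field k] [Group G] (χ : G →* kˣ)

section TopDegree

variable (𝒰 : LevelFamily G) {r : ℕ}
  (inv : 𝒰.levelCohomology (groupCohomology.ofChar χ) (r + 1) →ₗ[k] k)

/-- If `χ` is trivial, every element of the twisted dual of the trivial module is invariant. -/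
theorem trivial_dualTwist_ρ_apply (hχ1 : ∀ g, χ g = 1) (g : G)
    (f : (Rep.trivial k G k).dualTwist χ) :
    ((Rep.trivial k G k).dualTwist χ).ρ g f = f := by
  rw [Rep.dualTwist_ρ_apply, hχ1 g]
  refine LinearMap.ext fun c => ?_
  simp

/-- The identity functional, as an invariant of the twisted dual of the trivial module. -/
noncomputable def idInvariant (hχ1 : ∀ g, χ g = 1) :
    ((Rep.trivial k G k).dualTwist χ).ρ.invariants :=
  ⟨(LinearMap.id : k →ₗ[k] k), fun g => trivial_dualTwist_ρ_apply χ hχ1 g _⟩

/-- The identity map `k ⟶ k(χ)` for a trivial character `χ`. -/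
noncomputable def trivialToOfChar (hχ1 : ∀ g, χ g = 1) :
    Rep.trivial k G k ⟶ groupCohomology.ofChar χ :=
  (evPairing χ (Rep.trivial k G k)).evalRight (idInvariant χ hχ1)

theorem trivialToOfChar_hom_apply (hχ1 : ∀ g, χ g = 1) (c : k) :
    (trivialToOfChar χ hχ1).hom c = c := rfl

theorem ofChar_ρ_apply_of_trivial (hχ1 : ∀ g, χ g = 1) (g : G) (c : k) :
    (groupCohomology.ofChar χ).ρ g c = c := by
  rw [ofChar_ρ_apply, hχ1 g]
  simp

/-- The identity map `k(χ) ⟶ k` for a trivial character `χ`. -/
noncomputable def ofCharToTrivial (hχ1 : ∀ g, χ g = 1) :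
    groupCohomology.ofChar χ ⟶ Rep.trivial k G k :=
  Rep.ofHom ⟨(LinearMap.id : k →ₗ[k] k), fun g => by
    refine LinearMap.ext fun c => ?_
    show (groupCohomology.ofChar χ).ρ g c = c
    exact ofChar_ρ_apply_of_trivial χ hχ1 g c⟩

/-- `k ≅ k(χ)` for a trivial character `χ`. -/
noncomputable def trivialIsoOfChar (hχ1 : ∀ g, χ g = 1) :
    Rep.trivial k G k ≅ groupCohomology.ofChar χ where
  hom := trivialToOfChar χ hχ1
  inv := ofCharToTrivial χ hχ1
  hom_inv_id := by ext; rfl
  inv_hom_id := by ext; rfl

/-- Every class of degree zero of the twisted dual of the trivial module is a multiple of the class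
of the identity functional. -/
theorem exists_smul_idInvariant (hχ1 : ∀ g, χ g = 1)
    (y : 𝒰.levelCohomology ((Rep.trivial k G k).dualTwist χ) 0) :
    ∃ c : k, y = c • (𝒰.H0Equiv _).symm (idInvariant χ hχ1) := by
  obtain ⟨f, rfl⟩ := (𝒰.H0Equiv _).symm.surjective y
  refine ⟨(f.1 : Module.Dual k k) 1, ?_⟩
  rw [← map_smul]
  congr 1
  apply Subtype.ext
  show f.1 = (f.1 : Module.Dual k k) 1 • (LinearMap.id : k →ₗ[k] k)
  refine LinearMap.ext_ring ?_
  show (f.1 : Module.Dual k k) 1 = (f.1 : Module.Dual k k) 1 • (1 : k)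
  rw [smul_eq_mul, mul_one]

/-- The value of the duality map on the class of the identity functional. -/
theorem lam₁_idInvariant (hχ1 : ∀ g, χ g = 1)
    (x : 𝒰.levelCohomology (Rep.trivial k G k) (r + 1)) :
    lam₁ χ 𝒰 inv (Rep.trivial k G k) x ((𝒰.H0Equiv _).symm (idInvariant χ hχ1)) =
      inv ((𝒰.levelCohomologyMap (trivialToOfChar χ hχ1) (r + 1)).hom x) := by
  rw [lam_apply]
  congr 1
  exact 𝒰.cupH_H0_right (evPairing χ (Rep.trivial k G k)) (add_zero (r + 1)) x (idInvariant χ hχ1)

/-- **Top degree base case.**  For a trivial character `χ`, the duality map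
`H^(r+1)(G, k) → Dual (H⁰(G, k'))` is bijective if the invariant map is. -/
theorem bijective_lam₁_trivial (hχ1 : ∀ g, χ g = 1) (hinv : Function.Bijective inv) :
    Function.Bijective (lam₁ χ 𝒰 inv (Rep.trivial k G k)) := by
  have hθ := bijective_levelCohomologyMap_of_iso 𝒰 (trivialIsoOfChar χ hχ1) (r + 1)
  constructor
  · rw [injective_iff_map_eq_zero]
    intro x hx
    have h1 := lam₁_idInvariant χ 𝒰 inv hχ1 x
    rw [hx, LinearMap.zero_apply] at h1
    have h2 := hinv.1 (h1.symm.trans (map_zero inv).symm)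
    exact hθ.1 (h2.trans (map_zero _).symm)
  · intro ψ
    obtain ⟨z, hz⟩ := hinv.2 (ψ ((𝒰.H0Equiv _).symm (idInvariant χ hχ1)))
    obtain ⟨x, rfl⟩ := hθ.2 z
    refine ⟨x, LinearMap.ext fun y => ?_⟩
    obtain ⟨c, rfl⟩ := exists_smul_idInvariant χ 𝒰 hχ1 y
    rw [map_smul, map_smul, lam₁_idInvariant χ 𝒰 inv hχ1 x]
    exact congrArg (c • ·) hz

end TopDegree

/-! ### Application to the subgroup form of the devissage -/

section Restrict

variable (𝒰 : LevelFamily G) {r : ℕ}
  (inv : 𝒰.levelCohomology (groupCohomology.ofChar χ) (r + 1) →ₗ[k] k)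
  (hχ : ∃ U ∈ 𝒰.levels, ∀ s ∈ U, χ s = 1)

/-- The top degree base case in subgroup form: it holds as soon as `inv` and the corestriction
`H^(r+1)(V, k(χ)) → H^(r+1)(G, k(χ))` are bijective. -/
theorem bijective_lam₁_restrict {V : Subgroup G} (hV : V ∈ 𝒰.levels) (hχV : ∀ s ∈ V, χ s = 1)
    (hinv : Function.Bijective inv)
    (hcor : Function.Bijective
      (cores (isOpenSubgroup_of_mem hV) (isDiscrete_ofChar χ 𝒰 hχ) (r + 1)).hom) :
    Function.Bijective (lam₁ (χ.comp V.subtype) (restrict 𝒰 V)
      (invRestrict χ 𝒰 inv (isOpenSubgroup_of_mem hV) (isDiscrete_ofChar χ 𝒰 hχ))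
      (Rep.trivial k V k)) :=
  bijective_lam₁_trivial (χ.comp V.subtype) (restrict 𝒰 V) _ (fun g => hχV g.1 g.2)
    (hinv.comp hcor)

end Restrict

/-! ### The arithmetic case -/

section Arith

open ExtCitation

variable {p : ℕ} [Fact p.Prime] {q : Nat.Primes}

/-- The hypotheses of local Tate duality at `q` with the top degree base case replaced by the
bijectivity of the invariant map and of the corestrictions `H²(W, μ_p) → H²(G_q, μ_p)`. -/
theorem LocalBaseFor.of_restrict_of_cores
    (inv : (primeLocalLevels q).levelCohomology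
      (groupCohomology.ofChar (k := ZMod p) (localCycloChar p q)) 2 →ₗ[ZMod p] ZMod p)
    (hinv : Function.Bijective inv)
    (van : ∀ W : Subgroup (primeLocalGaloisGroup q), W ≤ (localCycloChar p q).ker →
      IsOpenSubgroup (primeLocalLevels q) W →
      Subsingleton ((restrict (primeLocalLevels q) W).levelCohomology
        (Rep.trivial (ZMod p) W (ZMod p)) 3))
    (fin : ∀ W ∈ (primeLocalLevels q).levels, W.Normal → (∀ s ∈ W, localCycloChar p q s = 1) →
      Module.Finite (ZMod p) ((restrict (primeLocalLevels q) W).levelCohomology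
        (Rep.trivial (ZMod p) W (ZMod p)) 1) ∧
      Module.Finite (ZMod p) ((restrict (primeLocalLevels q) W).levelCohomology
        (Rep.trivial (ZMod p) W (ZMod p)) 2))
    (hcor : ∀ (W : Subgroup (primeLocalGaloisGroup q)) (hW : W ∈ (primeLocalLevels q).levels),
      W.Normal → (∀ s ∈ W, localCycloChar p q s = 1) →
      Function.Bijective (cores (isOpenSubgroup_of_mem hW)
        (isDiscrete_ofChar (localCycloChar p q) (primeLocalLevels q)
          (exists_level_localCycloChar p q)) 2).hom)
    (base : ∀ (W : Subgroup (primeLocalGaloisGroup q)) (hW : W ∈ (primeLocalLevels q).levels),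
      W.Normal → (∀ s ∈ W, localCycloChar p q s = 1) →
      Function.Bijective (lam₀ (r := 1) ((localCycloChar p q).comp W.subtype)
        (restrict (primeLocalLevels q) W)
        (invRestrict (localCycloChar p q) (primeLocalLevels q) inv (isOpenSubgroup_of_mem hW)
          (isDiscrete_ofChar _ _ (exists_level_localCycloChar p q)))
        (Rep.trivial (ZMod p) W (ZMod p)))) :
    LocalBaseFor inv :=
  LocalBaseFor.of_restrict inv van fin fun W hW hn hχW =>
    ⟨base W hW hn hχW,
      bijective_lam₁_restrict (localCycloChar p q) (primeLocalLevels q) inv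
        (exists_level_localCycloChar p q) hW hχW hinv (hcor W hW hn hχW)⟩

end Arith

end Fermat.Agent.Lib.CFT.Duality.LocalTate
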