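import Fermat.Agent.Lib.CFT.Duality.LocalTateArith

/-!
# The product of the local duality maps

For a localisation datum `D` (`Duality/LocDatum.lean`) the local duality maps `lamRes` at the
places of `D` assemble to a map `lamLoc : Pⁱ(M) → Dual (Pʲ(M'))` between the products of the local
cohomology groups, `x ↦ (y ↦ ∑ᵥ invᵥ (xᵥ ∪ yᵥ))`.  It is bijective as soon as all the local maps
are; for the arithmetic datum this follows from local Tate duality.
-/

set_option autoImplicit false

open CategoryTheory

namespace Fermat.Agent.Lib.CFT.Duality.LocalTate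

open Fermat.Agent.Lib.CFT.Profinite Fermat.Agent.Lib.CFT.Profinite.LevelFamily
open Fermat.Agent.Lib.CFT.Profinite.LES ExtCitation
open Fermat.Agent.Lib.CFT.Coh.Cup

/-! ### Linear algebra: the dual of a finite product -/

section PiDual

variable {k : Type*} [CommRing k] {ι : Type*} [Fintype ι] {A B : ι → Type*}
  [∀ v, AddCommGroup (A v)] [∀ v, Module k (A v)] [∀ v, AddCommGroup (B v)] [∀ v, Module k (B v)]

/-- The orthogonal sum of a finite family of maps `A v → Dual (B v)`. -/
noncomputable def piDual (L : ∀ v, A v →ₗ[k] Module.Dual k (B v)) :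
    (∀ v, A v) →ₗ[k] Module.Dual k (∀ v, B v) :=
  ∑ v, (LinearMap.proj v : (∀ v, B v) →ₗ[k] B v).dualMap ∘ₗ L v ∘ₗ
    (LinearMap.proj v : (∀ v, A v) →ₗ[k] A v)

theorem piDual_apply (L : ∀ v, A v →ₗ[k] Module.Dual k (B v)) (x : ∀ v, A v) (y : ∀ v, B v) :
    piDual L x y = ∑ v, L v (x v) (y v) := by
  unfold piDual
  rw [LinearMap.sum_apply, LinearMap.sum_apply]
  rfl

theorem bijective_piDual (L : ∀ v, A v →ₗ[k] Module.Dual k (B v))
    (h : ∀ v, Function.Bijective (L v)) : Function.Bijective (piDual L) := by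
  classical
  constructor
  · rw [injective_iff_map_eq_zero]
    intro x hx
    funext v
    apply (h v).1
    show L v (x v) = L v 0
    rw [map_zero]
    refine LinearMap.ext fun b => ?_
    have := congrArg (fun ψ : Module.Dual k (∀ v, B v) => ψ (Pi.single v b)) hx
    simp only [piDual_apply, LinearMap.zero_apply] at this
    rw [Finset.sum_eq_single v] at this
    · simpa using this
    · intro w _ hwv
      rw [Pi.single_eq_of_ne hwv, map_zero]
    · intro hv
      exact absurd (Finset.mem_univ v) hv
  · intro ψ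
    choose x hx using fun v => (h v).2 (ψ ∘ₗ LinearMap.single k B v)
    refine ⟨x, LinearMap.ext fun y => ?_⟩
    rw [piDual_apply]
    simp only [hx, LinearMap.comp_apply]
    rw [← map_sum]
    congr 1
    funext w
    simp [Finset.sum_apply]

end PiDual

/-! ### The product of the local duality maps -/

section LamLoc

variable {k : Type} [Field k] {G : Type} [Group G] (D : LocDatum G) (χ : G →* kˣ) {r : ℕ}
  (inv : ∀ v, (D.𝒱 v).levelCohomology (groupCohomology.ofChar (χ.comp (D.φ v))) (r + 1) →ₗ[k] k)

/-- The product of the local duality maps: `Pⁱ(M) → Dual (Pʲ(M'))`,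
`x ↦ (y ↦ ∑ᵥ invᵥ (xᵥ ∪ yᵥ))`. -/
noncomputable def lamLoc {i j : ℕ} (h : i + j = r + 1) (M : Rep k G) :
    D.locH M i →ₗ[k] Module.Dual k (D.locH (M.dualTwist χ) j) :=
  piDual fun v => lamRes χ (D.φ v) (D.𝒱 v) (inv v) h M

theorem lamLoc_apply {i j : ℕ} (h : i + j = r + 1) (M : Rep k G) (x : D.locH M i)
    (y : D.locH (M.dualTwist χ) j) :
    lamLoc D χ inv h M x y =
      ∑ v, inv v ((D.𝒱 v).cupH ((evPairing χ M).res (D.φ v)) h (x v) (y v)) :=
  piDual_apply _ x y

/-- The value of `lamLoc` on the localisation of a global class. -/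
theorem lamLoc_locMapH {i j : ℕ} (h : i + j = r + 1) (M : Rep k G) (x : D.locH M i)
    (y : D.𝒰.levelCohomology (M.dualTwist χ) j) :
    (D.locMapH (M.dualTwist χ) j).dualMap (lamLoc D χ inv h M x) y =
      ∑ v, inv v ((D.𝒱 v).cupH ((evPairing χ M).res (D.φ v)) h (x v)
        (D.locMapHAt (M.dualTwist χ) j v y)) :=
  lamLoc_apply D χ inv h M x _

theorem bijective_lamLoc {i j : ℕ} (h : i + j = r + 1) (M : Rep k G)
    (hb : ∀ v, Function.Bijective (lamRes χ (D.φ v) (D.𝒱 v) (inv v) h M)) :
    Function.Bijective (lamLoc D χ inv h M) :=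
  bijective_piDual _ hb

end LamLoc

/-! ### The arithmetic datum -/

section Arith

variable {p : ℕ} [Fact p.Prime] (S : Finset Nat.Primes) (B : ∀ q : S, LocalBase p q.1)

/-- The family of local invariant maps of the arithmetic datum. -/
noncomputable def arithInv (v : (arithDatum S).ι) :
    ((arithDatum S).𝒱 v).levelCohomology
      (groupCohomology.ofChar (k := ZMod p) ((cycloChar p).comp ((arithDatum S).φ v))) (1 + 1)
        →ₗ[ZMod p] ZMod p :=
  (B v).inv

/-- **Local Tate duality, product form**: for a finite discrete Galois module `M` the products of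
the local duality maps `∏ H¹(G_q, M) → Dual (∏ H¹(G_q, M'))` and
`∏ H²(G_q, M) → Dual (∏ H⁰(G_q, M'))`, `q ∈ S`, are bijective. -/
theorem bijective_lamLoc_arith
    (M : Rep (ZMod p) (AlgebraicClosure ℚ ≃ₐ[ℚ] AlgebraicClosure ℚ)) [Finite M]
    (hM : (arithDatum S).𝒰.IsDiscrete M) :
    Function.Bijective (lamLoc (arithDatum S) (cycloChar p) (arithInv S B)
      (rfl : 1 + 1 = 1 + 1) M) ∧
    Function.Bijective (lamLoc (arithDatum S) (cycloChar p) (arithInv S B)
      (rfl : 2 + 0 = 1 + 1) M) := by
  have key := fun v : (arithDatum S).ι =>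
    (B v).localTate_res M ((arithDatum S).isDiscrete_resRep M hM v)
  exact ⟨bijective_lamLoc _ _ _ _ M fun v => (key v).1,
    bijective_lamLoc _ _ _ _ M fun v => (key v).2⟩

/-- The products of the local cohomology groups `∏ H¹(G_q, M)` and `∏ H²(G_q, M)` are finite. -/
theorem finite_locH_arith (B : ∀ q : S, LocalBase p q.1)
    (M : Rep (ZMod p) (AlgebraicClosure ℚ ≃ₐ[ℚ] AlgebraicClosure ℚ)) [Finite M]
    (hM : (arithDatum S).𝒰.IsDiscrete M) :
    Module.Finite (ZMod p) ((arithDatum S).locH M 1) ∧
    Module.Finite (ZMod p) ((arithDatum S).locH M 2) := by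
  have key := fun v : (arithDatum S).ι =>
    (B v).finite (Rep.res (primeLocalToGlobal v.1) M) ((arithDatum S).isDiscrete_resRep M hM v)
  constructor
  · have : ∀ v : (arithDatum S).ι, Module.Finite (ZMod p)
        (((arithDatum S).𝒱 v).levelCohomology ((arithDatum S).resRep M v) 1) :=
      fun v => (key v).1
    exact Module.Finite.pi
  · have : ∀ v : (arithDatum S).ι, Module.Finite (ZMod p)
        (((arithDatum S).𝒱 v).levelCohomology ((arithDatum S).resRep M v) 2) :=
      fun v => (key v).2
    exact Module.Finite.pi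

end Arith

end Fermat.Agent.Lib.CFT.Duality.LocalTate
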