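import Fermat.Agent.Lib.CFT.Duality.LocalTateArith
import Fermat.Agent.Lib.CFT.Duality.CoindDual
import Fermat.Agent.Lib.CFT.Profinite.CupShapiro

/-!
# Abstract local duality: transfer of the base case to the open subgroup

For an open subgroup `V` of `G` the duality map `lam` of `Duality/LocalTate.lean` for the
coinduced module `P V M = Coind_V^G (M|_V)` is identified with the duality map for the group `V`,
the module `M|_V` and the invariant map `inv ∘ cor : H^(r+1)(V, k(χ)) → k`:

`lam (P V M) x (dualIso_* y) = inv (cor (sh x ∪ sh y))`.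

Consequently (`bijective_lam_P_iff`) the base case of the devissage for `G` and `P V M` is
equivalent to duality for `V` and `M|_V`; no coinduced module is left.
-/

set_option autoImplicit false
set_option linter.unusedSectionVars false

universe u

open CategoryTheory

namespace Fermat.Agent.Lib.CFT.Duality.LocalTate

open Fermat.Agent.Lib.CFT.Profinite Fermat.Agent.Lib.CFT.Profinite.LevelFamily
open Fermat.Agent.Lib.CFT.Profinite.LES
open Fermat.Agent.Lib.CFT.Coh.Cup Fermat.Agent.Lib.CFT.Duality.DualTwist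
open Fermat.Agent.Lib.CFT.Duality.DevissageRep Fermat.Agent.Lib.CFT.Duality.CoindDual

variable {k G : Type u} [Field k] [Group G] (χ : G →* kˣ)

/-! ### The evaluation pairing of a coinduced module is a trace pairing -/

section Pairing

variable (V : Subgroup G) [V.FiniteIndex] (M : Rep.{u} k G)

/-- Under `dualIso : Coind_V (M'|_V) ≅ (Coind_V (M|_V))'` the evaluation pairing of
`Coind_V (M|_V)` is the trace pairing of the evaluation pairing of `M`. -/
theorem evPairing_dualIso (f : P V M) (F : P V (M.dualTwist χ)) :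
    (evPairing χ (P V M)).toLin f ((dualIso V M χ).hom.hom F) =
      (tracePairing V ((evPairing χ M).res V.subtype)).toLin f F := by
  classical
  let _ : Fintype (G ⧸ V) := Fintype.ofFinite _
  rw [evPairing_toLin_apply]
  refine (dualIso_hom_apply V M χ F f).trans ?_
  rw [tracePairing_toLin_apply]
  show _ = ∑ c : G ⧸ V, traceFun V (groupCohomology.ofChar χ)
    ((coindPairing V ((evPairing χ M).res V.subtype)).toLin f F) c
  unfold pairing
  refine Finset.sum_congr rfl fun c _ => ?_
  induction c using QuotientGroup.induction_on with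
  | H y =>
    rw [coord_mk, coord_mk, traceFun_mk]
    show ((M.dualTwist χ).ρ y (F.1 y⁻¹) : Module.Dual k M) (M.ρ y (f.1 y⁻¹)) =
      (groupCohomology.ofChar χ).ρ y ((F.1 y⁻¹ : Module.Dual k M) (f.1 y⁻¹))
    rw [Rep.dualTwist_ρ_apply, ofChar_ρ_apply]
    simp only [LinearMap.smul_apply, LinearMap.coe_comp, Function.comp_apply, smul_eq_mul]
    rw [← Module.End.mul_apply, ← map_mul, inv_mul_cancel, map_one, Module.End.one_apply]

end Pairing

/-! ### Transfer of the duality maps -/

section Transfer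

variable (𝒰 : LevelFamily G) {r : ℕ}
  (inv : 𝒰.levelCohomology (groupCohomology.ofChar χ) (r + 1) →ₗ[k] k)

/-- `k(χ)` is a discrete module if `χ` is trivial on a level. -/
theorem isDiscrete_ofChar (hχ : ∃ U ∈ 𝒰.levels, ∀ s ∈ U, χ s = 1) :
    𝒰.IsDiscrete (groupCohomology.ofChar χ) := by
  obtain ⟨U, hU, h⟩ := hχ
  refine fun c => ⟨U, hU, fun s hs => ?_⟩
  rw [ofChar_ρ_apply, h s hs]
  simp

variable {V : Subgroup G} (hV : IsOpenSubgroup 𝒰 V)
  (hμ : 𝒰.IsDiscrete (groupCohomology.ofChar χ))

/-- The invariant map of the open subgroup `V`: `inv ∘ cor`. -/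
noncomputable def invRestrict :
    (restrict 𝒰 V).levelCohomology (groupCohomology.ofChar (χ.comp V.subtype)) (r + 1) →ₗ[k] k :=
  inv ∘ₗ (cores hV hμ (r + 1)).hom

theorem invRestrict_apply
    (z : (restrict 𝒰 V).levelCohomology (groupCohomology.ofChar (χ.comp V.subtype)) (r + 1)) :
    invRestrict χ 𝒰 inv hV hμ z = inv ((cores hV hμ (r + 1)).hom z) := rfl

/-- **Transfer formula**: the duality pairing of `Coind_V^G (M|_V)` is the duality pairing of
`M|_V` for the group `V` and the invariant map `inv ∘ cor`. -/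
theorem lam_P_transfer {i j : ℕ} (h : i + j = r + 1) (M : Rep.{u} k G)
    (x : 𝒰.levelCohomology (P V M) i) (y : 𝒰.levelCohomology (P V (M.dualTwist χ)) j) :
    haveI := hV.finiteIndex
    lam χ 𝒰 inv h (P V M) x ((𝒰.levelCohomologyMap (dualIso V M χ).hom j).hom y) =
      lamRes χ V.subtype (restrict 𝒰 V) (invRestrict χ 𝒰 inv hV hμ) h M
        ((shapiro 𝒰 V (Rep.res V.subtype M) i).hom x)
        ((shapiro 𝒰 V (Rep.res V.subtype (M.dualTwist χ)) j).hom y) := by
  have := hV.finiteIndex
  rw [lam_apply, lamRes_apply]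
  refine congrArg inv ?_
  have key := 𝒰.cupH_map_adjoint (evPairing χ (P V M))
    (tracePairing V ((evPairing χ M).res V.subtype)) (𝟙 (P V M)) (dualIso V M χ).hom
    (fun a b' => (evPairing_dualIso χ V M a b').symm) h x y
  rw [levelCohomologyMap_id_apply] at key
  rw [← key]
  exact cupH_tracePairing ((evPairing χ M).res V.subtype) hV hμ h x y

/-- The base case of the devissage for `G` and `Coind_V^G (M|_V)` is equivalent to duality for the
open subgroup `V` and `M|_V`. -/
theorem bijective_lam_P_iff {i j : ℕ} (h : i + j = r + 1) (M : Rep.{u} k G)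
    (hM : 𝒰.IsDiscrete M) (hM' : 𝒰.IsDiscrete (M.dualTwist χ)) :
    Function.Bijective (lam χ 𝒰 inv h (P V M)) ↔
      Function.Bijective (lamRes χ V.subtype (restrict 𝒰 V) (invRestrict χ 𝒰 inv hV hμ) h M) := by
  have := hV.finiteIndex
  -- the three identifications
  let e₁ : 𝒰.levelCohomology (P V M) i ≃ₗ[k]
      (restrict 𝒰 V).levelCohomology (Rep.res V.subtype M) i :=
    (shapiroIso hV (isDiscrete_res 𝒰 V M hM) i).toLinearEquiv
  let e₂ : 𝒰.levelCohomology (P V (M.dualTwist χ)) j ≃ₗ[k]
      (restrict 𝒰 V).levelCohomology (Rep.res V.subtype (M.dualTwist χ)) j :=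
    (shapiroIso hV (isDiscrete_res 𝒰 V (M.dualTwist χ) hM') j).toLinearEquiv
  let e₃ : 𝒰.levelCohomology (P V (M.dualTwist χ)) j ≃ₗ[k]
      𝒰.levelCohomology ((P V M).dualTwist χ) j :=
    LinearEquiv.ofBijective (𝒰.levelCohomologyMap (dualIso V M χ).hom j).hom
      (bijective_levelCohomologyMap_of_iso 𝒰 (dualIso V M χ) j)
  have heq : ⇑(lam χ 𝒰 inv h (P V M)) =
      ⇑((e₃.symm.trans e₂).dualMap) ∘
        ⇑(lamRes χ V.subtype (restrict 𝒰 V) (invRestrict χ 𝒰 inv hV hμ) h M) ∘ ⇑e₁ := by
    funext x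
    refine LinearMap.ext fun y' => ?_
    obtain ⟨y, rfl⟩ := e₃.surjective y'
    have := lam_P_transfer χ 𝒰 inv hV hμ h M x y
    refine this.trans ?_
    show _ = lamRes χ V.subtype (restrict 𝒰 V) (invRestrict χ 𝒰 inv hV hμ) h M (e₁ x)
      ((e₃.symm.trans e₂) (e₃ y))
    rw [LinearEquiv.trans_apply, LinearEquiv.symm_apply_apply]
    rfl
  rw [heq]
  constructor
  · intro hb
    have h1 := (Function.Bijective.of_comp_iff' ((e₃.symm.trans e₂).dualMap).bijective _).1 hb
    exact (Function.Bijective.of_comp_iff _ e₁.bijective).1 h1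
  · intro hb
    exact ((e₃.symm.trans e₂).dualMap).bijective.comp (hb.comp e₁.bijective)

/-- Converse of `bijective_lamRes`. -/
theorem bijective_lamRes_iff {H : Type u} [Group H] (φ : H →* G) (𝒱 : LevelFamily H)
    (inv' : 𝒱.levelCohomology (groupCohomology.ofChar (χ.comp φ)) (r + 1) →ₗ[k] k)
    {i j : ℕ} (h : i + j = r + 1) (M : Rep.{u} k G) :
    Function.Bijective (lamRes χ φ 𝒱 inv' h M) ↔
      Function.Bijective (lam (χ.comp φ) 𝒱 inv' h (Rep.res φ M)) := by
  have hiso := bijective_levelCohomologyMap_of_iso 𝒱 (resDualTwistIso χ φ M) j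
  let E : 𝒱.levelCohomology (Rep.res φ (M.dualTwist χ)) j ≃ₗ[k]
      𝒱.levelCohomology ((Rep.res φ M).dualTwist (χ.comp φ)) j :=
    LinearEquiv.ofBijective (𝒱.levelCohomologyMap (resDualTwistIso χ φ M).hom j).hom hiso
  have heq : ⇑(lamRes χ φ 𝒱 inv' h M) =
      ⇑E.dualMap ∘ ⇑(lam (χ.comp φ) 𝒱 inv' h (Rep.res φ M)) := by
    funext x
    refine LinearMap.ext fun y => ?_
    exact lamRes_eq χ φ 𝒱 inv' h M x y
  rw [heq]
  exact Function.Bijective.of_comp_iff' E.dualMap.bijective _

/-- The trivial module twisted by `χ` is discrete if `χ` is trivial on a level. -/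
theorem isDiscrete_trivial_dualTwist (hχ : ∃ U ∈ 𝒰.levels, ∀ s ∈ U, χ s = 1) :
    𝒰.IsDiscrete ((Rep.trivial k G k).dualTwist χ) := by
  obtain ⟨U, hU, hU1⟩ := hχ
  refine fun f => ⟨U, hU, fun s hs => ?_⟩
  rw [Rep.dualTwist_ρ_apply, hU1 s hs]
  refine LinearMap.ext fun c => ?_
  simp

/-- **The base case in terms of the open subgroup.**  Duality for `G` and `Coind_V^G k` is
equivalent to duality for the group `V`, the trivial module `k` and the invariant map
`inv ∘ cor`. -/
theorem bijective_lam_PV_iff (hχ : ∃ U ∈ 𝒰.levels, ∀ s ∈ U, χ s = 1) {i j : ℕ}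
    (h : i + j = r + 1) :
    Function.Bijective (lam χ 𝒰 inv h (Additivity.PV (k := k) V)) ↔
      Function.Bijective (lam (χ.comp V.subtype) (restrict 𝒰 V)
        (invRestrict χ 𝒰 inv hV hμ) h (Rep.trivial k V k)) := by
  have hM : 𝒰.IsDiscrete (Rep.trivial k G k) := by
    obtain ⟨U, hU, -⟩ := hχ
    exact fun m => ⟨U, hU, fun s _ => rfl⟩
  exact (bijective_lam_P_iff χ 𝒰 inv hV hμ h (Rep.trivial k G k) hM
    (isDiscrete_trivial_dualTwist χ 𝒰 hχ)).trans
    (bijective_lamRes_iff χ V.subtype (restrict 𝒰 V) (invRestrict χ 𝒰 inv hV hμ) h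
      (Rep.trivial k G k))

end Transfer

/-! ### The devissage with the base case on the open subgroups -/

section Main

variable (𝒰 : LevelFamily G) {r : ℕ}
  (inv : 𝒰.levelCohomology (groupCohomology.ofChar χ) (r + 1) →ₗ[k] k)
  (hχ : ∃ U ∈ 𝒰.levels, ∀ s ∈ U, χ s = 1)
  (hvan : ∀ N : Rep.{u} k G, Finite N → 𝒰.IsDiscrete N →
    Subsingleton (𝒰.levelCohomology N (r + 2)))

include hχ hvan in
/-- **Abstract local duality, subgroup form.**  If `H^(r+2)` vanishes on finite discrete modules
and, for every normal level `V` on which `χ` is trivial, the duality maps of the group `V` with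
trivial coefficients `k` and invariant map `inv ∘ cor` are bijective in degrees `(r, 1)` and
`(r + 1, 0)`, then the duality maps of `G` are bijective for every finite discrete module. -/
theorem bijective_lam_of_restrict
    (hbase : ∀ (V : Subgroup G) (hV : V ∈ 𝒰.levels), V.Normal → (∀ s ∈ V, χ s = 1) →
      Function.Bijective (lam₀ (χ.comp V.subtype) (restrict 𝒰 V)
        (invRestrict χ 𝒰 inv (isOpenSubgroup_of_mem hV) (isDiscrete_ofChar χ 𝒰 hχ))
        (Rep.trivial k V k)) ∧
      Function.Bijective (lam₁ (χ.comp V.subtype) (restrict 𝒰 V)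
        (invRestrict χ 𝒰 inv (isOpenSubgroup_of_mem hV) (isDiscrete_ofChar χ 𝒰 hχ))
        (Rep.trivial k V k)))
    (M : Rep.{u} k G) [Finite M] (hM : 𝒰.IsDiscrete M) :
    Function.Bijective (lam₀ χ 𝒰 inv M) ∧ Function.Bijective (lam₁ χ 𝒰 inv M) := by
  refine bijective_lam_of_trivial' χ 𝒰 inv hχ hvan (fun V hV hn hχV => ?_) M hM
  obtain ⟨h0, h1⟩ := hbase V hV hn hχV
  exact ⟨(bijective_lam_PV_iff χ 𝒰 inv _ _ hχ _).2 h0, (bijective_lam_PV_iff χ 𝒰 inv _ _ hχ _).2 h1⟩

/-- Finiteness of `Hⁿ(G, Coind_V^G k)` from finiteness of `Hⁿ(V, k)`. -/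
theorem finite_levelCohomology_PV {V : Subgroup G} (hV : IsOpenSubgroup 𝒰 V) (n : ℕ)
    [Module.Finite k ((restrict 𝒰 V).levelCohomology (Rep.trivial k V k) n)] :
    Module.Finite k (𝒰.levelCohomology (Additivity.PV (k := k) V) n) := by
  obtain ⟨U₀, hU₀⟩ := (restrict 𝒰 V).nonempty
  have hB : (restrict 𝒰 V).IsDiscrete (Rep.trivial k V k) :=
    fun m => ⟨U₀, hU₀, fun s _ => rfl⟩
  exact Module.Finite.equiv (shapiroIso hV hB n).toLinearEquiv.symm

end Main

/-! ### The arithmetic case -/

section Arith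

open ExtCitation

variable {p : ℕ} [Fact p.Prime] {q : Nat.Primes}

/-- The hypotheses of local Tate duality at `q` stated on the open subgroups of `G_q` (no coinduced
modules): for the normal open subgroups `W` on which the cyclotomic character is trivial,
finiteness of `H¹(W, 𝔽_p)` and `H²(W, 𝔽_p)`, and duality for `W` with trivial coefficients and
invariant map `inv ∘ cor`; and `H³(W, 𝔽_p) = 0` for all open `W` in the kernel of the character. -/
theorem LocalBaseFor.of_restrict
    (inv : (primeLocalLevels q).levelCohomology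
      (groupCohomology.ofChar (k := ZMod p) (localCycloChar p q)) 2 →ₗ[ZMod p] ZMod p)
    (van : ∀ W : Subgroup (primeLocalGaloisGroup q), W ≤ (localCycloChar p q).ker →
      IsOpenSubgroup (primeLocalLevels q) W →
      Subsingleton ((restrict (primeLocalLevels q) W).levelCohomology
        (Rep.trivial (ZMod p) W (ZMod p)) 3))
    (fin : ∀ W ∈ (primeLocalLevels q).levels, W.Normal → (∀ s ∈ W, localCycloChar p q s = 1) →
      Module.Finite (ZMod p) ((restrict (primeLocalLevels q) W).levelCohomology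
        (Rep.trivial (ZMod p) W (ZMod p)) 1) ∧
      Module.Finite (ZMod p) ((restrict (primeLocalLevels q) W).levelCohomology
        (Rep.trivial (ZMod p) W (ZMod p)) 2))
    (base : ∀ (W : Subgroup (primeLocalGaloisGroup q)) (hW : W ∈ (primeLocalLevels q).levels),
      W.Normal → (∀ s ∈ W, localCycloChar p q s = 1) →
      Function.Bijective (lam₀ (r := 1) ((localCycloChar p q).comp W.subtype)
        (restrict (primeLocalLevels q) W)
        (invRestrict (localCycloChar p q) (primeLocalLevels q) inv (isOpenSubgroup_of_mem hW)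
          (isDiscrete_ofChar _ _ (exists_level_localCycloChar p q)))
        (Rep.trivial (ZMod p) W (ZMod p))) ∧
      Function.Bijective (lam₁ (r := 1) ((localCycloChar p q).comp W.subtype)
        (restrict (primeLocalLevels q) W)
        (invRestrict (localCycloChar p q) (primeLocalLevels q) inv (isOpenSubgroup_of_mem hW)
          (isDiscrete_ofChar _ _ (exists_level_localCycloChar p q)))
        (Rep.trivial (ZMod p) W (ZMod p)))) :
    LocalBaseFor inv where
  van := van
  fin W hW hn hχW := by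
    obtain ⟨h1, h2⟩ := fin W hW hn hχW
    exact ⟨finite_levelCohomology_PV _ (isOpenSubgroup_of_mem hW) 1,
      finite_levelCohomology_PV _ (isOpenSubgroup_of_mem hW) 2⟩
  base W hW hn hχW := by
    obtain ⟨h0, h1⟩ := base W hW hn hχW
    exact ⟨(bijective_lam_PV_iff _ _ inv _ _ (exists_level_localCycloChar p q) _).2 h0,
      (bijective_lam_PV_iff _ _ inv _ _ (exists_level_localCycloChar p q) _).2 h1⟩

end Arith

end Fermat.Agent.Lib.CFT.Duality.LocalTate
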