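import Fermat.Agent.Lib.CFT.Duality.S55Final
import Fermat.Agent.Lib.CFT.Duality.PTLinAlg

/-!
P-CFT, layer L4 (duality): reduction of the frozen statement S55 to an explicit list of
hypotheses (the output of `Duality/PoitouTate`), stated with the frozen Prelude objects.

Data to be supplied (k = ZMod p, M' = M.dualTwist (cycloChar p)):
* `H2c` (compactly supported H^2), `P1` (sum of local H^1(M)), linear maps
  `d : P1 → H2c`, `f : H2c → continuousH2S S M`, exact at `H2c` and with
  `range f = sha₂ S M`  (`sha₂ S M = ker (locTotal₂S S M)` by definition);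
* finite dimensionality of `continuousH1S S M'`;
* a perfect pairing `bg : H2c × continuousH1S S M' → k`;
* EITHER (`s55_of_annihilator`) the statement that a class `h` of `continuousH1S S M'` is
  orthogonal to `range d` iff it is locally trivial,
  OR (`s55_of_data`) a pairing `bl : P1 × (∀ v, H1 (res (extArithLoc S v) M')) → k`,
  nondegenerate on the right, with the compatibility `bg (d x) h = bl x (locTotal h)`.
-/

set_option autoImplicit false
set_option maxHeartbeats 400000
set_option synthInstance.maxHeartbeats 400000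
set_option linter.unusedSectionVars false

namespace Fermat.Agent.Lib.CFT.Duality.PTReduction

open CategoryTheory Module groupCohomology ExtCitation LinearMap

variable {p : ℕ} [Fact p.Prime] (S : Finset Nat.Primes)
  (M : Rep (ZMod p) (AlgebraicClosure ℚ ≃ₐ[ℚ] AlgebraicClosure ℚ))

/-- `sha₂` is by definition the kernel of the total localisation map in degree 2. -/
theorem sha₂_eq_ker : sha₂ S M = ker (locTotal₂S S M) := rfl

/-- `sha₁` is by definition `continuousH1S ⊓ ker locTotal`. -/
theorem sha₁_eq_inf_ker (A : Rep (ZMod p) (AlgebraicClosure ℚ ≃ₐ[ℚ] AlgebraicClosure ℚ)) :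
    sha₁ S A = continuousH1S S A ⊓ ker (locTotal (extArithLoc S) A) := rfl

/-- The frozen S55 conclusion from global duality plus the description of the annihilator of the
image of the local classes (no local pairing appears). -/
theorem s55_of_annihilator
    {H2c P1 : Type*} [AddCommGroup H2c] [Module (ZMod p) H2c] [AddCommGroup P1] [Module (ZMod p) P1]
    [FiniteDimensional (ZMod p) (continuousH1S S (M.dualTwist (cycloChar p)))]
    (d : P1 →ₗ[ZMod p] H2c) (f : H2c →ₗ[ZMod p] continuousH2S S M)
    (hdf : range d = ker f) (hfl : range f = sha₂ S M)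
    (bg : H2c →ₗ[ZMod p] continuousH1S S (M.dualTwist (cycloChar p)) →ₗ[ZMod p] ZMod p)
    (hbg_left : ∀ x, (∀ h, bg x h = 0) → x = 0) (hbg_right : ∀ h, (∀ x, bg x h = 0) → h = 0)
    (hann : ∀ h : continuousH1S S (M.dualTwist (cycloChar p)),
      (h : H1 (M.dualTwist (cycloChar p))) ∈ sha₁ S (M.dualTwist (cycloChar p)) ↔
        ∀ x, bg (d x) h = 0) :
    ∃ B : sha₁ S (M.dualTwist (cycloChar p)) →ₗ[ZMod p] sha₂ S M →ₗ[ZMod p] ZMod p,
      (∀ y, (∀ x, B y x = 0) → y = 0) ∧ (∀ x, (∀ y, B y x = 0) → x = 0) := by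
  let C := continuousH1S S (M.dualTwist (cycloChar p))
  let K1 : Submodule (ZMod p) C := (sha₁ S (M.dualTwist (cycloChar p))).comap C.subtype
  obtain ⟨h2, heq⟩ := PTLinAlg.finrank_eq_finrank_annihilator d f hdf (sha₂ S M) hfl bg
    hbg_left hbg_right K1 (fun h => hann h)
  have hle : sha₁ S (M.dualTwist (cycloChar p)) ≤ C := inf_le_left
  have hmap : K1.map C.subtype = sha₁ S (M.dualTwist (cycloChar p)) := by
    rw [Submodule.map_comap_subtype]
    exact inf_eq_right.2 hle
  let e : K1 ≃ₗ[ZMod p] sha₁ S (M.dualTwist (cycloChar p)) :=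
    (Submodule.equivMapOfInjective C.subtype C.injective_subtype _).trans
      (LinearEquiv.ofEq _ _ hmap)
  have h1 : Module.Finite (ZMod p) (sha₁ S (M.dualTwist (cycloChar p))) :=
    Module.Finite.equiv e
  exact s55_of_finrank_eq S M h1 h2 (by rw [heq]; exact e.finrank_eq.symm)

/-- The frozen S55 conclusion from the Poitou-Tate data, version with a local pairing on the
full product of the local `H1`, nondegenerate on the right. -/
theorem s55_of_data
    {H2c P1 : Type*} [AddCommGroup H2c] [Module (ZMod p) H2c] [AddCommGroup P1] [Module (ZMod p) P1]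
    [FiniteDimensional (ZMod p) (continuousH1S S (M.dualTwist (cycloChar p)))]
    (d : P1 →ₗ[ZMod p] H2c) (f : H2c →ₗ[ZMod p] continuousH2S S M)
    (hdf : range d = ker f) (hfl : range f = sha₂ S M)
    (bg : H2c →ₗ[ZMod p] continuousH1S S (M.dualTwist (cycloChar p)) →ₗ[ZMod p] ZMod p)
    (hbg_left : ∀ x, (∀ h, bg x h = 0) → x = 0) (hbg_right : ∀ h, (∀ x, bg x h = 0) → h = 0)
    (bl : P1 →ₗ[ZMod p]
      (∀ v, H1 (Rep.res (extArithLoc S v) (M.dualTwist (cycloChar p)))) →ₗ[ZMod p] ZMod p)
    (hbl_right : ∀ y, (∀ x, bl x y = 0) → y = 0)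
    (hcomp : ∀ x (h : continuousH1S S (M.dualTwist (cycloChar p))),
      bg (d x) h = bl x (locTotal (extArithLoc S) (M.dualTwist (cycloChar p)) h)) :
    ∃ B : sha₁ S (M.dualTwist (cycloChar p)) →ₗ[ZMod p] sha₂ S M →ₗ[ZMod p] ZMod p,
      (∀ y, (∀ x, B y x = 0) → y = 0) ∧ (∀ x, (∀ y, B y x = 0) → x = 0) := by
  refine s55_of_annihilator S M d f hdf hfl bg hbg_left hbg_right ?_
  intro h
  rw [sha₁_eq_inf_ker, Submodule.mem_inf, LinearMap.mem_ker]
  constructor
  · rintro ⟨-, hh⟩ x
    rw [hcomp, hh, map_zero]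
  · intro hh
    exact ⟨h.2, hbl_right _ fun x => by rw [← hcomp]; exact hh x⟩

end Fermat.Agent.Lib.CFT.Duality.PTReduction
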