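import Fermat.Statements.S55

/-!
P-CFT, layer L4 (duality), final glue: the frozen statement S55 follows from finite
dimensionality of the two Tate-Shafarevich groups and equality of their dimensions.
-/

set_option autoImplicit false

namespace Fermat.Agent.Lib.CFT.Duality

open Module

/-- Two finite-dimensional vector spaces of the same dimension admit a bilinear pairing which is
nondegenerate on both sides. -/
theorem exists_nondegenerate_pairing_of_finrank_eq {K : Type*} [Field K] {V W : Type*}
    [AddCommGroup V] [Module K V] [AddCommGroup W] [Module K W]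
    [FiniteDimensional K V] [FiniteDimensional K W] (h : finrank K V = finrank K W) :
    ∃ B : V →ₗ[K] W →ₗ[K] K,
      (∀ y, (∀ x, B y x = 0) → y = 0) ∧ (∀ x, (∀ y, B y x = 0) → x = 0) := by
  classical
  let e : V ≃ₗ[K] W := LinearEquiv.ofFinrankEq V W h
  let b := Module.finBasis K W
  refine ⟨b.toDual.comp (e : V →ₗ[K] W), ?_, ?_⟩
  · intro y hy
    have h1 : b.toDual (e y) = 0 := LinearMap.ext fun x => hy x
    have h2 : e y = 0 := by
      have := b.toDual_injective (h1.trans (map_zero _).symm)
      exact this
    exact e.injective (h2.trans (map_zero e).symm)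
  · intro x hx
    apply b.ext_elem
    intro i
    have := hx (e.symm (b i))
    simp only [LinearMap.comp_apply, LinearEquiv.coe_coe, LinearEquiv.apply_symm_apply,
      Module.Basis.toDual_apply_right] at this
    rw [this]
    simp

open CategoryTheory groupCohomology ExtCitation in
/-- The frozen statement S55 from finite dimensionality and the dimension equality
`dim Ш¹_S(M^*(1)) = dim Ш²_S(M)`. -/
theorem s55_of_finrank_eq
    {p : ℕ} [Fact p.Prime] (S : Finset Nat.Primes)
    (M : Rep (ZMod p) (AlgebraicClosure ℚ ≃ₐ[ℚ] AlgebraicClosure ℚ))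
    (h₁ : Module.Finite (ZMod p) (sha₁ S (M.dualTwist (cycloChar p))))
    (h₂ : Module.Finite (ZMod p) (sha₂ S M))
    (h : finrank (ZMod p) (sha₁ S (M.dualTwist (cycloChar p))) = finrank (ZMod p) (sha₂ S M)) :
    ∃ B : sha₁ S (M.dualTwist (cycloChar p)) →ₗ[ZMod p] sha₂ S M →ₗ[ZMod p] ZMod p,
      (∀ y, (∀ x, B y x = 0) → y = 0) ∧ (∀ x, (∀ y, B y x = 0) → x = 0) :=
  exists_nondegenerate_pairing_of_finrank_eq h

end Fermat.Agent.Lib.CFT.Duality
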