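import Fermat.Agent.Lib.CFT.Duality.LocDatum
import Fermat.Agent.Lib.CFT.Duality.S55Final
import Fermat.Agent.Lib.CFT.Profinite.BridgeS55

/-!
P-CFT, layer L4 (duality), final glue: the frozen statement S55 follows from finite
dimensionality and equality of dimensions of the two *level* Tate-Shafarevich groups
`(arithDatum S).shaLevel (M^*(1)) 1` and `(arithDatum S).shaLevel M 2`.
-/

set_option autoImplicit false

open CategoryTheory groupCohomology

namespace Fermat.Agent.Lib.CFT.Duality

open Fermat.Agent.Lib.CFT.Profinite Fermat.Agent.Lib.CFT.Profinite.LevelFamily ExtCitation Module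

local notation "Qbar" => AlgebraicClosure ℚ
local notation "Γℚ" => (AlgebraicClosure ℚ ≃ₐ[ℚ] AlgebraicClosure ℚ)

/-- The total localisation map of the bridge is the one of the arithmetic datum. -/
theorem locHTotal_eq_locMapH {k : Type} [CommRing k] (S : Finset Nat.Primes) (M : Rep k Γℚ)
    (n : ℕ) : Bridge.locHTotal S M n = (arithDatum S).locMapH M n := rfl

theorem ker_locHTotal_eq_shaLevel {k : Type} [CommRing k] (S : Finset Nat.Primes) (M : Rep k Γℚ)
    (n : ℕ) : LinearMap.ker (Bridge.locHTotal S M n) = (arithDatum S).shaLevel M n := rfl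

variable {p : ℕ} [Fact p.Prime]

/-- **S55 from the dimension equality of the level Tate-Shafarevich groups.** -/
theorem s55_of_finrank_shaLevel (hp2 : p ≠ 2) (S : Finset Nat.Primes) (hpS : pPrime p ∈ S)
    (M : Rep (ZMod p) Γℚ) [FiniteDimensional (ZMod p) M]
    (hsm : ∀ m : M, ∃ F : IntermediateField ℚ Qbar, FiniteDimensional ℚ F ∧
      ∀ s ∈ F.fixingSubgroup, M.ρ s m = m)
    (hMur : ∀ q : Nat.Primes, q ∉ S → ∀ A : ValuationSubring Qbar,
      A.LiesOverPrime (q : ℕ) → ∀ g ∈ A.inertiaSubgroupIn ℚ, M.ρ g = 1)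
    (h₁ : Module.Finite (ZMod p) ((arithDatum S).shaLevel (M.dualTwist (cycloChar p)) 1))
    (h₂ : Module.Finite (ZMod p) ((arithDatum S).shaLevel M 2))
    (h : finrank (ZMod p) ((arithDatum S).shaLevel (M.dualTwist (cycloChar p)) 1) =
      finrank (ZMod p) ((arithDatum S).shaLevel M 2)) :
    ∃ B' : sha₁ S (M.dualTwist (cycloChar p)) →ₗ[ZMod p] sha₂ S M →ₗ[ZMod p] ZMod p,
      (∀ y, (∀ x, B' y x = 0) → y = 0) ∧ (∀ x, (∀ y, B' y x = 0) → x = 0) := by
  obtain ⟨B, hB1, hB2⟩ := exists_nondegenerate_pairing_of_finrank_eq h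
  exact Bridge.s55_of_level_pairing hp2 S hpS M hsm hMur B hB1 hB2

end Fermat.Agent.Lib.CFT.Duality
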